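import Fermat.Agent.S41.Pair.InvAux

/-!
# S41 / Pair / Inv6 : (INV) at the level of `Pv`     (helper6; hedge for helper8's Inv.lean)
-/

set_option autoImplicit false

open ModularGroup Fermat.Agent.S16.Lower
open scoped MatrixGroups

noncomputable section

namespace Fermat.Agent.S41.Pair

variable {p : ℕ} [Fact p.Prime] {l : ℕ} {Γ Γ' : Subgroup SL(2, ℤ)} {e : Γ ≃* Γ'}

/-- transfers from the kernel of `κ` are orthogonal to `κ` -/
theorem inv6_kill [Γ.FiniteIndex] {κ : Additive Γ →+ ZMod p} {uS uU : SL(2, ℤ) → ZMod p}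
    (hH : IsH Γ κ uS uU) {ι : Type} [Fintype ι] {r : ι → Γ} (hr : IsReps (kerG Γ κ) Γ r)
    {κ' : Additive (kerG Γ κ) →+ ZMod p} {uS' uU' F' : SL(2, ℤ) → ZMod p}
    (hH' : IsH (kerG Γ κ) κ' uS' uU') (hF' : IsSymb (kerG Γ κ) κ' F') :
    Pv Γ (trF r F') (fun g => uS g - uU g) = 0 := by
  have : (kerG Γ κ).FiniteIndex := kerG_finiteIndex Γ κ
  rw [Pv_trF_left (kerG_le Γ κ) hr (xS_RI hF'.q) (hH.qS.sub_RI hH.qU)]
  have ha : RI (kerG Γ κ) uS := by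
    have := hH.qS.res (kerG_le Γ κ)
    rw [resH_kerG] at this
    exact QI_zero_iff.mp this
  have hb : RI (kerG Γ κ) uU := by
    have := hH.qU.res (kerG_le Γ κ)
    rw [resH_kerG] at this
    exact QI_zero_iff.mp this
  have hb' : RI (kerG Γ κ) (fun g => - uU g) := fun g γ => by dsimp only; rw [hb]
  have hbU : LI (S * T) (fun g => - uU g) := fun g => by dsimp only; rw [hH.lU]
  rw [← Pv_eq_zero_of_split hH' hF' ha hb' hH.lS hbU]
  exact Pv_congr (fun _ => rfl) (fun g => by ring)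

theorem inv6_orth (hp2 : p ≠ 2) (hl : 0 < l) [Γ.FiniteIndex] [Γ'.FiniteIndex]
    (hneg : (-1 : SL(2, ℤ)) ∈ Γ)
    (he : ∀ γ : Γ, matD l * ((γ : SL(2, ℤ)) : M2) = ((e γ : SL(2, ℤ)) : M2) * matD l)
    {κ κ' : Additive Γ →+ ZMod p} {F wS wU uS uU uSd uUd : SL(2, ℤ) → ZMod p}
    (hF : IsSymb Γ κ F) (hHF : IsH Γ κ wS wU) (hH : IsH Γ κ' uS uU)
    (hHd : IsH Γ' (liftH e κ') uSd uUd) (h0 : κ' ≠ 0)
    (hP : Pv Γ F (fun g => uS g - uU g) = 0) :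
    Pv Γ' (lift l F) (fun g => uSd g - uUd g) = 0 := by
  have : (kerG Γ κ').FiniteIndex := kerG_finiteIndex Γ κ'
  obtain ⟨ι, _, r, hr⟩ := exists_reps (kerG_le Γ κ')
  obtain ⟨κ'', F', vS, vU, c, hF', hH', hFeq⟩ := ker_tr hneg hH h0 hF hHF hP hr
  have hnegK : (-1 : SL(2, ℤ)) ∈ kerG Γ κ' := neg_one_mem_kerG hH hneg
  have hF'neg : ∀ g, F' (-g) = F' g := hF'.q.neg hp2 hnegK
  have h1 : lift l F = fun g => trF (fun i => e (r i)) (lift l F') g + c := by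
    funext g
    rw [← lift_trF hl he r hF'.l hF'neg]
    exact hFeq (dl l g)
  rw [h1, Pv_add_const]
  have hsymb : IsSymb (kerG Γ' (liftH e κ')) (liftH (kerEquiv e κ') κ'') (lift l F') :=
    lift_isSymb hp2 hl hnegK (kerEquiv_rel he κ') hF'
  obtain ⟨vSd, vUd, hHd'⟩ := exists_isH (liftH_mem_HH (e := kerEquiv e κ') (mem_HH_of_isH hH'))
  exact inv6_kill hHd (isReps_map κ' hr) hHd' hsymb

theorem inv6_caseA (hp2 : p ≠ 2) (hl : 0 < l) [Γ.FiniteIndex] [Γ'.FiniteIndex]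
    (hneg : (-1 : SL(2, ℤ)) ∈ Γ)
    (he : ∀ γ : Γ, matD l * ((γ : SL(2, ℤ)) : M2) = ((e γ : SL(2, ℤ)) : M2) * matD l)
    {κ κ' : Additive Γ →+ ZMod p} {F wS wU uS uU uSd uUd : SL(2, ℤ) → ZMod p}
    (hF : IsSymb Γ κ F) (hHF : IsH Γ κ wS wU) (hH : IsH Γ κ' uS uU)
    (hHd : IsH Γ' (liftH e κ') uSd uUd)
    (hne : Pv Γ (indT Γ) (fun g => uS g - uU g) ≠ 0) :
    Pv Γ' (lift l F) (fun g => uSd g - uUd g) = Pv Γ F (fun g => uS g - uU g) := by
  have h0 : κ' ≠ 0 := by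
    rintro rfl
    obtain ⟨w, hw, hwΓ, hmin⟩ := exists_width Γ
    apply hne
    rw [bd Γ 0 uS uU hH w hw hwΓ hmin]
    rfl
  set d : SL(2, ℤ) → ZMod p := fun g => uS g - uU g with hd
  set c : ZMod p := Pv Γ F d / Pv Γ (indT Γ) d with hc
  have hF1 : IsSymb Γ κ (fun g => F g - c * indT Γ g) :=
    ⟨fun g γ => by rw [hF.q, indT_RI Γ g γ]; ring,
      fun g => by rw [hF.l, indT_LI Γ g]⟩
  have hP1 : Pv Γ (fun g => F g - c * indT Γ g) d = 0 := by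
    rw [Pv_sub_left, Pv_smul_left, hc, div_mul_cancel₀ _ hne, sub_self]
  have h2 := inv6_orth hp2 hl hneg he hF1 hHF hH hHd h0 hP1
  have h3 : lift l (fun g => F g - c * indT Γ g) =
      fun g => lift l F g - c * lift l (indT Γ) g := rfl
  rw [h3, Pv_sub_left, Pv_smul_left, Pv_indT_conj hl he hneg hH hHd, hc,
    div_mul_cancel₀ _ hne, sub_eq_zero] at h2
  exact h2

/-- (INV) -/
theorem inv6_Pv_conj (hp2 : p ≠ 2) (hl : 1 < l) [Γ.FiniteIndex] [Γ'.FiniteIndex]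
    (hneg : (-1 : SL(2, ℤ)) ∈ Γ)
    (he : ∀ γ : Γ, matD l * ((γ : SL(2, ℤ)) : M2) = ((e γ : SL(2, ℤ)) : M2) * matD l)
    {κ κ' : Additive Γ →+ ZMod p} {F wS wU uS uU uSd uUd : SL(2, ℤ) → ZMod p}
    (hF : IsSymb Γ κ F) (hHF : IsH Γ κ wS wU) (hH : IsH Γ κ' uS uU)
    (hHd : IsH Γ' (liftH e κ') uSd uUd) :
    Pv Γ' (lift l F) (fun g => uSd g - uUd g) = Pv Γ F (fun g => uS g - uU g) := by
  have hl0 : 0 < l := by omega
  by_cases hne : Pv Γ (indT Γ) (fun g => uS g - uU g) = 0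
  · obtain ⟨κ₁, uS1, uU1, hH1, hne1⟩ := exists_H_indT_ne (p := p) hl he hneg
    obtain ⟨uS1d, uU1d, hH1d⟩ := exists_isH (liftH_mem_HH (e := e) (mem_HH_of_isH hH1))
    have hsum : IsH Γ (κ' + κ₁) (fun g => uS g + uS1 g) (fun g => uU g + uU1 g) := hH.add hH1
    have hsumd : IsH Γ' (liftH e (κ' + κ₁)) (fun g => uSd g + uS1d g) (fun g => uUd g + uU1d g) := by
      rw [liftH_add]
      exact hHd.add hH1d
    have e1 : ∀ (Δ : Subgroup SL(2, ℤ)) [Finite (SL(2, ℤ) ⧸ Δ)] (E a b a' b' : SL(2, ℤ) → ZMod p),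
        Pv Δ E (fun g => (a g + a' g) - (b g + b' g)) =
          Pv Δ E (fun g => a g - b g) + Pv Δ E (fun g => a' g - b' g) := by
      intro Δ _ E a b a' b'
      rw [← Pv_add_right]
      exact Pv_congr (fun _ => rfl) (fun g => by ring)
    have hne2 : Pv Γ (indT Γ) (fun g => (uS g + uS1 g) - (uU g + uU1 g)) ≠ 0 := by
      rw [e1, hne, zero_add]
      exact hne1
    have hA := inv6_caseA hp2 hl0 hneg he hF hHF hsum hsumd hne2
    have hB := inv6_caseA hp2 hl0 hneg he hF hHF hH1 hH1d hne1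
    rw [e1, e1, hB] at hA
    exact add_right_cancel hA
  · exact inv6_caseA hp2 hl0 hneg he hF hHF hH hHd hne

end Fermat.Agent.S41.Pair
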