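import Fermat.Agent.S41.Pair.Basic

/-!
# S41 / Pair / Lift : the action of `δ = diag(ℓ,1)` on modular symbols      key `S41/PAIR-LIFT` (helper21)

A function `F` on `G = SL(2,ℤ)` which is left invariant under `± T` is a function of the cusp `g⁻¹ ∞`.
For `g ∈ G` write `g δ = B h`, `B` upper triangular, `h ∈ G` (`h` is unique up to `± T^n` on the left);
`lift ℓ F g = F h`.
-/

set_option autoImplicit false

open ModularGroup Fermat.Agent.S16.Lower
open scoped MatrixGroups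

noncomputable section

namespace Fermat.Agent.S41.Pair

variable {p : ℕ}

theorem liftAux_LI_zpow {A : Type} {F : SL(2, ℤ) → A} (hT : LI T F) (n : ℤ) (g : SL(2, ℤ)) :
    F (T ^ n * g) = F g := by
  induction n using Int.induction_on generalizing g with
  | zero => simp
  | succ n ih =>
    have h1 := hT (T ^ ((n : ℤ) + 1) * g)
    rw [← h1, ← mul_assoc, ← ih g]
    congr 2
    group
  | pred n ih =>
    have h1 := hT (T ^ (-(n : ℤ)) * g)
    rw [← ih g, ← h1, ← mul_assoc]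
    congr 2
    group

theorem liftAux_eq_T {k : SL(2, ℤ)} (hk : k 1 0 = 0) : ∃ n : ℤ, k = T ^ n ∨ k = - T ^ n := by
  have hdet := Matrix.SpecialLinearGroup.det_coe k
  rw [Matrix.det_fin_two, hk, mul_zero, sub_zero] at hdet
  rcases Int.eq_one_or_neg_one_of_mul_eq_one' hdet with ⟨h0, h1⟩ | ⟨h0, h1⟩
  · refine ⟨k 0 1, Or.inl ?_⟩
    ext i j
    rw [coe_T_zpow]
    fin_cases i <;> fin_cases j <;> simp [h0, h1, hk]
  · refine ⟨- k 0 1, Or.inr ?_⟩
    ext i j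
    rw [Matrix.SpecialLinearGroup.coe_neg, coe_T_zpow]
    fin_cases i <;> fin_cases j <;> simp [h0, h1, hk]

theorem liftAux_inv {A : Type} {F : SL(2, ℤ) → A} (hT : LI T F) (hneg : ∀ g, F (-g) = F g)
    {k : SL(2, ℤ)} (hk : k 1 0 = 0) (g : SL(2, ℤ)) : F (k * g) = F g := by
  obtain ⟨n, rfl | rfl⟩ := liftAux_eq_T hk
  · exact liftAux_LI_zpow hT n g
  · rw [neg_mul, hneg, liftAux_LI_zpow hT n g]

/-- Hermite form -/
theorem exists_tri {l : ℕ} (hl : 0 < l) (g : SL(2, ℤ)) :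
    ∃ (h : SL(2, ℤ)) (B : M2), B 1 0 = 0 ∧ (g : M2) * matD l = B * (h : M2) := by
  have hcop : IsCoprime (g 1 0) (g 1 1) := by
    refine ⟨- g 0 1, g 0 0, ?_⟩
    have hdet := Matrix.SpecialLinearGroup.det_coe g
    rw [Matrix.det_fin_two] at hdet
    linarith
  set t : ℤ := (Int.gcd (g 1 0 * l) (g 1 1) : ℤ) with ht
  have ht0 : t ≠ 0 := by
    intro h0
    rw [ht, Int.natCast_eq_zero, Int.gcd_eq_zero_iff] at h0
    obtain ⟨h1, h2⟩ := h0
    have hl' : (l : ℤ) ≠ 0 := by exact_mod_cast hl.ne'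
    have h3 : g 1 0 = 0 := by
      rcases mul_eq_zero.1 h1 with h | h
      · exact h
      · exact absurd h hl'
    obtain ⟨u, v, huv⟩ := hcop
    rw [h3, h2] at huv
    simp at huv
  obtain ⟨c', hc'⟩ : t ∣ g 1 0 * l := Int.gcd_dvd_left _ _
  obtain ⟨d', hd'⟩ : t ∣ g 1 1 := Int.gcd_dvd_right _ _
  have hcop' : IsCoprime c' d' := by
    obtain ⟨u, v, huv⟩ : ∃ u v : ℤ, t = g 1 0 * l * u + g 1 1 * v :=
      ⟨_, _, Int.gcd_eq_gcd_ab _ _⟩
    refine ⟨u, v, ?_⟩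
    apply mul_left_cancel₀ ht0
    calc t * (u * c' + v * d') = (t * c') * u + (t * d') * v := by ring
      _ = t * 1 := by rw [← hc', ← hd', ← huv, mul_one]
  obtain ⟨h, h0, h1⟩ := hcop'.exists_SL2_row 1
  refine ⟨h, (g : M2) * matD l * ((h⁻¹ : SL(2, ℤ)) : M2), ?_, ?_⟩
  · rw [Matrix.SpecialLinearGroup.coe_inv, Matrix.adjugate_fin_two, matD]
    simp only [Matrix.mul_apply, Fin.sum_univ_two, Matrix.of_apply, Matrix.cons_val', Matrix.cons_val_zero,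
      Matrix.cons_val_one, Matrix.cons_val_fin_one]
    rw [h0, h1]
    have e1 : (g 1 0 * (l : ℤ) + g 1 1 * 0) * d' + (g 1 0 * 0 + g 1 1 * 1) * (- c') =
        (g 1 0 * l) * d' - g 1 1 * c' := by ring
    rw [e1]
    linear_combination d' * hc' - c' * hd'
  · rw [Matrix.mul_assoc, ← Matrix.SpecialLinearGroup.coe_mul, inv_mul_cancel,
      Matrix.SpecialLinearGroup.coe_one, Matrix.mul_one]

/-- a choice of `h` with `g δ = B h` -/
def dl (l : ℕ) (g : SL(2, ℤ)) : SL(2, ℤ) :=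
  if hl : 0 < l then (exists_tri hl g).choose else 1

theorem dl_spec {l : ℕ} (hl : 0 < l) (g : SL(2, ℤ)) :
    ∃ B : M2, B 1 0 = 0 ∧ (g : M2) * matD l = B * (dl l g : M2) := by
  unfold dl
  rw [dif_pos hl]
  exact (exists_tri hl g).choose_spec

/-- `δ_* F` -/
def lift (l : ℕ) {A : Type} (F : SL(2, ℤ) → A) : SL(2, ℤ) → A := fun g => F (dl l g)

theorem lift_eq' {l : ℕ} (hl : 0 < l) {A : Type} {F : SL(2, ℤ) → A} (hT : LI T F)
    (hneg : ∀ g, F (-g) = F g) {g h : SL(2, ℤ)} {B : M2} (hB : B 1 0 = 0)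
    (e : (g : M2) * matD l = B * (h : M2)) : lift l F g = F h := by
  obtain ⟨B', hB', e'⟩ := dl_spec hl g
  unfold lift
  set h' := dl l g with hh'
  have hdet : B'.det = l := by
    have h1 := congrArg Matrix.det e'
    rw [Matrix.det_mul, Matrix.det_mul, Matrix.SpecialLinearGroup.det_coe,
      Matrix.SpecialLinearGroup.det_coe, one_mul, mul_one] at h1
    rw [← h1, matD, Matrix.det_fin_two_of]
    ring
  have hB11 : B' 1 1 ≠ 0 := by
    intro h0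
    rw [Matrix.det_fin_two, hB', h0] at hdet
    simp at hdet
    omega
  -- `B = B' * (h' * h⁻¹)`
  have e2 : B = B' * ((h' * h⁻¹ : SL(2, ℤ)) : M2) := by
    rw [Matrix.SpecialLinearGroup.coe_mul, ← Matrix.mul_assoc, ← e', e, Matrix.mul_assoc,
      ← Matrix.SpecialLinearGroup.coe_mul, mul_inv_cancel, Matrix.SpecialLinearGroup.coe_one,
      Matrix.mul_one]
  have hk : (h' * h⁻¹ : SL(2, ℤ)) 1 0 = 0 := by
    have h1 := congrFun (congrFun e2 1) 0
    rw [hB, Matrix.mul_apply, Fin.sum_univ_two, hB', zero_mul, zero_add] at h1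
    rcases mul_eq_zero.1 h1.symm with h | h
    · exact absurd h hB11
    · exact h
  have := liftAux_inv hT hneg hk h
  rw [← this, mul_assoc, inv_mul_cancel, mul_one]

theorem lift_eq {l : ℕ} (hl : 0 < l) {A : Type} {F : SL(2, ℤ) → A} (hT : LI T F)
    (hneg : ∀ g, F (-g) = F g) {g h : SL(2, ℤ)} {a b d : ℤ}
    (e : (g : M2) * matD l = !![a, b; 0, d] * (h : M2)) : lift l F g = F h :=
  lift_eq' hl hT hneg (B := !![a, b; 0, d]) (by simp) e

@[simp] theorem lift_add (l : ℕ) (F F' : SL(2, ℤ) → ZMod p) :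
    lift l (F + F') = lift l F + lift l F' := rfl

@[simp] theorem lift_sub (l : ℕ) (F F' : SL(2, ℤ) → ZMod p) :
    lift l (F - F') = lift l F - lift l F' := rfl

@[simp] theorem lift_smul (l : ℕ) (c : ZMod p) (F : SL(2, ℤ) → ZMod p) :
    lift l (c • F) = c • lift l F := rfl

@[simp] theorem lift_const (l : ℕ) (c : ZMod p) :
    lift l (fun _ : SL(2, ℤ) => c) = fun _ => c := rfl

/-- a hom to `ZMod p`, `p` odd, kills `-1` -/
theorem map_neg_one_eq_zero [Fact p.Prime] (hp2 : p ≠ 2) {Γ : Subgroup SL(2, ℤ)}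
    (hneg : (-1 : SL(2, ℤ)) ∈ Γ) (κ : Additive Γ →+ ZMod p) :
    κ (Additive.ofMul ⟨-1, hneg⟩) = 0 := by
  have h1 : κ (Additive.ofMul ⟨-1, hneg⟩) + κ (Additive.ofMul ⟨-1, hneg⟩) = 0 := by
    rw [← map_add, ← ofMul_mul]
    have : (⟨-1, hneg⟩ : Γ) * ⟨-1, hneg⟩ = 1 := by
      apply Subtype.ext
      simp
    rw [this, ofMul_one, map_zero]
  have h2 : (2 : ZMod p) ≠ 0 := by
    intro h
    have h3 : ((2 : ℕ) : ZMod p) = 0 := by exact_mod_cast h
    rw [ZMod.natCast_eq_zero_iff] at h3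
    exact hp2 ((Nat.prime_dvd_prime_iff_eq (Fact.out) Nat.prime_two).1 h3)
  have h4 : (2 : ZMod p) * κ (Additive.ofMul ⟨-1, hneg⟩) = 0 := by rw [two_mul, h1]
  exact (mul_eq_zero.1 h4).resolve_left h2

theorem QI.neg [Fact p.Prime] (hp2 : p ≠ 2) {Γ : Subgroup SL(2, ℤ)}
    (hneg : (-1 : SL(2, ℤ)) ∈ Γ) {κ : Additive Γ →+ ZMod p} {F : SL(2, ℤ) → ZMod p}
    (h : QI Γ κ F) (g : SL(2, ℤ)) : F (-g) = F g := by
  have h1 := h g ⟨-1, hneg⟩
  rw [map_neg_one_eq_zero hp2 hneg, add_zero] at h1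
  rw [← h1]
  congr 1
  simp

section conj

variable {l : ℕ} {Γ Γ' : Subgroup SL(2, ℤ)} (e : Γ ≃* Γ')

/-- `δ_* κ` -/
def liftH (κ : Additive Γ →+ ZMod p) : Additive Γ' →+ ZMod p :=
  κ.comp (MonoidHom.toAdditive e.symm.toMonoidHom)

@[simp] theorem liftH_apply (κ : Additive Γ →+ ZMod p) (γ : Γ) :
    liftH e κ (Additive.ofMul (e γ)) = κ (Additive.ofMul γ) := by
  show κ (Additive.ofMul (e.symm (e γ))) = _
  rw [e.symm_apply_apply]

theorem liftH_apply' (κ : Additive Γ →+ ZMod p) (γ : Γ') :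
    liftH e κ (Additive.ofMul γ) = κ (Additive.ofMul (e.symm γ)) := rfl

variable {e}

theorem lift_QI (hl : 0 < l)
    (he : ∀ γ : Γ, matD l * ((γ : SL(2, ℤ)) : M2) = ((e γ : SL(2, ℤ)) : M2) * matD l)
    {κ : Additive Γ →+ ZMod p} {F : SL(2, ℤ) → ZMod p} (hT : LI T F) (hneg : ∀ g, F (-g) = F g)
    (h : QI Γ κ F) : QI Γ' (liftH e κ) (lift l F) := by
  intro g γ'
  obtain ⟨γ, rfl⟩ := e.surjective γ'
  obtain ⟨B, hB, e1⟩ := dl_spec hl g
  rw [liftH_apply]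
  have e2 : ((g * (e γ : SL(2, ℤ)) : SL(2, ℤ)) : M2) * matD l =
      B * ((dl l g * (γ : SL(2, ℤ)) : SL(2, ℤ)) : M2) := by
    rw [Matrix.SpecialLinearGroup.coe_mul, Matrix.SpecialLinearGroup.coe_mul, Matrix.mul_assoc,
      ← he, ← Matrix.mul_assoc, e1, Matrix.mul_assoc]
  rw [lift_eq' hl hT hneg hB e2, h]
  rfl

theorem lift_LI (hl : 0 < l) {A : Type} {F : SL(2, ℤ) → A} (hT : LI T F)
    (hneg : ∀ g, F (-g) = F g) : LI T (lift l F) := by
  intro g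
  obtain ⟨B, hB, e1⟩ := dl_spec hl g
  have e2 : ((T⁻¹ * g : SL(2, ℤ)) : M2) * matD l = (((T⁻¹ : SL(2, ℤ)) : M2) * B) * (dl l g : M2) := by
    rw [Matrix.SpecialLinearGroup.coe_mul, Matrix.mul_assoc, e1, Matrix.mul_assoc]
  refine lift_eq' hl hT hneg ?_ e2
  rw [Matrix.mul_apply, Fin.sum_univ_two, hB, mul_zero, add_zero, coe_T_inv]
  simp

theorem lift_neg (hl : 0 < l) {A : Type} {F : SL(2, ℤ) → A} (hT : LI T F)
    (hneg : ∀ g, F (-g) = F g) (g : SL(2, ℤ)) : lift l F (-g) = lift l F g := by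
  obtain ⟨B, hB, e1⟩ := dl_spec hl g
  have e2 : ((-g : SL(2, ℤ)) : M2) * matD l = (-B) * (dl l g : M2) := by
    rw [Matrix.SpecialLinearGroup.coe_neg, Matrix.neg_mul, e1, Matrix.neg_mul]
  refine lift_eq' hl hT hneg ?_ e2
  rw [Matrix.neg_apply, hB, neg_zero]

/-- `δ_*` of a symbol is a symbol -/
theorem lift_isSymb [Fact p.Prime] (hp2 : p ≠ 2) (hl : 0 < l) (hneg : (-1 : SL(2, ℤ)) ∈ Γ)
    (he : ∀ γ : Γ, matD l * ((γ : SL(2, ℤ)) : M2) = ((e γ : SL(2, ℤ)) : M2) * matD l)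
    {κ : Additive Γ →+ ZMod p} {F : SL(2, ℤ) → ZMod p} (h : IsSymb Γ κ F) :
    IsSymb Γ' (liftH e κ) (lift l F) :=
  ⟨lift_QI hl he h.l (h.q.neg hp2 hneg) h.q, lift_LI hl h.l (h.q.neg hp2 hneg)⟩

/-- `δ_*` commutes with the transfer of functions -/
theorem lift_trF (hl : 0 < l)
    (he : ∀ γ : Γ, matD l * ((γ : SL(2, ℤ)) : M2) = ((e γ : SL(2, ℤ)) : M2) * matD l)
    {ι : Type} [Fintype ι] (r : ι → Γ) {F : SL(2, ℤ) → ZMod p} (hT : LI T F)
    (hneg : ∀ g, F (-g) = F g) :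
    lift l (trF r F) = trF (fun i => e (r i)) (lift l F) := by
  funext g
  obtain ⟨B, hB, e1⟩ := dl_spec hl g
  show ∑ i, F (dl l g * (r i : SL(2, ℤ))⁻¹) = ∑ i, lift l F (g * (e (r i) : SL(2, ℤ))⁻¹)
  refine Finset.sum_congr rfl fun i _ => ?_
  have e2 : ((g * (e (r i) : SL(2, ℤ))⁻¹ : SL(2, ℤ)) : M2) * matD l =
      B * ((dl l g * (r i : SL(2, ℤ))⁻¹ : SL(2, ℤ)) : M2) := by
    have h1 := he (r i)⁻¹
    rw [map_inv, Subgroup.coe_inv, Subgroup.coe_inv] at h1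
    rw [Matrix.SpecialLinearGroup.coe_mul, Matrix.SpecialLinearGroup.coe_mul, Matrix.mul_assoc,
      ← h1, ← Matrix.mul_assoc, e1, Matrix.mul_assoc]
  rw [lift_eq' hl hT hneg hB e2]

end conj

end Fermat.Agent.S41.Pair
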