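import Fermat.Agent.S41.Pair.BForm
import Fermat.Agent.S41.Pair.Lift

/-!
# S41 / Pair / Main : (P) and (INV) for the bilinear form `Bf`     (helper6)
-/

set_option autoImplicit false

open ModularGroup Fermat.Agent.S16.Lower
open scoped MatrixGroups

noncomputable section

namespace Fermat.Agent.S41.Pair

variable {p : ℕ}

theorem trF_sub {Γ : Subgroup SL(2, ℤ)} {ι : Type} [Fintype ι] (r : ι → Γ)
    (u u' : SL(2, ℤ) → ZMod p) (g : SL(2, ℤ)) :
    trF r (fun g => u g - u' g) g = trF r u g - trF r u' g := by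
  unfold trF
  rw [Finset.sum_sub_distrib]

/-- (P) -/
theorem Bf_res_tr {Γ' Γ : Subgroup SL(2, ℤ)} (hle : Γ' ≤ Γ) [Finite (SL(2, ℤ) ⧸ Γ')]
    {ι : Type} [Fintype ι] (r : ι → SL(2, ℤ)) (hr : ∀ i, r i ∈ Γ)
    (hr' : ∀ g ∈ Γ, ∃! i, g * (r i)⁻¹ ∈ Γ')
    (x : PH p Γ) (x' : PH p Γ') (y : PH p Γ') (y' : PH p Γ)
    (hx : ∀ γ : Γ', (x' : Additive Γ' →+ ZMod p) (Additive.ofMul γ) =
      (x : Additive Γ →+ ZMod p) (Additive.ofMul (Subgroup.inclusion hle γ)))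
    (hy : IsTr Γ' Γ (fun i => ((r i : SL(2, ℤ)) : M2)) (y : Additive Γ' →+ ZMod p)
      (y' : Additive Γ →+ ZMod p)) :
    Bf p Γ' x' y = Bf p Γ x y' := by
  have : Finite (SL(2, ℤ) ⧸ Γ) := finite_of_le hle
  let r₁ : ι → Γ := fun i => ⟨r i, hr i⟩
  have hreps : IsReps Γ' Γ r₁ := fun γ => hr' γ γ.2
  have hx' : (x' : Additive Γ' →+ ZMod p) = resH hle (x : Additive Γ →+ ZMod p) := by
    refine AddMonoidHom.ext fun γ => ?_
    exact hx (Additive.toMul γ)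
  have hF : IsSymb Γ' (x' : Additive Γ' →+ ZMod p) (chF x) := by
    rw [hx']
    exact (chF_spec x).res hle
  have hH : IsH Γ (y' : Additive Γ →+ ZMod p) (trF r₁ (chS y)) (trF r₁ (chU y)) :=
    ⟨trF_QI hreps hy (chH_spec y).qS, trF_QI hreps hy (chH_spec y).qU,
      trF_LI r₁ (chH_spec y).lS, trF_LI r₁ (chH_spec y).lU⟩
  rw [Bf_eq x' y hF (chH_spec y), Bf_eq x y' (chF_spec x) hH,
    ← Pv_trF_right hle hreps (xS_RI (chF_spec x).q) ((chH_spec y).qS.sub_RI (chH_spec y).qU)]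
  exact Pv_congr (fun _ => rfl) (fun g => trF_sub r₁ _ _ g)

/-- (INV), from the statement `Pv_conj` of `Inv.lean` -/
theorem Bf_conj_of [Fact p.Prime] (hp2 : p ≠ 2) {l : ℕ} (hl : 0 < l) {Γ Γ' : Subgroup SL(2, ℤ)}
    [Finite (SL(2, ℤ) ⧸ Γ)] [Finite (SL(2, ℤ) ⧸ Γ')] (hneg : (-1 : SL(2, ℤ)) ∈ Γ) (e : Γ ≃* Γ')
    (he : ∀ γ : Γ, matD l * ((γ : SL(2, ℤ)) : M2) = ((e γ : SL(2, ℤ)) : M2) * matD l)
    (hconj : ∀ (κ κ' : Additive Γ →+ ZMod p) (F wS wU uS uU uSd uUd : SL(2, ℤ) → ZMod p),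
      IsSymb Γ κ F → IsH Γ κ wS wU → IsH Γ κ' uS uU → IsH Γ' (liftH e κ') uSd uUd →
      Pv Γ' (lift l F) (fun g => uSd g - uUd g) = Pv Γ F (fun g => uS g - uU g))
    (x y : PH p Γ') (x' y' : PH p Γ)
    (hx : ∀ γ : Γ, (x' : Additive Γ →+ ZMod p) (Additive.ofMul γ) =
      (x : Additive Γ' →+ ZMod p) (Additive.ofMul (e γ)))
    (hy : ∀ γ : Γ, (y' : Additive Γ →+ ZMod p) (Additive.ofMul γ) =
      (y : Additive Γ' →+ ZMod p) (Additive.ofMul (e γ))) :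
    Bf p Γ x' y' = Bf p Γ' x y := by
  have hxe : (x : Additive Γ' →+ ZMod p) = liftH e (x' : Additive Γ →+ ZMod p) := by
    refine AddMonoidHom.ext fun γ => ?_
    have := hx (e.symm (Additive.toMul γ))
    rw [e.apply_symm_apply] at this
    exact this.symm
  have hye : (y : Additive Γ' →+ ZMod p) = liftH e (y' : Additive Γ →+ ZMod p) := by
    refine AddMonoidHom.ext fun γ => ?_
    have := hy (e.symm (Additive.toMul γ))
    rw [e.apply_symm_apply] at this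
    exact this.symm
  have hF : IsSymb Γ' (x : Additive Γ' →+ ZMod p) (lift l (chF x')) := by
    rw [hxe]
    exact lift_isSymb hp2 hl hneg he (chF_spec x')
  have hH : IsH Γ' (liftH e (y' : Additive Γ →+ ZMod p)) (chS y) (chU y) := by
    rw [← hye]
    exact chH_spec y
  rw [Bf_eq x' y' (chF_spec x') (chH_spec y'), Bf_eq x y hF (chH_spec y)]
  exact (hconj _ _ _ _ _ _ _ _ _ (chF_spec x') (chH_spec x') (chH_spec y') hH).symm

end Fermat.Agent.S41.Pair
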