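import Fermat.Agent.S41.Pair.Integ

/-!
# S41 / Pair / Anti : orthogonality and antisymmetry   [key S41/PAIR-ANTI]

Notation `<a,b> = integ Γ (a * b)` for right invariant `a b`; `<a(h·), b(h·)> = <a,b>` (`integ_translate`).
`F` symbol, `(uS,uU)` data of the same `κ`:  `w = F - uS`, `y = F - uU` are right invariant and
`xS F = (S-1) w = (U-1) y`  [`uS` is `S`-invariant; `xS F g = F (U⁻¹ g) - F g` by `xS_eq_U`; `uU` is `U`-invariant].
* `Pv_eq_zero_of_split`: `<(S-1)w, a> = <w(S⁻¹·), a> - <w,a> = <w, a(S·)> - <w,a> = 0`, same for `(U, y, b)`.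
* `Pv_antisymm`: `uS' - uU' = y' - w'`.
  `<x,y'-w'> + <x',y-w> = [<(U-1)y,y'> + <(U-1)y',y>] - [<(S-1)w,w'> + <(S-1)w',w>]`
  and `<(U-1)y,(U-1)y'> = 2<y,y'> - <y(U⁻¹·),y'> - <y,y'(U⁻¹·)> = -[<(U-1)y,y'> + <(U-1)y',y>]`; so the sum is
  `-<x,x'> + <x,x'> = 0`.
-/

set_option autoImplicit false

open ModularGroup
open scoped MatrixGroups

noncomputable section

namespace Fermat.Agent.S41.Pair

variable {p : ℕ} {Γ : Subgroup SL(2, ℤ)}

theorem anti_adj [Finite (SL(2, ℤ) ⧸ Γ)] (h : SL(2, ℤ)) {w a : SL(2, ℤ) → ZMod p}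
    (hw : RI Γ w) (ha : RI Γ a) :
    integ Γ (fun g => w (h⁻¹ * g) * a g) = integ Γ (fun g => w g * a (h * g)) := by
  have h1 := integ_translate h ((hw.translate h⁻¹).mul ha)
  rw [← h1]
  exact integ_congr fun g => by rw [inv_mul_cancel_left]

theorem anti_zero [Finite (SL(2, ℤ) ⧸ Γ)] (h : SL(2, ℤ)) {w a : SL(2, ℤ) → ZMod p}
    (hw : RI Γ w) (ha : RI Γ a) (hah : LI h a) :
    integ Γ (fun g => (w (h⁻¹ * g) - w g) * a g) = 0 := by
  have h1 : integ Γ (fun g => (w (h⁻¹ * g) - w g) * a g) =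
      integ Γ (fun g => w (h⁻¹ * g) * a g) - integ Γ (fun g => w g * a g) := by
    rw [← integ_sub]
    exact integ_congr fun g => by ring
  rw [h1, anti_adj h hw ha, sub_eq_zero]
  exact integ_congr fun g => by rw [hah.mul_left]

theorem anti_key [Finite (SL(2, ℤ) ⧸ Γ)] (h : SL(2, ℤ)) {y y' : SL(2, ℤ) → ZMod p}
    (hy : RI Γ y) (hy' : RI Γ y') :
    integ Γ (fun g => (y (h⁻¹ * g) - y g) * y' g) + integ Γ (fun g => (y' (h⁻¹ * g) - y' g) * y g) =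
      - integ Γ (fun g => (y (h⁻¹ * g) - y g) * (y' (h⁻¹ * g) - y' g)) := by
  have ht : integ Γ (fun g => y (h⁻¹ * g) * y' (h⁻¹ * g)) = integ Γ (fun g => y g * y' g) :=
    integ_translate h⁻¹ (hy.mul hy')
  rw [eq_neg_iff_add_eq_zero, ← integ_add, ← integ_add]
  have h2 : integ Γ (fun g => (y (h⁻¹ * g) - y g) * y' g + (y' (h⁻¹ * g) - y' g) * y g +
      (y (h⁻¹ * g) - y g) * (y' (h⁻¹ * g) - y' g)) =
      integ Γ (fun g => y (h⁻¹ * g) * y' (h⁻¹ * g)) - integ Γ (fun g => y g * y' g) := by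
    rw [← integ_sub]
    exact integ_congr fun g => by ring
  rw [h2, ht, sub_self]

theorem anti_xS_S {κ : Additive Γ →+ ZMod p} {uS uU : SL(2, ℤ) → ZMod p} (F : SL(2, ℤ) → ZMod p)
    (hH : IsH Γ κ uS uU) (g : SL(2, ℤ)) :
    xS F g = (F (S⁻¹ * g) - uS (S⁻¹ * g)) - (F g - uS g) := by
  unfold xS
  rw [hH.lS]
  ring

theorem anti_xS_U {κ : Additive Γ →+ ZMod p} {uS uU F : SL(2, ℤ) → ZMod p}
    (hH : IsH Γ κ uS uU) (hF : LI T F) (g : SL(2, ℤ)) :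
    xS F g = (F ((S * T)⁻¹ * g) - uU ((S * T)⁻¹ * g)) - (F g - uU g) := by
  rw [xS_eq_U hF, hH.lU]
  ring

theorem Pv_eq_zero_of_split [Finite (SL(2, ℤ) ⧸ Γ)] {κ : Additive Γ →+ ZMod p}
    {uS uU F a b : SL(2, ℤ) → ZMod p} (hH : IsH Γ κ uS uU) (hF : IsSymb Γ κ F)
    (ha : RI Γ a) (hb : RI Γ b) (haS : LI S a) (hbU : LI (S * T) b) :
    Pv Γ F (fun g => a g + b g) = 0 := by
  rw [Pv_add_right]
  have h1 : Pv Γ F a = 0 := by
    rw [← anti_zero S (hF.q.sub_RI hH.qS) ha haS]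
    unfold Pv
    exact integ_congr fun g => by rw [anti_xS_S F hH]
  have h2 : Pv Γ F b = 0 := by
    rw [← anti_zero (S * T) (hF.q.sub_RI hH.qU) hb hbU]
    unfold Pv
    exact integ_congr fun g => by rw [anti_xS_U hH hF.l]
  rw [h1, h2, add_zero]

theorem Pv_antisymm [Finite (SL(2, ℤ) ⧸ Γ)] {κ κ' : Additive Γ →+ ZMod p}
    {uS uU F uS' uU' F' : SL(2, ℤ) → ZMod p} (hH : IsH Γ κ uS uU) (hF : IsSymb Γ κ F)
    (hH' : IsH Γ κ' uS' uU') (hF' : IsSymb Γ κ' F') :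
    Pv Γ F (fun g => uS' g - uU' g) + Pv Γ F' (fun g => uS g - uU g) = 0 := by
  have hw := hF.q.sub_RI hH.qS
  have hy := hF.q.sub_RI hH.qU
  have hw' := hF'.q.sub_RI hH'.qS
  have hy' := hF'.q.sub_RI hH'.qU
  have kS := anti_key S hw hw'
  have kU := anti_key (S * T) hy hy'
  -- the four pieces
  have e1 : Pv Γ F (fun g => uS' g - uU' g) =
      integ Γ (fun g => ((F ((S * T)⁻¹ * g) - uU ((S * T)⁻¹ * g)) - (F g - uU g)) * (F' g - uU' g)) -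
      integ Γ (fun g => ((F (S⁻¹ * g) - uS (S⁻¹ * g)) - (F g - uS g)) * (F' g - uS' g)) := by
    rw [← integ_sub]
    unfold Pv
    refine integ_congr fun g => ?_
    rw [← anti_xS_S F hH, ← anti_xS_U hH hF.l]
    ring
  have e2 : Pv Γ F' (fun g => uS g - uU g) =
      integ Γ (fun g => ((F' ((S * T)⁻¹ * g) - uU' ((S * T)⁻¹ * g)) - (F' g - uU' g)) * (F g - uU g)) -
      integ Γ (fun g => ((F' (S⁻¹ * g) - uS' (S⁻¹ * g)) - (F' g - uS' g)) * (F g - uS g)) := by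
    rw [← integ_sub]
    unfold Pv
    refine integ_congr fun g => ?_
    rw [← anti_xS_S F' hH', ← anti_xS_U hH' hF'.l]
    ring
  have e3 : integ Γ (fun g => ((F ((S * T)⁻¹ * g) - uU ((S * T)⁻¹ * g)) - (F g - uU g)) *
        ((F' ((S * T)⁻¹ * g) - uU' ((S * T)⁻¹ * g)) - (F' g - uU' g))) =
      integ Γ (fun g => ((F (S⁻¹ * g) - uS (S⁻¹ * g)) - (F g - uS g)) *
        ((F' (S⁻¹ * g) - uS' (S⁻¹ * g)) - (F' g - uS' g))) := by
    refine integ_congr fun g => ?_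
    rw [← anti_xS_S F hH, ← anti_xS_U hH hF.l, ← anti_xS_S F' hH', ← anti_xS_U hH' hF'.l]
  rw [e1, e2]
  rw [e3] at kU
  linear_combination kU - kS

/-- independence of the data of `κ'` -/
theorem Pv_indep_right [Finite (SL(2, ℤ) ⧸ Γ)] {κ κ' : Additive Γ →+ ZMod p}
    {uS uU F uS' uU' vS' vU' : SL(2, ℤ) → ZMod p} (hH : IsH Γ κ uS uU) (hF : IsSymb Γ κ F)
    (hH' : IsH Γ κ' uS' uU') (hH'' : IsH Γ κ' vS' vU') :
    Pv Γ F (fun g => uS' g - uU' g) = Pv Γ F (fun g => vS' g - vU' g) := by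
  rw [← sub_eq_zero, ← Pv_sub_right]
  rw [← Pv_eq_zero_of_split hH hF (hH'.qS.sub_RI hH''.qS) (hH''.qU.sub_RI hH'.qU)
    (hH'.lS.sub hH''.lS) (hH''.lU.sub hH'.lU)]
  exact Pv_congr (fun _ => rfl) fun g => by ring

/-- independence of the symbol, when `κ'` is parabolic -/
theorem Pv_indep_left [Finite (SL(2, ℤ) ⧸ Γ)] {κ κ' : Additive Γ →+ ZMod p}
    {uS uU F F₁ uS' uU' F' : SL(2, ℤ) → ZMod p} (hH : IsH Γ κ uS uU) (hF : IsSymb Γ κ F)
    (hF₁ : IsSymb Γ κ F₁) (hH' : IsH Γ κ' uS' uU') (hF' : IsSymb Γ κ' F') :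
    Pv Γ F (fun g => uS' g - uU' g) = Pv Γ F₁ (fun g => uS' g - uU' g) := by
  rw [← sub_eq_zero, ← Pv_sub_left]
  have h0 : IsH Γ (0 : Additive Γ →+ ZMod p) (fun _ => 0) (fun _ => 0) :=
    ⟨fun _ _ => by simp, fun _ _ => by simp, fun _ => rfl, fun _ => rfl⟩
  have hF0 : IsSymb Γ (0 : Additive Γ →+ ZMod p) (fun g => F g - F₁ g) :=
    ⟨QI_zero_iff.2 (hF.q.sub_RI hF₁.q), hF.l.sub hF₁.l⟩
  have h1 := Pv_antisymm h0 hF0 hH' hF'
  have h2 : Pv Γ F' (fun _ => (0 : ZMod p) - 0) = 0 := by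
    unfold Pv
    rw [← integ_zero (Γ := Γ)]
    exact integ_congr fun g => by ring
  rw [h2, add_zero] at h1
  exact h1

end Fermat.Agent.S41.Pair
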