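import Fermat.Agent.S41.Pair.Basic

/-!
# S41 / Pair / BD : the boundary formula at `∞`      [key S41/PAIR-BD, helper9]

`indT Γ` = indicator of `{g | ∃ n : ℤ, T ^ n * g ∈ Γ}` (the `Γ`-orbit of `∞`).
`bd` : `Pv Γ (indT Γ) (uS - uU) = κ (T ^ w)`, `w` = the width of `∞`.

General lemmas on `integ` : `bd_integ_eq_sum`, `bd_integ_translate`, `bd_integ_congr`, `bd_integ_sub`.
-/

set_option autoImplicit false

open ModularGroup
open scoped MatrixGroups

noncomputable section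

namespace Fermat.Agent.S41.Pair

variable {p : ℕ}

/-- a right invariant function as a function on the quotient -/
def bdLift (Γ : Subgroup SL(2, ℤ)) {A : Type} (f : SL(2, ℤ) → A) (hf : RI Γ f) :
    SL(2, ℤ) ⧸ Γ → A :=
  Quotient.lift f (by
    intro a b hab
    have h1 : a⁻¹ * b ∈ Γ := QuotientGroup.leftRel_apply.1 hab
    have h2 := hf a ⟨a⁻¹ * b, h1⟩
    simp only [mul_inv_cancel_left] at h2
    exact h2.symm)

@[simp] theorem bdLift_mk (Γ : Subgroup SL(2, ℤ)) {A : Type} (f : SL(2, ℤ) → A) (hf : RI Γ f)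
    (g : SL(2, ℤ)) : bdLift Γ f hf (g : SL(2, ℤ) ⧸ Γ) = f g := rfl

theorem bdLift_out (Γ : Subgroup SL(2, ℤ)) {A : Type} (f : SL(2, ℤ) → A) (hf : RI Γ f)
    (x : SL(2, ℤ) ⧸ Γ) : f x.out = bdLift Γ f hf x := by
  conv_rhs => rw [← QuotientGroup.out_eq' x]
  rfl

theorem bd_integ_eq (Γ : Subgroup SL(2, ℤ)) (f : SL(2, ℤ) → ZMod p) (hf : RI Γ f) :
    integ Γ f = ∑ᶠ x : SL(2, ℤ) ⧸ Γ, bdLift Γ f hf x :=
  finsum_congr fun x => bdLift_out Γ f hf x

/-- translation invariance of the integral -/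
theorem bd_integ_translate (Γ : Subgroup SL(2, ℤ)) (f : SL(2, ℤ) → ZMod p) (hf : RI Γ f)
    (h : SL(2, ℤ)) : integ Γ (fun g => f (h * g)) = integ Γ f := by
  have hf' : RI Γ (fun g => f (h * g)) := fun g γ => by
    show f (h * (g * γ)) = f (h * g)
    rw [← mul_assoc, hf]
  rw [bd_integ_eq Γ _ hf', bd_integ_eq Γ _ hf]
  rw [← finsum_comp_equiv (MulAction.toPerm h : Equiv.Perm (SL(2, ℤ) ⧸ Γ))
    (f := bdLift Γ f hf)]
  refine finsum_congr fun x => ?_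
  induction x using QuotientGroup.induction_on with
  | H g => rfl

theorem bd_integ_sub (Γ : Subgroup SL(2, ℤ)) [Γ.FiniteIndex] (f f' : SL(2, ℤ) → ZMod p) :
    integ Γ (fun g => f g - f' g) = integ Γ f - integ Γ f' := by
  haveI : Finite (SL(2, ℤ) ⧸ Γ) := Subgroup.finite_quotient_of_finiteIndex
  exact finsum_sub_distrib (Set.toFinite _) (Set.toFinite _)

/-- the indicator function of the `Γ`-orbit of `∞` -/
def indT (Γ : Subgroup SL(2, ℤ)) : SL(2, ℤ) → ZMod p := by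
  classical
  exact fun g => if ∃ n : ℤ, T ^ n * g ∈ Γ then 1 else 0

theorem indT_RI (Γ : Subgroup SL(2, ℤ)) : RI Γ (indT Γ : SL(2, ℤ) → ZMod p) := by
  classical
  intro g γ
  have : (∃ n : ℤ, T ^ n * (g * γ) ∈ Γ) ↔ ∃ n : ℤ, T ^ n * g ∈ Γ := by
    refine exists_congr fun n => ?_
    rw [← mul_assoc]
    exact Subgroup.mul_mem_cancel_right Γ γ.2
  simp only [indT, this]

theorem indT_LI (Γ : Subgroup SL(2, ℤ)) : LI T (indT Γ : SL(2, ℤ) → ZMod p) := by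
  classical
  intro g
  have : (∃ n : ℤ, T ^ n * (T⁻¹ * g) ∈ Γ) ↔ ∃ n : ℤ, T ^ n * g ∈ Γ := by
    constructor
    · rintro ⟨n, hn⟩
      refine ⟨n - 1, ?_⟩
      rwa [zpow_sub, zpow_one, mul_assoc]
    · rintro ⟨n, hn⟩
      refine ⟨n + 1, ?_⟩
      rwa [zpow_add, zpow_one, mul_assoc, mul_inv_cancel_left]
  simp only [indT, this]

/-- the sum of `indT Γ * ψ` -/
theorem bd_integ_indT (Γ : Subgroup SL(2, ℤ)) [Γ.FiniteIndex] (ψ : SL(2, ℤ) → ZMod p)
    (hψ : RI Γ ψ) (w : ℕ) (hw : 0 < w) (hwΓ : T ^ w ∈ Γ)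
    (hmin : ∀ m : ℕ, 0 < m → m < w → T ^ m ∉ Γ) :
    integ Γ (fun g => indT Γ g * ψ g) = ∑ j ∈ Finset.range w, ψ (T ^ j) := by
  classical
  haveI : Finite (SL(2, ℤ) ⧸ Γ) := Subgroup.finite_quotient_of_finiteIndex
  letI : Fintype (SL(2, ℤ) ⧸ Γ) := Fintype.ofFinite _
  have hRI : RI Γ (fun g => indT Γ g * ψ g) := fun g γ => by
    show indT Γ (g * γ) * ψ (g * γ) = indT Γ g * ψ g
    rw [indT_RI, hψ]
  rw [bd_integ_eq Γ _ hRI, finsum_eq_sum_of_fintype]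
  let e : ℕ → SL(2, ℤ) ⧸ Γ := fun j => ((T ^ j : SL(2, ℤ)) : SL(2, ℤ) ⧸ Γ)
  have hinj : Set.InjOn e (Finset.range w : Set ℕ) := by
    have key : ∀ i j : ℕ, i < j → j < w → e i ≠ e j := by
      intro i j hij hj h
      have h1 : (T ^ i)⁻¹ * T ^ j ∈ Γ := QuotientGroup.eq.1 h
      have h2 : (T ^ i)⁻¹ * T ^ j = T ^ (j - i) := by
        rw [inv_mul_eq_iff_eq_mul, ← pow_add]
        congr 1
        omega
      rw [h2] at h1
      exact hmin (j - i) (by omega) (by omega) h1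
    intro i hi j hj h
    have hi' : i < w := Finset.mem_range.1 hi
    have hj' : j < w := Finset.mem_range.1 hj
    rcases lt_trichotomy i j with hlt | heq | hgt
    · exact absurd h (key i j hlt hj')
    · exact heq
    · exact absurd h.symm (key j i hgt hi')
  have hsum : ∑ j ∈ Finset.range w, ψ (T ^ j) =
      ∑ x ∈ (Finset.range w).image e, bdLift Γ (fun g => indT Γ g * ψ g) hRI x := by
    rw [Finset.sum_image hinj]
    refine Finset.sum_congr rfl fun j _ => ?_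
    show ψ (T ^ j) = indT Γ (T ^ j) * ψ (T ^ j)
    have : ∃ n : ℤ, T ^ n * T ^ j ∈ Γ := ⟨-(j : ℤ), by simp [Γ.one_mem]⟩
    simp only [indT, if_pos this, one_mul]
  rw [hsum]
  symm
  apply Finset.sum_subset (Finset.subset_univ _)
  intro x _ hx
  induction x using QuotientGroup.induction_on with
  | H g =>
    show indT Γ g * ψ g = 0
    have : ¬ ∃ n : ℤ, T ^ n * g ∈ Γ := by
      rintro ⟨n, hn⟩
      apply hx
      rw [Finset.mem_image]
      have hw' : (w : ℤ) ≠ 0 := by exact_mod_cast hw.ne'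
      have hw'' : (0 : ℤ) < w := by exact_mod_cast hw
      refine ⟨((-n) % (w : ℤ)).toNat, ?_, ?_⟩
      · rw [Finset.mem_range]
        have h1 := Int.emod_lt_of_pos (-n) hw''
        have h2 := Int.emod_nonneg (-n) hw'
        omega
      · show ((T ^ ((-n) % (w : ℤ)).toNat : SL(2, ℤ)) : SL(2, ℤ) ⧸ Γ) = (g : SL(2, ℤ) ⧸ Γ)
        rw [QuotientGroup.eq]
        have h2 := Int.emod_nonneg (-n) hw'
        have h3 : (T ^ ((-n) % (w : ℤ)).toNat : SL(2, ℤ)) = T ^ ((-n) % (w : ℤ)) := by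
          rw [← zpow_natCast, Int.toNat_of_nonneg h2]
        have h4 : (-n) % (w : ℤ) = -n - (w : ℤ) * ((-n) / (w : ℤ)) := by
          have := Int.emod_add_mul_ediv (-n) (w : ℤ)
          omega
        rw [h3, h4, ← zpow_neg]
        have h5 : -(-n - (w : ℤ) * ((-n) / (w : ℤ))) = (w : ℤ) * ((-n) / (w : ℤ)) + n := by ring
        rw [h5, zpow_add, mul_assoc]
        refine Γ.mul_mem ?_ hn
        rw [zpow_mul, zpow_natCast]
        exact Γ.zpow_mem hwΓ _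
    simp only [indT, if_neg this, zero_mul]

theorem LI.apply' {h : SL(2, ℤ)} {A : Type} {f : SL(2, ℤ) → A} (hf : LI h f) (g : SL(2, ℤ)) :
    f (h * g) = f g := by
  have := hf (h * g)
  rw [inv_mul_cancel_left] at this
  exact this.symm

/-- **the boundary formula** -/
theorem bd (Γ : Subgroup SL(2, ℤ)) [Γ.FiniteIndex] (κ : Additive Γ →+ ZMod p)
    (uS uU : SL(2, ℤ) → ZMod p) (h : IsH Γ κ uS uU) (w : ℕ) (hw : 0 < w) (hwΓ : T ^ w ∈ Γ)
    (hmin : ∀ m : ℕ, 0 < m → m < w → T ^ m ∉ Γ) :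
    Pv Γ (indT Γ) (fun g => uS g - uU g) = κ (Additive.ofMul (⟨T ^ w, hwΓ⟩ : Γ)) := by
  have hd : RI Γ (fun g => uS g - uU g) := fun g γ => by
    show uS (g * γ) - uU (g * γ) = uS g - uU g
    rw [h.qS, h.qU]
    ring
  -- first step : move `S`
  have h1 : Pv Γ (indT Γ) (fun g => uS g - uU g) =
      integ Γ (fun g => indT Γ g * (uU g - uU (T⁻¹ * g))) := by
    have e1 : Pv Γ (indT Γ) (fun g => uS g - uU g) =
        integ Γ (fun g => indT Γ (S⁻¹ * g) * (uS g - uU g)) -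
          integ Γ (fun g => indT Γ g * (uS g - uU g)) := by
      rw [← bd_integ_sub]
      unfold Pv xS
      congr 1
      funext g
      ring
    have hRI : RI Γ (fun g => indT Γ (S⁻¹ * g) * (uS g - uU g)) := fun g γ => by
      show indT Γ (S⁻¹ * (g * γ)) * (uS (g * γ) - uU (g * γ)) = indT Γ (S⁻¹ * g) * (uS g - uU g)
      rw [← mul_assoc, indT_RI, h.qS, h.qU]
      ring
    have e2 := bd_integ_translate Γ _ hRI S
    rw [e1, ← e2, ← bd_integ_sub]
    congr 1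
    funext g
    show indT Γ (S⁻¹ * (S * g)) * (uS (S * g) - uU (S * g)) - indT Γ g * (uS g - uU g) = _
    have e3 : uU (S * g) = uU (T⁻¹ * g) := by
      have := h.lU.apply' (T⁻¹ * g)
      rw [mul_assoc, mul_inv_cancel_left] at this
      exact this
    rw [inv_mul_cancel_left, h.lS.apply', e3]
    ring
  have hψ : RI Γ (fun g => uU g - uU (T⁻¹ * g)) := fun g γ => by
    show uU (g * γ) - uU (T⁻¹ * (g * γ)) = uU g - uU (T⁻¹ * g)
    rw [← mul_assoc, h.qU, h.qU]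
    ring
  rw [h1, bd_integ_indT Γ _ hψ w hw hwΓ hmin]
  have h2 : ∀ j : ℕ, uU (T ^ j) - uU (T⁻¹ * T ^ j) =
      (fun j : ℕ => uU (T⁻¹ * T ^ j)) (j + 1) - (fun j : ℕ => uU (T⁻¹ * T ^ j)) j := by
    intro j
    show _ = uU (T⁻¹ * T ^ (j + 1)) - uU (T⁻¹ * T ^ j)
    rw [pow_succ', inv_mul_cancel_left]
  rw [Finset.sum_congr rfl fun j _ => h2 j,
    Finset.sum_range_sub (fun j : ℕ => uU (T⁻¹ * T ^ j)) w]
  show uU (T⁻¹ * T ^ w) - uU (T⁻¹ * T ^ 0) = _
  have h3 := h.qU T⁻¹ ⟨T ^ w, hwΓ⟩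
  rw [pow_zero, mul_one]
  rw [show (T⁻¹ * T ^ w : SL(2, ℤ)) = T⁻¹ * ((⟨T ^ w, hwΓ⟩ : Γ) : SL(2, ℤ)) from rfl, h3]
  ring

end Fermat.Agent.S41.Pair
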