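import Fermat.Agent.S41.Pair.Perf

/-!
# S41 / Pair / BForm : the bilinear form `Bf Γ` on `PH p Γ`     (helper6)
-/

set_option autoImplicit false

open ModularGroup
open scoped MatrixGroups

noncomputable section

namespace Fermat.Agent.S41.Pair

variable {p : ℕ} {Γ : Subgroup SL(2, ℤ)}

/-- chosen symbol -/
def chF (x : PH p Γ) : SL(2, ℤ) → ZMod p := (exists_isSymb x.2).choose

theorem chF_spec (x : PH p Γ) : IsSymb Γ (x : Additive Γ →+ ZMod p) (chF x) :=
  (exists_isSymb x.2).choose_spec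

/-- chosen `S`-invariant function -/
def chS (x : PH p Γ) : SL(2, ℤ) → ZMod p := (exists_isH (PH_le_HH p Γ x.2)).choose

/-- chosen `U`-invariant function -/
def chU (x : PH p Γ) : SL(2, ℤ) → ZMod p := (exists_isH (PH_le_HH p Γ x.2)).choose_spec.choose

theorem chH_spec (x : PH p Γ) : IsH Γ (x : Additive Γ →+ ZMod p) (chS x) (chU x) :=
  (exists_isH (PH_le_HH p Γ x.2)).choose_spec.choose_spec

/-- the raw pairing -/
def rawB (x y : PH p Γ) : ZMod p := Pv Γ (chF x) (fun g => chS y g - chU y g)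

theorem rawB_eq [Finite (SL(2, ℤ) ⧸ Γ)] (x y : PH p Γ) {F uS uU : SL(2, ℤ) → ZMod p}
    (hF : IsSymb Γ (x : Additive Γ →+ ZMod p) F) (hH : IsH Γ (y : Additive Γ →+ ZMod p) uS uU) :
    rawB x y = Pv Γ F (fun g => uS g - uU g) := by
  unfold rawB
  rw [Pv_indep_left (chH_spec x) (chF_spec x) hF (chH_spec y) (chF_spec y),
    Pv_indep_right (chH_spec x) hF (chH_spec y) hH]

theorem rawB_add_left [Finite (SL(2, ℤ) ⧸ Γ)] (x x' y : PH p Γ) :
    rawB (x + x') y = rawB x y + rawB x' y := by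
  rw [rawB_eq (x + x') y (F := fun g => chF x g + chF x' g) ((chF_spec x).add (chF_spec x'))
    (chH_spec y), Pv_add_left]
  rfl

theorem rawB_smul_left [Finite (SL(2, ℤ) ⧸ Γ)] (c : ZMod p) (x y : PH p Γ) :
    rawB (c • x) y = c • rawB x y := by
  rw [rawB_eq (c • x) y (F := fun g => c * chF x g) ((chF_spec x).smul c) (chH_spec y),
    Pv_smul_left]
  rfl

theorem rawB_add_right [Finite (SL(2, ℤ) ⧸ Γ)] (x y y' : PH p Γ) :
    rawB x (y + y') = rawB x y + rawB x y' := by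
  rw [rawB_eq x (y + y') (chF_spec x) ((chH_spec y).add (chH_spec y'))]
  unfold rawB
  rw [← Pv_add_right]
  exact Pv_congr (fun _ => rfl) (fun g => by ring)

theorem rawB_smul_right [Finite (SL(2, ℤ) ⧸ Γ)] (c : ZMod p) (x y : PH p Γ) :
    rawB x (c • y) = c • rawB x y := by
  rw [rawB_eq x (c • y) (chF_spec x) ((chH_spec y).smul c)]
  unfold rawB
  rw [smul_eq_mul, ← Pv_smul_right]
  exact Pv_congr (fun _ => rfl) (fun g => by ring)

open Classical in
/-- the bilinear form -/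
def Bf (p : ℕ) (Γ : Subgroup SL(2, ℤ)) : PH p Γ →ₗ[ZMod p] PH p Γ →ₗ[ZMod p] ZMod p :=
  if h : Finite (SL(2, ℤ) ⧸ Γ) then
    LinearMap.mk₂ (ZMod p) rawB (fun x x' y => rawB_add_left x x' y)
      (fun c x y => rawB_smul_left c x y) (fun x y y' => rawB_add_right x y y')
      (fun c x y => rawB_smul_right c x y)
  else 0

theorem Bf_eq [h : Finite (SL(2, ℤ) ⧸ Γ)] (x y : PH p Γ) {F uS uU : SL(2, ℤ) → ZMod p}
    (hF : IsSymb Γ (x : Additive Γ →+ ZMod p) F) (hH : IsH Γ (y : Additive Γ →+ ZMod p) uS uU) :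
    Bf p Γ x y = Pv Γ F (fun g => uS g - uU g) := by
  unfold Bf
  rw [dif_pos h, LinearMap.mk₂_apply]
  exact rawB_eq x y hF hH

theorem Bf_antisymm [Finite (SL(2, ℤ) ⧸ Γ)] (x y : PH p Γ) : Bf p Γ x y = - Bf p Γ y x := by
  rw [Bf_eq x y (chF_spec x) (chH_spec y), Bf_eq y x (chF_spec y) (chH_spec x)]
  exact eq_neg_of_add_eq_zero_left
    (Pv_antisymm (chH_spec x) (chF_spec x) (chH_spec y) (chF_spec y))

theorem Bf_nondeg [Fact p.Prime] [Finite (SL(2, ℤ) ⧸ Γ)] (hneg : (-1 : SL(2, ℤ)) ∈ Γ) (y : PH p Γ)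
    (h : ∀ x, Bf p Γ x y = 0) : y = 0 := by
  obtain ⟨a, b, ha, hb, haS, hbU, hab⟩ := perf_right (Γ := Γ) hneg
    (d := fun g => chS y g - chU y g) ((chH_spec y).qS.sub_RI (chH_spec y).qU)
    (fun κ uS uU F hH hF => by
      have hκ : κ ∈ PH p Γ := mem_PH_of hneg hH hF
      have := h ⟨κ, hκ⟩
      rwa [Bf_eq ⟨κ, hκ⟩ y hF (chH_spec y)] at this)
  exact Subtype.ext (eq_zero_of_split (chH_spec y) ha hb haS hbU hab)

end Fermat.Agent.S41.Pair
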