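import Mathlib

/-!
# S41 / Pair / Pres : `PSL(2,ℤ) = ℤ/2 * ℤ/3` as a universal property

`pres` : for `s u` in a group `H` with `s ^ 2 = 1 = u ^ 3` there is a homomorphism
`Φ : SL(2,ℤ) →* H` with `Φ S = s`, `Φ (S * T) = u`.

Proof: ping-pong (`Monoid.CoprodI.lift_injective_of_ping_pong`) for the congruence action
`g • M = g M gᵀ` of `SL(2,ℤ)` on `2 × 2` integer matrices.
-/

set_option autoImplicit false

namespace Fermat.Agent.S41.Pair

open Matrix ModularGroup Monoid
open scoped MatrixGroups Pointwise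

/-- the space on which we play ping-pong. -/
abbrev PresM := Matrix (Fin 2) (Fin 2) ℤ

/-- the congruence action `M ↦ g M gᵀ`. -/
def presEnd : SL(2,ℤ) →* Function.End PresM where
  toFun g := fun M => g.1 * M * g.1ᵀ
  map_one' := by
    funext M
    change ((1 : SL(2,ℤ)) : Matrix (Fin 2) (Fin 2) ℤ) * M *
      ((1 : SL(2,ℤ)) : Matrix (Fin 2) (Fin 2) ℤ)ᵀ = M
    simp
  map_mul' g h := by
    funext M
    change ((g * h : SL(2,ℤ)) : Matrix (Fin 2) (Fin 2) ℤ) * M *
      ((g * h : SL(2,ℤ)) : Matrix (Fin 2) (Fin 2) ℤ)ᵀ = g.1 * (h.1 * M * h.1ᵀ) * g.1ᵀ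
    simp [Matrix.transpose_mul, Matrix.mul_assoc]

/-- the congruence action as a homomorphism to permutations. -/
def presRho : SL(2,ℤ) →* Equiv.Perm PresM := presEnd.toHomPerm

lemma presRho_apply (g : SL(2,ℤ)) (M : PresM) : presRho g M = g.1 * M * g.1ᵀ := rfl

lemma presRho_S (M : PresM) : presRho S M = !![M 1 1, -M 1 0; -M 0 1, M 0 0] := by
  ext i j
  simp only [presRho_apply, coe_S, Matrix.mul_apply, Fin.sum_univ_two, Matrix.transpose_apply]
  fin_cases i <;> fin_cases j <;> simp

lemma presRho_U (M : PresM) : presRho (S * T) M =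
    !![M 1 1, -M 1 0 - M 1 1; -M 0 1 - M 1 1, M 0 0 + M 1 0 + M 0 1 + M 1 1] := by
  ext i j
  simp only [presRho_apply, Matrix.mul_apply, Fin.sum_univ_two, Matrix.transpose_apply]
  fin_cases i <;> fin_cases j <;> simp <;> ring

lemma presRho_S_sq : presRho S ^ 2 = 1 := by
  ext M i j
  simp only [pow_two, Equiv.Perm.mul_apply, presRho_S, Equiv.Perm.one_apply]
  fin_cases i <;> fin_cases j <;> simp

lemma presRho_U_sq (M : PresM) : (presRho (S * T) ^ 2) M =
    !![M 0 0 + M 1 0 + M 0 1 + M 1 1, -M 0 0 - M 1 0; -M 0 0 - M 0 1, M 0 0] := by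
  ext i j
  simp only [pow_two, Equiv.Perm.mul_apply, presRho_U]
  fin_cases i <;> fin_cases j <;> simp <;> ring

lemma presRho_U_cube : presRho (S * T) ^ 3 = 1 := by
  ext M i j
  rw [pow_succ, Equiv.Perm.mul_apply, presRho_U_sq, presRho_U, Equiv.Perm.one_apply]
  fin_cases i <;> fin_cases j <;> simp <;> ring

/-- orders of the two free factors. -/
def presN : Bool → ℕ := fun b => cond b 3 2

/-- the two free factors `ℤ/2`, `ℤ/3`. -/
abbrev PresH (b : Bool) : Type := Multiplicative (ZMod (presN b))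

/-- the generators of the factors. -/
def presGen (b : Bool) : PresH b := Multiplicative.ofAdd 1

lemma presGen_mem (b : Bool) (x : PresH b) : x ∈ Subgroup.zpowers (presGen b) := by
  obtain ⟨k, hk⟩ := ZMod.intCast_surjective (Multiplicative.toAdd x)
  refine ⟨k, ?_⟩
  apply Multiplicative.toAdd.injective
  simp [presGen, toAdd_zpow, hk]

lemma orderOf_presGen (b : Bool) : orderOf (presGen b) = presN b := by
  rw [presGen, orderOf_ofAdd_eq_addOrderOf, ZMod.addOrderOf_one]

lemma presH_cases (b : Bool) (h : PresH b) : ∃ k : ℕ, k < presN b ∧ h = presGen b ^ k := by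
  have hpos : 0 < presN b := by cases b <;> simp [presN]
  obtain ⟨k, hk⟩ := (Subgroup.mem_zpowers_iff).1 (presGen_mem b h)
  refine ⟨(k % (presN b : ℤ)).toNat, ?_, ?_⟩
  · have h1 := Int.emod_lt_of_pos k (by exact_mod_cast hpos : (0:ℤ) < presN b)
    have h0 := Int.emod_nonneg k (by exact_mod_cast hpos.ne' : (presN b : ℤ) ≠ 0)
    omega
  · have h0 := Int.emod_nonneg k (by exact_mod_cast hpos.ne' : (presN b : ℤ) ≠ 0)
    have h1 := zpow_mod_orderOf (presGen b) k
    rw [orderOf_presGen] at h1
    rw [← hk, ← zpow_natCast, Int.toNat_of_nonneg h0, h1]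

section hom

variable {K : Type*} [Group K] (τ : Bool → K) (hτ : ∀ b, τ b ^ presN b = 1)

/-- the homomorphism from a factor sending the generator to `τ b`. -/
noncomputable def presHom (b : Bool) : PresH b →* K :=
  monoidHomOfForallMemZpowers (presGen_mem b) (g' := τ b)
    (by rw [orderOf_presGen]; exact orderOf_dvd_of_pow_eq_one (hτ b))

@[simp] lemma presHom_gen (b : Bool) : presHom τ hτ b (presGen b) = τ b :=
  monoidHomOfForallMemZpowers_apply_gen _ _

end hom

/-- `ρ S`, `ρ U`. -/
def presSig : Bool → Equiv.Perm PresM := fun b => cond b (presRho (S * T)) (presRho S)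

lemma presSig_pow (b : Bool) : presSig b ^ presN b = 1 := by
  cases b
  · exact presRho_S_sq
  · exact presRho_U_cube

/-- the ping-pong table. -/
def presX : Bool → Set PresM := fun b =>
  cond b {M | 0 < M 0 0 ∧ 0 < M 1 1 ∧ M 0 1 < 0 ∧ M 1 0 < 0}
    {M | 0 < M 0 0 ∧ 0 < M 1 1 ∧ 0 < M 0 1 ∧ 0 < M 1 0}

lemma presLift_injective :
    Function.Injective (CoprodI.lift (presHom presSig presSig_pow)) := by
  apply CoprodI.lift_injective_of_ping_pong (presHom presSig presSig_pow) _ presX
  · intro b
    cases b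
    · exact ⟨!![1, 1; 1, 1], by simp [presX]⟩
    · exact ⟨!![1, -1; -1, 1], by simp [presX]⟩
  · intro i j hij
    rw [Function.onFun, Set.disjoint_left]
    cases i <;> cases j
    · exact absurd rfl hij
    · rintro M ⟨_, _, h1, _⟩ ⟨_, _, h2, _⟩
      exact absurd h1 (not_lt.2 h2.le)
    · rintro M ⟨_, _, h1, _⟩ ⟨_, _, h2, _⟩
      exact absurd h1 (not_lt.2 h2.le)
    · exact absurd rfl hij
  · intro i j hij h hne
    obtain ⟨k, hk, rfl⟩ := presH_cases i h
    rw [map_pow, presHom_gen]
    rintro _ ⟨M, hM, rfl⟩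
    cases i <;> cases j
    · exact absurd rfl hij
    · have hk' : k < 2 := hk
      obtain ⟨h1, h2, h3, h4⟩ := hM
      interval_cases k
      · exact absurd (pow_zero _) hne
      · show (presRho S ^ 1) M ∈ _
        rw [pow_one, presRho_S]
        refine ⟨?_, ?_, ?_, ?_⟩ <;> simp <;> assumption
    · have hk' : k < 3 := hk
      obtain ⟨h1, h2, h3, h4⟩ := hM
      interval_cases k
      · exact absurd (pow_zero _) hne
      · show (presRho (S * T) ^ 1) M ∈ _
        rw [pow_one, presRho_U]
        refine ⟨?_, ?_, ?_, ?_⟩ <;> simp <;> linarith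
      · show (presRho (S * T) ^ 2) M ∈ _
        rw [presRho_U_sq]
        refine ⟨?_, ?_, ?_, ?_⟩ <;> simp <;> linarith
    · exact absurd rfl hij
  · refine Or.inr ⟨true, ?_⟩
    change 3 ≤ Cardinal.mk (Multiplicative (ZMod 3))
    rw [Cardinal.mk_fintype]
    simp [ZMod.card]

lemma presRho_mem_range (g : SL(2,ℤ)) :
    presRho g ∈ (CoprodI.lift (presHom presSig presSig_pow)).range := by
  have hS : presRho S ∈ (CoprodI.lift (presHom presSig presSig_pow)).range :=
    ⟨CoprodI.of (presGen false), by simp [presSig]⟩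
  have hU : presRho (S * T) ∈ (CoprodI.lift (presHom presSig presSig_pow)).range :=
    ⟨CoprodI.of (presGen true), by simp [presSig]⟩
  have hT : presRho T ∈ (CoprodI.lift (presHom presSig presSig_pow)).range := by
    have : presRho T = (presRho S)⁻¹ * presRho (S * T) := by
      rw [map_mul, inv_mul_cancel_left]
    rw [this]
    exact mul_mem (inv_mem hS) hU
  have hle : (⊤ : Subgroup SL(2,ℤ)) ≤
      (CoprodI.lift (presHom presSig presSig_pow)).range.comap presRho := by
    rw [← SpecialLinearGroup.SL2Z_generators, Subgroup.closure_le]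
    rintro x (rfl | rfl)
    · exact hS
    · exact hT
  exact hle (Subgroup.mem_top g)

/-- `SL(2,ℤ) → ℤ/2 * ℤ/3`. -/
noncomputable def presPsi : SL(2,ℤ) →* CoprodI PresH :=
  (MonoidHom.ofInjective presLift_injective).symm.toMonoidHom.comp
    (presRho.codRestrict _ presRho_mem_range)

lemma presLift_presPsi (g : SL(2,ℤ)) :
    CoprodI.lift (presHom presSig presSig_pow) (presPsi g) = presRho g := by
  have := (MonoidHom.ofInjective presLift_injective).apply_symm_apply
    (presRho.codRestrict _ presRho_mem_range g)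
  exact congrArg Subtype.val this

lemma presPsi_S : presPsi S = CoprodI.of (presGen false) := by
  apply presLift_injective
  rw [presLift_presPsi]
  simp [presSig]

lemma presPsi_U : presPsi (S * T) = CoprodI.of (presGen true) := by
  apply presLift_injective
  rw [presLift_presPsi]
  simp [presSig]

/-- **Presentation of `PSL(2,ℤ)`** as a universal property. -/
theorem pres {H : Type*} [Group H] (s u : H) (hs : s ^ 2 = 1) (hu : u ^ 3 = 1) :
    ∃ Φ : SL(2,ℤ) →* H, Φ S = s ∧ Φ (S * T) = u := by
  have hτ : ∀ b, (fun b => cond b u s : Bool → H) b ^ presN b = 1 := by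
    intro b
    cases b
    · exact hs
    · exact hu
  refine ⟨(CoprodI.lift (presHom _ hτ)).comp presPsi, ?_, ?_⟩
  · rw [MonoidHom.comp_apply, presPsi_S]
    simp
  · rw [MonoidHom.comp_apply, presPsi_U]
    simp

end Fermat.Agent.S41.Pair
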