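import Fermat.Agent.S41.Defs
import Fermat.Agent.S41.Pair.Pres

/-!
# S41 / Pair / Basic : definitions of the PAIR block (owner helper6)

Everything is done with FUNCTIONS ON `G = SL(2,ℤ)` (no coset representatives):
* `RI Γ f`   : `f (g γ) = f g`            (right `Γ`-invariant = function on `G/Γ`)
* `LI h f`   : `f (h⁻¹ g) = f g`          (left invariant under `h`)
* `QI Γ κ u` : `u (g γ) = u g + κ γ`      (quasi-invariant)
* `integ Γ f = ∑_{x ∈ G/Γ} f (x.out)`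
* `xS F g = F (S⁻¹ g) - F g`,  `Pv Γ F d = ∫_Γ xS F * d`
* `IsH Γ κ uS uU`  : `uS, uU` quasi-invariant for `κ`, left invariant under `S`, resp. `U = S * T`
* `IsSymb Γ κ F`   : `F` quasi-invariant for `κ`, left invariant under `T`
* `HH p Γ` : homs killing the torsion elements.
-/

set_option autoImplicit false

open ModularGroup
open scoped MatrixGroups

noncomputable section

namespace Fermat.Agent.S41.Pair

variable {p : ℕ}

/-- right invariance under `Γ` -/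
def RI (Γ : Subgroup SL(2, ℤ)) {A : Type} (f : SL(2, ℤ) → A) : Prop :=
  ∀ (g : SL(2, ℤ)) (γ : Γ), f (g * γ) = f g

/-- left invariance under `h` -/
def LI (h : SL(2, ℤ)) {A : Type} (f : SL(2, ℤ) → A) : Prop :=
  ∀ g : SL(2, ℤ), f (h⁻¹ * g) = f g

/-- quasi-invariance -/
def QI (Γ : Subgroup SL(2, ℤ)) (κ : Additive Γ →+ ZMod p) (u : SL(2, ℤ) → ZMod p) : Prop :=
  ∀ (g : SL(2, ℤ)) (γ : Γ), u (g * γ) = u g + κ (Additive.ofMul γ)

/-- the sum over `G/Γ` -/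
def integ (Γ : Subgroup SL(2, ℤ)) (f : SL(2, ℤ) → ZMod p) : ZMod p :=
  ∑ᶠ x : SL(2, ℤ) ⧸ Γ, f x.out

/-- `(S - 1) F` -/
def xS (F : SL(2, ℤ) → ZMod p) : SL(2, ℤ) → ZMod p := fun g => F (S⁻¹ * g) - F g

/-- the value of the pairing -/
def Pv (Γ : Subgroup SL(2, ℤ)) (F d : SL(2, ℤ) → ZMod p) : ZMod p :=
  integ Γ (fun g => xS F g * d g)

/-- `uS`, `uU` compute the class of `κ` in `V / (V^S + V^U)` -/
structure IsH (Γ : Subgroup SL(2, ℤ)) (κ : Additive Γ →+ ZMod p) (uS uU : SL(2, ℤ) → ZMod p) :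
    Prop where
  qS : QI Γ κ uS
  qU : QI Γ κ uU
  lS : LI S uS
  lU : LI (S * T) uU

/-- `F` is a modular symbol with boundary hom `κ` -/
structure IsSymb (Γ : Subgroup SL(2, ℤ)) (κ : Additive Γ →+ ZMod p) (F : SL(2, ℤ) → ZMod p) :
    Prop where
  q : QI Γ κ F
  l : LI T F

/-- homs killing the torsion elements -/
def HH (p : ℕ) (Γ : Subgroup SL(2, ℤ)) : Submodule (ZMod p) (Additive Γ →+ ZMod p) where
  carrier := {φ | ∀ γ : Γ, γ ^ 12 = 1 → φ (Additive.ofMul γ) = 0}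
  zero_mem' := fun _ _ => rfl
  add_mem' := by
    intro φ ψ hφ hψ γ hγ
    show φ (Additive.ofMul γ) + ψ (Additive.ofMul γ) = 0
    rw [hφ γ hγ, hψ γ hγ, add_zero]
  smul_mem' := by
    intro c φ hφ γ hγ
    show c • φ (Additive.ofMul γ) = 0
    rw [hφ γ hγ, smul_zero]

theorem PH_le_HH (p : ℕ) (Γ : Subgroup SL(2, ℤ)) : PH p Γ ≤ HH p Γ :=
  fun _ h γ hγ => h γ (Or.inr hγ)

/-- restriction of a hom -/
def resH {Γ' Γ : Subgroup SL(2, ℤ)} (hle : Γ' ≤ Γ) (κ : Additive Γ →+ ZMod p) :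
    Additive Γ' →+ ZMod p :=
  κ.comp (MonoidHom.toAdditive (Subgroup.inclusion hle))

@[simp] theorem resH_apply {Γ' Γ : Subgroup SL(2, ℤ)} (hle : Γ' ≤ Γ) (κ : Additive Γ →+ ZMod p)
    (γ : Γ') : resH hle κ (Additive.ofMul γ) = κ (Additive.ofMul (Subgroup.inclusion hle γ)) := rfl

/-- `r` is a system of representatives of `Γ' \ Γ` -/
def IsReps (Γ' Γ : Subgroup SL(2, ℤ)) {ι : Type} (r : ι → Γ) : Prop :=
  ∀ γ : Γ, ∃! i, (γ : SL(2, ℤ)) * (r i : SL(2, ℤ))⁻¹ ∈ Γ'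

/-- the transfer of a function -/
def trF {Γ : Subgroup SL(2, ℤ)} {ι : Type} [Fintype ι] (r : ι → Γ) (u : SL(2, ℤ) → ZMod p) :
    SL(2, ℤ) → ZMod p := fun g => ∑ i, u (g * (r i : SL(2, ℤ))⁻¹)

end Fermat.Agent.S41.Pair
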