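import Mathlib
import Fermat.Agent.S16.LLift

/-!
# S41, block PAIR, key (CL): conjugacy classes of parabolic and torsion elements of `SL₂(ℤ)`

* `exists_conj_T`  : `trace² = 4 → γ = r⁻¹ T^k r ∨ γ = r⁻¹ (S S T^k) r`
* `exists_conj_SU` : `γ^12 = 1 → γ = r⁻¹ S^k r ∨ γ = r⁻¹ (S T)^k r`
-/

set_option autoImplicit false
set_option linter.unusedSimpArgs false

open scoped MatrixGroups
open ModularGroup Matrix

namespace Fermat.Agent.S41.Pair.CL

theorem exists_conj_T (γ : SL(2, ℤ))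
    (h : ((γ : SL(2, ℤ)) : Matrix (Fin 2) (Fin 2) ℤ).trace ^ 2 = 4) :
    ∃ (r : SL(2, ℤ)) (k : ℤ), γ = r⁻¹ * T ^ k * r ∨ γ = r⁻¹ * (S * S * T ^ k) * r := by
  obtain ⟨δ, hδ⟩ := Fermat.Agent.S21.exists_conj_upper γ h
  obtain ⟨k, hk⟩ := Fermat.Agent.S16.Lower.LiftAux.upper_eq _ hδ
  refine ⟨δ⁻¹, k, ?_⟩
  rcases hk with hk | hk
  · left; rw [← hk]; group
  · right; rw [← hk]; group

/-- the property of being conjugate to a power of `S` or of `S * T` -/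
def IsEll (γ : SL(2, ℤ)) : Prop :=
  ∃ (r : SL(2, ℤ)) (k : ℤ), γ = r⁻¹ * S ^ k * r ∨ γ = r⁻¹ * (S * T) ^ k * r

theorem IsEll.of_conj {γ : SL(2, ℤ)} (g : SL(2, ℤ)) (h : IsEll (g * γ * g⁻¹)) : IsEll γ := by
  obtain ⟨r, k, h | h⟩ := h
  · refine ⟨r * g, k, Or.inl ?_⟩
    have : γ = g⁻¹ * (g * γ * g⁻¹) * g := by group
    rw [this, h]; group
  · refine ⟨r * g, k, Or.inr ?_⟩
    have : γ = g⁻¹ * (g * γ * g⁻¹) * g := by group
    rw [this, h]; group

theorem sl2_ext {γ δ : SL(2, ℤ)} (h00 : γ 0 0 = δ 0 0) (h01 : γ 0 1 = δ 0 1)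
    (h10 : γ 1 0 = δ 1 0) (h11 : γ 1 1 = δ 1 1) : γ = δ := by
  ext i j
  fin_cases i <;> fin_cases j <;> assumption

theorem sl2_det (γ : SL(2, ℤ)) : γ 0 0 * γ 1 1 - γ 0 1 * γ 1 0 = 1 := by
  have := γ.det_coe
  rwa [Matrix.det_fin_two] at this

theorem conjT_entries (γ : SL(2, ℤ)) (n : ℤ) :
    (T ^ n * γ * (T ^ n)⁻¹) 0 0 = γ 0 0 + n * γ 1 0 ∧
    (T ^ n * γ * (T ^ n)⁻¹) 1 0 = γ 1 0 ∧
    (T ^ n * γ * (T ^ n)⁻¹) 1 1 = γ 1 1 - n * γ 1 0 := by
  rw [← _root_.zpow_neg, Matrix.SpecialLinearGroup.coe_mul, Matrix.SpecialLinearGroup.coe_mul,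
    coe_T_zpow, coe_T_zpow]
  simp [Matrix.mul_apply, Fin.sum_univ_two, Matrix.vecMul, dotProduct]
  ring

theorem conjS_entries (γ : SL(2, ℤ)) :
    (S * γ * S⁻¹) 0 0 = γ 1 1 ∧ (S * γ * S⁻¹) 0 1 = - γ 1 0 ∧
    (S * γ * S⁻¹) 1 0 = - γ 0 1 ∧ (S * γ * S⁻¹) 1 1 = γ 0 0 := by
  rw [Matrix.SpecialLinearGroup.coe_mul, Matrix.SpecialLinearGroup.coe_mul,
    Matrix.SpecialLinearGroup.coe_inv, Matrix.adjugate_fin_two, coe_S]
  simp [Matrix.mul_apply, Fin.sum_univ_two, Matrix.vecMul, dotProduct]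

theorem exists_balanced (m c : ℤ) (hc : c ≠ 0) : ∃ n : ℤ, |m + 2 * n * c| ≤ |c| := by
  have h2 : (0 : ℤ) < 2 * |c| := by positivity
  obtain ⟨s, hs⟩ : ∃ s : ℤ, |c| = s * c := by
    rcases abs_choice c with h | h
    · exact ⟨1, by rw [h]; ring⟩
    · exact ⟨-1, by rw [h]; ring⟩
  have h0 := Int.emod_nonneg m h2.ne'
  have h1 := Int.emod_lt_of_pos m h2
  have h3 := Int.emod_add_mul_ediv m (2 * |c|)
  by_cases hle : m % (2 * |c|) ≤ |c|
  · refine ⟨-(m / (2 * |c|)) * s, ?_⟩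
    have : m + 2 * (-(m / (2 * |c|)) * s) * c = m % (2 * |c|) := by
      have : m + 2 * (-(m / (2 * |c|)) * s) * c = m - 2 * (s * c) * (m / (2 * |c|)) := by ring
      rw [this, ← hs]; linarith
    rw [this, abs_of_nonneg h0]; exact hle
  · refine ⟨(-(m / (2 * |c|)) - 1) * s, ?_⟩
    have : m + 2 * ((-(m / (2 * |c|)) - 1) * s) * c = m % (2 * |c|) - 2 * |c| := by
      have : m + 2 * ((-(m / (2 * |c|)) - 1) * s) * c
          = m - 2 * (s * c) * (m / (2 * |c|)) - 2 * (s * c) := by ring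
      rw [this, ← hs]; linarith
    rw [this, abs_le]; constructor <;> linarith


theorem S_zpow_neg_one_entries : ((S ^ (-1 : ℤ) : SL(2, ℤ)) 0 0 = 0 ∧ (S ^ (-1 : ℤ) : SL(2, ℤ)) 0 1 = 1 ∧
    (S ^ (-1 : ℤ) : SL(2, ℤ)) 1 0 = -1 ∧ (S ^ (-1 : ℤ) : SL(2, ℤ)) 1 1 = 0) := by
  rw [_root_.zpow_neg_one, Matrix.SpecialLinearGroup.coe_inv, Matrix.adjugate_fin_two, coe_S]
  simp

theorem ST_entries : ((S * T : SL(2, ℤ)) 0 0 = 0 ∧ (S * T : SL(2, ℤ)) 0 1 = -1 ∧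
    (S * T : SL(2, ℤ)) 1 0 = 1 ∧ (S * T : SL(2, ℤ)) 1 1 = 1) := by
  rw [Matrix.SpecialLinearGroup.coe_mul, coe_S, coe_T]
  simp

theorem ST_inv_entries : (((S * T) ^ (-1 : ℤ) : SL(2, ℤ)) 0 0 = 1 ∧
    ((S * T) ^ (-1 : ℤ) : SL(2, ℤ)) 0 1 = 1 ∧
    ((S * T) ^ (-1 : ℤ) : SL(2, ℤ)) 1 0 = -1 ∧ ((S * T) ^ (-1 : ℤ) : SL(2, ℤ)) 1 1 = 0) := by
  rw [_root_.zpow_neg_one, Matrix.SpecialLinearGroup.coe_inv, Matrix.adjugate_fin_two,
    Matrix.SpecialLinearGroup.coe_mul, coe_S, coe_T]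
  simp

theorem isEll_S_zpow (k : ℤ) : IsEll (S ^ k) := ⟨1, k, Or.inl (by simp)⟩

theorem isEll_ST_zpow (k : ℤ) : IsEll ((S * T) ^ k) := ⟨1, k, Or.inr (by simp)⟩

/-- base case of the descent -/
theorem isEll_of_abs_one (γ : SL(2, ℤ)) (hc : |γ 1 0| = 1)
    (ht : γ 0 0 + γ 1 1 = 0 ∨ γ 0 0 + γ 1 1 = 1)
    (hb : |2 * γ 0 0 - (γ 0 0 + γ 1 1)| ≤ 1) : IsEll γ := by
  have hdet := sl2_det γ
  rw [abs_le] at hb
  have hc' : γ 1 0 = 1 ∨ γ 1 0 = -1 := by
    rcases abs_choice (γ 1 0) with h | h <;> rw [h] at hc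
    · left; exact hc
    · right; linarith
  rcases ht with ht | ht
  · have ha : γ 0 0 = 0 := by omega
    have hd : γ 1 1 = 0 := by omega
    rcases hc' with hc' | hc'
    · have hb' : γ 0 1 = -1 := by rw [ha, hd, hc'] at hdet; linarith
      have : γ = S ^ (1 : ℤ) := by
        rw [zpow_one]
        apply sl2_ext <;> simp [coe_S, ha, hd, hc', hb']
      rw [this]; exact isEll_S_zpow 1
    · have hb' : γ 0 1 = 1 := by rw [ha, hd, hc'] at hdet; linarith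
      obtain ⟨e0, e1, e2, e3⟩ := S_zpow_neg_one_entries
      have : γ = S ^ (-1 : ℤ) := by
        apply sl2_ext <;> simp [e0, e1, e2, e3, ha, hd, hc', hb']
      rw [this]; exact isEll_S_zpow _
  · have ha : γ 0 0 = 0 ∨ γ 0 0 = 1 := by omega
    rcases ha with ha | ha
    · have hd : γ 1 1 = 1 := by omega
      rcases hc' with hc' | hc'
      · have hb' : γ 0 1 = -1 := by rw [ha, hd, hc'] at hdet; linarith
        obtain ⟨e0, e1, e2, e3⟩ := ST_entries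
        have : γ = (S * T) ^ (1 : ℤ) := by
          rw [zpow_one]
          apply sl2_ext <;> simp [e0, e1, e2, e3, ha, hd, hc', hb']
        rw [this]; exact isEll_ST_zpow 1
      · have hb' : γ 0 1 = 1 := by rw [ha, hd, hc'] at hdet; linarith
        obtain ⟨e0, e1, e2, e3⟩ := ST_inv_entries
        obtain ⟨f0, f1, f2, f3⟩ := conjS_entries γ
        apply IsEll.of_conj S
        have : S * γ * S⁻¹ = (S * T) ^ (-1 : ℤ) := by
          apply sl2_ext <;> simp [e0, e1, e2, e3, f0, f1, f2, f3, ha, hd, hc', hb']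
        rw [this]; exact isEll_ST_zpow _
    · have hd : γ 1 1 = 0 := by omega
      rcases hc' with hc' | hc'
      · have hb' : γ 0 1 = -1 := by rw [ha, hd, hc'] at hdet; linarith
        obtain ⟨e0, e1, e2, e3⟩ := ST_entries
        obtain ⟨f0, f1, f2, f3⟩ := conjS_entries γ
        apply IsEll.of_conj S
        have : S * γ * S⁻¹ = (S * T) ^ (1 : ℤ) := by
          rw [zpow_one]
          apply sl2_ext <;> simp [e0, e1, e2, e3, f0, f1, f2, f3, ha, hd, hc', hb']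
        rw [this]; exact isEll_ST_zpow _
      · have hb' : γ 0 1 = 1 := by rw [ha, hd, hc'] at hdet; linarith
        obtain ⟨e0, e1, e2, e3⟩ := ST_inv_entries
        have : γ = (S * T) ^ (-1 : ℤ) := by
          apply sl2_ext <;> simp [e0, e1, e2, e3, ha, hd, hc', hb']
        rw [this]; exact isEll_ST_zpow _


/-- the descent on `|c|` -/
theorem isEll_of_trace (n : ℕ) : ∀ γ : SL(2, ℤ), (γ 1 0).natAbs = n →
    (γ 0 0 + γ 1 1 = 0 ∨ γ 0 0 + γ 1 1 = 1) → IsEll γ := by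
  induction n using Nat.strong_induction_on with
  | _ n ih =>
    intro γ hn ht
    have hdet := sl2_det γ
    have hc0 : γ 1 0 ≠ 0 := by
      intro h0
      rw [h0, mul_zero, sub_zero] at hdet
      rcases Int.eq_one_or_neg_one_of_mul_eq_one' hdet with ⟨h0, h1⟩ | ⟨h0, h1⟩ <;>
        rcases ht with ht | ht <;> omega
    obtain ⟨m, hm⟩ := exists_balanced (2 * γ 0 0 - (γ 0 0 + γ 1 1)) (γ 1 0) hc0
    obtain ⟨e0, e1, e2⟩ := conjT_entries γ m
    apply IsEll.of_conj (T ^ m)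
    set γ' := T ^ m * γ * (T ^ m)⁻¹ with hγ'
    have ht' : γ' 0 0 + γ' 1 1 = γ 0 0 + γ 1 1 := by rw [e0, e2]; ring
    have hb' : |2 * γ' 0 0 - (γ' 0 0 + γ' 1 1)| ≤ |γ' 1 0| := by
      rw [ht', e0, e1]
      have : 2 * (γ 0 0 + m * γ 1 0) - (γ 0 0 + γ 1 1)
          = 2 * γ 0 0 - (γ 0 0 + γ 1 1) + 2 * m * γ 1 0 := by ring
      rw [this]; exact hm
    have ht2 : γ' 0 0 + γ' 1 1 = 0 ∨ γ' 0 0 + γ' 1 1 = 1 := by rw [ht']; exact ht
    have hdet' := sl2_det γ'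
    by_cases h1 : |γ' 1 0| = 1
    · exact isEll_of_abs_one γ' h1 ht2 (by rw [h1] at hb'; exact hb')
    · have h2 : 2 ≤ |γ' 1 0| := by
        have : 0 < |γ' 1 0| := by rw [e1]; exact abs_pos.mpr hc0
        omega
      obtain ⟨f0, f1, f2, f3⟩ := conjS_entries γ'
      apply IsEll.of_conj S
      refine ih ((S * γ' * S⁻¹) 1 0).natAbs ?_ _ rfl ?_
      · rw [f2, Int.natAbs_neg, ← hn, ← e1]
        have key : |γ' 0 1| < |γ' 1 0| := by
          by_contra hcon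
          rw [not_lt] at hcon
          have hsq : (2 * γ' 0 0 - (γ' 0 0 + γ' 1 1)) ^ 2 ≤ (γ' 1 0) ^ 2 := by
            rw [← sq_abs, ← sq_abs (γ' 1 0)]
            exact pow_le_pow_left₀ (abs_nonneg _) hb' 2
          have hprod : |γ' 0 1| * |γ' 1 0| = |γ' 0 1 * γ' 1 0| := (abs_mul _ _).symm
          have h4 : 4 * |γ' 0 1 * γ' 1 0| ≤ (γ' 1 0) ^ 2 + 4 := by
            have hle : |γ' 0 1 * γ' 1 0| = -(γ' 0 1 * γ' 1 0) := by
              apply abs_of_nonpos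
              rcases ht2 with h | h <;> nlinarith [sq_nonneg (2 * γ' 0 0 - (γ' 0 0 + γ' 1 1))]
            rw [hle]
            rcases ht2 with h | h <;> nlinarith
          have h5 : |γ' 1 0| * |γ' 1 0| ≤ |γ' 0 1| * |γ' 1 0| :=
            mul_le_mul_of_nonneg_right hcon (abs_nonneg _)
          have h6 : (γ' 1 0) ^ 2 = |γ' 1 0| * |γ' 1 0| := by rw [← sq_abs]; ring
          nlinarith
        rw [Int.abs_eq_natAbs, Int.abs_eq_natAbs] at key
        exact_mod_cast key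
      · rw [f0, f3, add_comm]; exact ht2

theorem SS_eq_neg_one : (S * S : SL(2, ℤ)) = -1 := by
  apply sl2_ext <;> simp [Matrix.SpecialLinearGroup.coe_mul, coe_S]

theorem ST_cube_eq_neg_one : ((S * T) ^ (3 : ℤ) : SL(2, ℤ)) = -1 := by
  have : ((S * T) ^ (3 : ℤ) : SL(2, ℤ)) = (S * T) * (S * T) * (S * T) := by
    rw [show (3 : ℤ) = ((3 : ℕ) : ℤ) from rfl, zpow_natCast]
    simp only [pow_succ, pow_zero, one_mul]
  rw [this]
  apply sl2_ext <;> simp [Matrix.SpecialLinearGroup.coe_mul, coe_S, coe_T]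

theorem IsEll.of_neg {γ : SL(2, ℤ)} (h : IsEll (-γ)) : IsEll γ := by
  obtain ⟨r, k, h | h⟩ := h
  · refine ⟨r, k + 2, Or.inl ?_⟩
    have h2 : (S ^ (2 : ℤ) : SL(2, ℤ)) = -1 := by
      rw [show (2 : ℤ) = ((2 : ℕ) : ℤ) from rfl, zpow_natCast, pow_two, SS_eq_neg_one]
    rw [_root_.zpow_add, h2, mul_neg, mul_one, mul_neg, neg_mul, ← h, neg_neg]
  · refine ⟨r, k + 3, Or.inr ?_⟩
    rw [_root_.zpow_add, ST_cube_eq_neg_one, mul_neg, mul_one, mul_neg, neg_mul, ← h, neg_neg]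


/-- multiplication in `ℤ[M]` when `M * M = t • M - 1` -/
theorem mul_of_CH {M : Matrix (Fin 2) (Fin 2) ℤ} {t : ℤ} (h : M * M = t • M - 1)
    (x1 x0 y1 y0 : ℤ) : (x1 • M + x0 • 1) * (y1 • M + y0 • 1)
      = (x1 * y0 + x0 * y1 + t * x1 * y1) • M + (x0 * y0 - x1 * y1) • (1 : Matrix (Fin 2) (Fin 2) ℤ) := by
  have : (x1 • M + x0 • 1) * (y1 • M + y0 • 1)
      = (x1 * y1) • (M * M) + (x1 * y0 + x0 * y1) • M + (x0 * y0) • (1 : Matrix (Fin 2) (Fin 2) ℤ) := by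
    simp only [add_mul, mul_add, smul_mul_assoc, mul_smul_comm, mul_one, one_mul, smul_smul]
    module
  rw [this, h]
  module


theorem CH_two (γ : SL(2, ℤ)) : (γ : Matrix (Fin 2) (Fin 2) ℤ) * (γ : Matrix (Fin 2) (Fin 2) ℤ)
    = (γ 0 0 + γ 1 1) • (γ : Matrix (Fin 2) (Fin 2) ℤ) - 1 := by
  have hdet := sl2_det γ
  ext i j
  fin_cases i <;> fin_cases j <;>
    simp [Matrix.mul_apply, Fin.sum_univ_two, -zsmul_eq_mul] <;>
    first | ring1 | linear_combination -hdet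

theorem pow_twelve_of_CH {M : Matrix (Fin 2) (Fin 2) ℤ} {t : ℤ} (h : M * M = t • M - 1) :
    M ^ 12 = (t * (t ^ 2 - 1) * (t ^ 2 - 2) * (t ^ 2 - 3) * (t ^ 4 - 4 * t ^ 2 + 1)) • M
      + (-(t ^ 10 - 9 * t ^ 8 + 28 * t ^ 6 - 35 * t ^ 4 + 15 * t ^ 2 - 1)) •
        (1 : Matrix (Fin 2) (Fin 2) ℤ) := by
  have h2 : M ^ 2 = t • M + (-1 : ℤ) • (1 : Matrix (Fin 2) (Fin 2) ℤ) := by
    rw [pow_two, h]; module
  have h3 : M ^ 3 = (t ^ 2 - 1) • M + (-t) • (1 : Matrix (Fin 2) (Fin 2) ℤ) := by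
    have e : M ^ 3 = M ^ 2 * ((1 : ℤ) • M + (0 : ℤ) • (1 : Matrix (Fin 2) (Fin 2) ℤ)) := by
      rw [pow_succ]; simp
    rw [e, h2, mul_of_CH h]
    congr 2 <;> ring
  have h6 : M ^ 6 = (t ^ 5 - 4 * t ^ 3 + 3 * t) • M + (-(t ^ 4 - 3 * t ^ 2 + 1)) •
      (1 : Matrix (Fin 2) (Fin 2) ℤ) := by
    have e : M ^ 6 = M ^ 3 * M ^ 3 := by rw [← pow_add]
    rw [e, h3, mul_of_CH h]
    congr 2 <;> ring
  have e : M ^ 12 = M ^ 6 * M ^ 6 := by rw [← pow_add]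
  rw [e, h6, mul_of_CH h]
  congr 2 <;> ring


theorem no_sq (u n : ℤ) (h : u ^ 2 = n) (h1 : 1 < n) (h2 : n < 4) : False := by
  have h3 : u < 2 := by nlinarith
  have h4 : -2 < u := by nlinarith
  interval_cases u <;> omega

theorem exists_conj_SU (γ : SL(2, ℤ)) (h : γ ^ 12 = 1) :
    ∃ (r : SL(2, ℤ)) (k : ℤ), γ = r⁻¹ * S ^ k * r ∨ γ = r⁻¹ * (S * T) ^ k * r := by
  change IsEll γ
  set t : ℤ := γ 0 0 + γ 1 1 with ht
  have h12 := pow_twelve_of_CH (CH_two γ)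
  rw [← ht] at h12
  have hM : (γ : Matrix (Fin 2) (Fin 2) ℤ) ^ 12 = 1 := by
    rw [← Matrix.SpecialLinearGroup.coe_pow, h, Matrix.SpecialLinearGroup.coe_one]
  rw [hM] at h12
  set A : ℤ := t * (t ^ 2 - 1) * (t ^ 2 - 2) * (t ^ 2 - 3) * (t ^ 4 - 4 * t ^ 2 + 1) with hA
  set B : ℤ := -(t ^ 10 - 9 * t ^ 8 + 28 * t ^ 6 - 35 * t ^ 4 + 15 * t ^ 2 - 1) with hB
  have e00 : (1 : ℤ) = A * γ 0 0 + B := by
    have := congrFun (congrFun h12 0) 0
    simp only [Matrix.add_apply, Matrix.smul_apply, smul_eq_mul, Matrix.one_apply_eq,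
      mul_one] at this
    exact this
  have e01 : (0 : ℤ) = A * γ 0 1 := by
    have := congrFun (congrFun h12 0) 1
    simp only [Matrix.add_apply, Matrix.smul_apply, smul_eq_mul,
      Matrix.one_apply_ne (show (0 : Fin 2) ≠ 1 by decide), mul_zero, add_zero] at this
    exact this
  have e10 : (0 : ℤ) = A * γ 1 0 := by
    have := congrFun (congrFun h12 1) 0
    simp only [Matrix.add_apply, Matrix.smul_apply, smul_eq_mul,
      Matrix.one_apply_ne (show (1 : Fin 2) ≠ 0 by decide), mul_zero, add_zero] at this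
    exact this
  have e11 : (1 : ℤ) = A * γ 1 1 + B := by
    have := congrFun (congrFun h12 1) 1
    simp only [Matrix.add_apply, Matrix.smul_apply, smul_eq_mul, Matrix.one_apply_eq,
      mul_one] at this
    exact this
  have hdet := sl2_det γ
  by_cases hA0 : A = 0
  · -- `t ∈ {0, 1, -1}`
    have ht3 : t = 0 ∨ t = 1 ∨ t = -1 := by
      rw [hA] at hA0
      simp only [mul_eq_zero] at hA0
      rcases hA0 with (((h0 | h0) | h0) | h0) | h0
      · exact Or.inl h0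
      · have : (t - 1) * (t + 1) = 0 := by linear_combination h0
        rcases mul_eq_zero.mp this with h | h
        · right; left; omega
        · right; right; omega
      · exfalso
        exact no_sq t 2 (by linarith) (by norm_num) (by norm_num)
      · exfalso
        exact no_sq t 3 (by linarith) (by norm_num) (by norm_num)
      · exfalso
        exact no_sq (t ^ 2 - 2) 3 (by linear_combination h0) (by norm_num) (by norm_num)
    rcases ht3 with h0 | h0 | h0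
    · exact isEll_of_trace _ γ rfl (Or.inl (by rw [← ht]; exact h0))
    · exact isEll_of_trace _ γ rfl (Or.inr (by rw [← ht]; exact h0))
    · apply IsEll.of_neg
      refine isEll_of_trace _ (-γ) rfl (Or.inr ?_)
      simp only [Matrix.SpecialLinearGroup.coe_neg, Matrix.neg_apply]
      omega
  · have hb : γ 0 1 = 0 := by
      rcases mul_eq_zero.mp e01.symm with h | h
      · exact absurd h hA0
      · exact h
    have hc : γ 1 0 = 0 := by
      rcases mul_eq_zero.mp e10.symm with h | h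
      · exact absurd h hA0
      · exact h
    rw [hb, zero_mul, sub_zero] at hdet
    rcases Int.eq_one_or_neg_one_of_mul_eq_one' hdet with ⟨h0, h1⟩ | ⟨h0, h1⟩
    · have : γ = S ^ (0 : ℤ) := by
        rw [zpow_zero]
        apply sl2_ext <;> simp [h0, h1, hb, hc]
      rw [this]; exact isEll_S_zpow 0
    · apply IsEll.of_neg
      have : -γ = S ^ (0 : ℤ) := by
        rw [zpow_zero]
        apply sl2_ext <;> simp [h0, h1, hb, hc]
      rw [this]; exact isEll_S_zpow 0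


theorem exists_conj_T_neg (γ : SL(2, ℤ))
    (h : ((γ : SL(2, ℤ)) : Matrix (Fin 2) (Fin 2) ℤ).trace ^ 2 = 4) :
    ∃ (r : SL(2, ℤ)) (k : ℤ), γ = r⁻¹ * T ^ k * r ∨ γ = -(r⁻¹ * T ^ k * r) := by
  obtain ⟨r, k, h | h⟩ := exists_conj_T γ h
  · exact ⟨r, k, Or.inl h⟩
  · refine ⟨r, k, Or.inr ?_⟩
    rw [h, SS_eq_neg_one, neg_mul, one_mul, mul_neg, neg_mul]

end Fermat.Agent.S41.Pair.CL
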