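import Fermat.Agent.S41.Pair.Integ

/-!
# S41 / Pair / Fub : representatives of `Γ' \ Γ`, transfer of functions, Fubini  [key S41/PAIR-FUB]

`Γ = ⊔ Γ' r_i`.  `trF r u g = ∑ i, u (g (r i)⁻¹)`.
* `nonempty_HD`: for `γ ∈ Γ`, `r_i γ ∈ Γ' r_{σ i}`; `σ` is injective (hence a permutation of the
  finite type `ι`): `r_i γ r_j⁻¹ ∈ Γ'` and `r_i' γ r_j⁻¹ ∈ Γ'` give `r_i r_i'⁻¹ ∈ Γ'`, uniqueness in `IsReps`
  for `γ := r_i` (both `i` and `i'` work).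
* `trF_QI`: with `r_i γ = δ_i r_{σ i}`: `γ r_{σ i}⁻¹ = r_i⁻¹ δ_i`, so
  `∑_j u (g γ r_j⁻¹) = ∑_i u (g γ r_{σ i}⁻¹) = ∑_i u (g r_i⁻¹ δ_i) = ∑_i (u (g r_i⁻¹) + κ' δ_i)`.
* `integ_trF`: `(x, i) ↦ x.out * r_i⁻¹ mod Γ'` is a bijection `(G ⧸ Γ) × ι ≃ G ⧸ Γ'`.
-/

set_option autoImplicit false

open ModularGroup
open scoped MatrixGroups

noncomputable section

namespace Fermat.Agent.S41.Pair

variable {p : ℕ} {Γ' Γ : Subgroup SL(2, ℤ)}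

theorem finite_of_le (hle : Γ' ≤ Γ) [Finite (SL(2, ℤ) ⧸ Γ')] : Finite (SL(2, ℤ) ⧸ Γ) := by
  have h1 : Γ'.FiniteIndex := Subgroup.finiteIndex_of_finite_quotient
  have h2 : Γ.FiniteIndex := Subgroup.finiteIndex_of_le hle
  exact Subgroup.finite_quotient_of_finiteIndex

theorem exists_reps (hle : Γ' ≤ Γ) [Finite (SL(2, ℤ) ⧸ Γ')] :
    ∃ (ι : Type) (_ : Fintype ι) (r : ι → Γ), IsReps Γ' Γ r := by
  have h1 : Γ'.FiniteIndex := Subgroup.finiteIndex_of_finite_quotient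
  have h2 : (Γ'.subgroupOf Γ).FiniteIndex := inferInstance
  have h3 : Finite (Γ ⧸ Γ'.subgroupOf Γ) := Subgroup.finite_quotient_of_finiteIndex
  refine ⟨Γ ⧸ Γ'.subgroupOf Γ, Fintype.ofFinite _, fun x => (x.out)⁻¹, fun γ => ?_⟩
  have key : ∀ x : Γ ⧸ Γ'.subgroupOf Γ,
      (γ : SL(2, ℤ)) * (((x.out)⁻¹ : Γ) : SL(2, ℤ))⁻¹ ∈ Γ' ↔
        x = ((γ⁻¹ : Γ) : Γ ⧸ Γ'.subgroupOf Γ) := by
    intro x
    have e1 : (γ : SL(2, ℤ)) * (((x.out)⁻¹ : Γ) : SL(2, ℤ))⁻¹ =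
        (((γ⁻¹)⁻¹ * x.out : Γ) : SL(2, ℤ)) := by
      simp
    rw [e1, ← Subgroup.mem_subgroupOf, ← QuotientGroup.eq, QuotientGroup.out_eq', eq_comm]
  exact ⟨_, (key _).2 rfl, fun y hy => (key y).1 hy⟩

theorem nonempty_HD {ι : Type} [Fintype ι] {r : ι → Γ} (hr : IsReps Γ' Γ r) (γ : Γ) :
    Nonempty (HD Γ' Γ (fun i => ((r i : SL(2, ℤ)) : M2)) γ) := by
  choose σ hσ hσ' using fun i => hr (r i * γ)
  have hinj : Function.Injective σ := by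
    intro i i' hii
    have h1 := hσ i
    have h2 := hσ i'
    dsimp only at h1 h2
    rw [← hii] at h2
    have h3 : ((r i : Γ) : SL(2, ℤ)) * ((r i' : Γ) : SL(2, ℤ))⁻¹ ∈ Γ' := by
      have := Γ'.mul_mem h1 (Γ'.inv_mem h2)
      have e : ((r i * γ : Γ) : SL(2, ℤ)) * ((r (σ i) : Γ) : SL(2, ℤ))⁻¹ *
          (((r i' * γ : Γ) : SL(2, ℤ)) * ((r (σ i) : Γ) : SL(2, ℤ))⁻¹)⁻¹ =
          ((r i : Γ) : SL(2, ℤ)) * ((r i' : Γ) : SL(2, ℤ))⁻¹ := by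
        simp only [Subgroup.coe_mul]
        group
      rwa [e] at this
    have h4 : ((r i : Γ) : SL(2, ℤ)) * ((r i : Γ) : SL(2, ℤ))⁻¹ ∈ Γ' := by
      rw [mul_inv_cancel]; exact Γ'.one_mem
    exact (hr (r i)).unique h4 h3
  have hbij : Function.Bijective σ := (Finite.injective_iff_bijective).1 hinj
  refine ⟨⟨Equiv.ofBijective σ hbij, fun i => ⟨_, hσ i⟩, fun i => ?_⟩⟩
  show ((r i : SL(2, ℤ)) : M2) * ((γ : SL(2, ℤ)) : M2) =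
    ((((r i * γ : Γ) : SL(2, ℤ)) * ((r (σ i) : Γ) : SL(2, ℤ))⁻¹ : SL(2, ℤ)) : M2) *
      ((r (σ i) : SL(2, ℤ)) : M2)
  rw [← Matrix.SpecialLinearGroup.coe_mul, ← Matrix.SpecialLinearGroup.coe_mul,
    inv_mul_cancel_right]
  rfl

theorem trF_LI {ι : Type} [Fintype ι] (r : ι → Γ) {h : SL(2, ℤ)} {u : SL(2, ℤ) → ZMod p}
    (hu : LI h u) : LI h (trF r u) := by
  intro g
  unfold trF
  exact Finset.sum_congr rfl fun i _ => by rw [mul_assoc, hu]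

theorem trF_QI {ι : Type} [Fintype ι] {r : ι → Γ} (hr : IsReps Γ' Γ r)
    {κ' : Additive Γ' →+ ZMod p} {κ'' : Additive Γ →+ ZMod p}
    (htr : IsTr Γ' Γ (fun i => ((r i : SL(2, ℤ)) : M2)) κ' κ'')
    {u : SL(2, ℤ) → ZMod p} (hu : QI Γ' κ' u) : QI Γ κ'' (trF r u) := by
  intro g γ
  obtain ⟨D⟩ := nonempty_HD hr γ
  rw [htr γ D]
  unfold trF
  rw [← Finset.sum_add_distrib, ← Equiv.sum_comp D.σ]
  refine Finset.sum_congr rfl fun i _ => ?_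
  rw [← hu]
  congr 1
  have h1 : ((r i : Γ) : SL(2, ℤ)) * (γ : SL(2, ℤ)) =
      ((D.δ i : Γ') : SL(2, ℤ)) * ((r (D.σ i) : Γ) : SL(2, ℤ)) := by
    apply Subtype.ext
    rw [Matrix.SpecialLinearGroup.coe_mul, Matrix.SpecialLinearGroup.coe_mul]
    exact D.rel i
  have h2 : (γ : SL(2, ℤ)) * ((r (D.σ i) : Γ) : SL(2, ℤ))⁻¹ =
      ((r i : Γ) : SL(2, ℤ))⁻¹ * ((D.δ i : Γ') : SL(2, ℤ)) := by
    rw [mul_inv_eq_iff_eq_mul, mul_assoc, ← h1, inv_mul_cancel_left]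
  rw [mul_assoc, h2, mul_assoc]

theorem trF_RI {ι : Type} [Fintype ι] {r : ι → Γ} (hr : IsReps Γ' Γ r)
    {f : SL(2, ℤ) → ZMod p} (hf : RI Γ' f) : RI Γ (trF r f) := by
  refine QI_zero_iff.1 (trF_QI (κ' := 0) hr ?_ (QI_zero_iff.2 hf))
  intro γ D
  simp

/-- Fubini -/
theorem integ_trF (hle : Γ' ≤ Γ) [Finite (SL(2, ℤ) ⧸ Γ')] [Finite (SL(2, ℤ) ⧸ Γ)]
    {ι : Type} [Fintype ι] {r : ι → Γ} (hr : IsReps Γ' Γ r)
    {f : SL(2, ℤ) → ZMod p} (hf : RI Γ' f) : integ Γ (trF r f) = integ Γ' f := by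
  classical
  letI : Fintype (SL(2, ℤ) ⧸ Γ') := Fintype.ofFinite _
  letI : Fintype (SL(2, ℤ) ⧸ Γ) := Fintype.ofFinite _
  rw [integ_eq_sum, integ_eq_sum]
  let φ : (SL(2, ℤ) ⧸ Γ) × ι → SL(2, ℤ) ⧸ Γ' :=
    fun z => ((z.1.out * (r z.2 : SL(2, ℤ))⁻¹ : SL(2, ℤ)) : SL(2, ℤ) ⧸ Γ')
  have hφ : Function.Bijective φ := by
    constructor
    · rintro ⟨x, i⟩ ⟨y, j⟩ h
      have h1 : (x.out * (r i : SL(2, ℤ))⁻¹)⁻¹ * (y.out * (r j : SL(2, ℤ))⁻¹) ∈ Γ' :=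
        QuotientGroup.eq.1 h
      have h2 : x = y := by
        rw [← QuotientGroup.out_eq' x, ← QuotientGroup.out_eq' y, QuotientGroup.eq]
        have h3 := Γ.mul_mem (Γ.mul_mem (Γ.inv_mem (r i).2) (hle h1)) (r j).2
        have h4 : (r i : SL(2, ℤ))⁻¹ * ((x.out * (r i : SL(2, ℤ))⁻¹)⁻¹ *
            (y.out * (r j : SL(2, ℤ))⁻¹)) * (r j : SL(2, ℤ)) = x.out⁻¹ * y.out := by group
        rwa [h4] at h3
      subst h2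
      have h5 : (r i : SL(2, ℤ)) * (r j : SL(2, ℤ))⁻¹ ∈ Γ' := by
        have h4 : (x.out * (r i : SL(2, ℤ))⁻¹)⁻¹ * (x.out * (r j : SL(2, ℤ))⁻¹) =
            (r i : SL(2, ℤ)) * (r j : SL(2, ℤ))⁻¹ := by group
        rwa [h4] at h1
      have h6 : (r i : SL(2, ℤ)) * (r i : SL(2, ℤ))⁻¹ ∈ Γ' := by
        rw [mul_inv_cancel]; exact Γ'.one_mem
      have h7 : i = j := (hr (r i)).unique h6 h5
      rw [h7]
    · intro y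
      induction y using QuotientGroup.induction_on with
      | H g =>
        have h1 : ((g : SL(2, ℤ) ⧸ Γ).out)⁻¹ * g ∈ Γ := by
          rw [← QuotientGroup.eq, QuotientGroup.out_eq']
        obtain ⟨i, hi, -⟩ := hr (⟨_, h1⟩ : Γ)⁻¹
        refine ⟨((g : SL(2, ℤ) ⧸ Γ), i), ?_⟩
        show (((g : SL(2, ℤ) ⧸ Γ).out * (r i : SL(2, ℤ))⁻¹ : SL(2, ℤ)) : SL(2, ℤ) ⧸ Γ') = g
        rw [QuotientGroup.eq]
        have h2 := Γ'.inv_mem hi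
        have h3 : ((((⟨_, h1⟩ : Γ)⁻¹ : Γ) : SL(2, ℤ)) * (r i : SL(2, ℤ))⁻¹)⁻¹ =
            ((g : SL(2, ℤ) ⧸ Γ).out * (r i : SL(2, ℤ))⁻¹)⁻¹ * g := by
          rw [Subgroup.coe_inv]
          show (((((g : SL(2, ℤ) ⧸ Γ).out)⁻¹ * g)⁻¹ : SL(2, ℤ)) * (r i : SL(2, ℤ))⁻¹)⁻¹ = _
          group
        rwa [h3] at h2
  rw [← hφ.sum_comp (fun y => f y.out), Fintype.sum_prod_type]
  refine Finset.sum_congr rfl fun x _ => Finset.sum_congr rfl fun i _ => ?_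
  exact (hf.out_eq _).symm

theorem xS_trF {ι : Type} [Fintype ι] (r : ι → Γ) (F : SL(2, ℤ) → ZMod p) (g : SL(2, ℤ)) :
    xS (trF r F) g = trF r (xS F) g := by
  unfold xS trF
  rw [← Finset.sum_sub_distrib]
  refine Finset.sum_congr rfl fun i _ => ?_
  rw [mul_assoc]

/-- first adjunction: `P_Γ'(res F, d') = P_Γ(F, tr d')` -/
theorem Pv_trF_right (hle : Γ' ≤ Γ) [Finite (SL(2, ℤ) ⧸ Γ')] [Finite (SL(2, ℤ) ⧸ Γ)]
    {ι : Type} [Fintype ι] {r : ι → Γ} (hr : IsReps Γ' Γ r)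
    {F d' : SL(2, ℤ) → ZMod p} (hF : RI Γ (xS F)) (hd' : RI Γ' d') :
    Pv Γ F (trF r d') = Pv Γ' F d' := by
  have hF' : RI Γ' (xS F) := fun g γ => hF g (Subgroup.inclusion hle γ)
  unfold Pv
  rw [← integ_trF hle hr (hF'.mul hd')]
  refine integ_congr fun g => ?_
  unfold trF
  rw [Finset.mul_sum]
  refine Finset.sum_congr rfl fun i _ => ?_
  have h1 := hF g (r i)⁻¹
  rw [Subgroup.coe_inv] at h1
  show _ = xS F (g * (r i : SL(2, ℤ))⁻¹) * d' (g * (r i : SL(2, ℤ))⁻¹)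
  rw [h1]

/-- second adjunction: `P_Γ(tr F', d) = P_Γ'(F', res d)` -/
theorem Pv_trF_left (hle : Γ' ≤ Γ) [Finite (SL(2, ℤ) ⧸ Γ')] [Finite (SL(2, ℤ) ⧸ Γ)]
    {ι : Type} [Fintype ι] {r : ι → Γ} (hr : IsReps Γ' Γ r)
    {F' d : SL(2, ℤ) → ZMod p} (hF' : RI Γ' (xS F')) (hd : RI Γ d) :
    Pv Γ (trF r F') d = Pv Γ' F' d := by
  have hd' : RI Γ' d := fun g γ => hd g (Subgroup.inclusion hle γ)
  unfold Pv
  rw [← integ_trF hle hr (hF'.mul hd')]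
  refine integ_congr fun g => ?_
  rw [xS_trF]
  unfold trF
  rw [Finset.sum_mul]
  refine Finset.sum_congr rfl fun i _ => ?_
  have h1 := hd g (r i)⁻¹
  rw [Subgroup.coe_inv] at h1
  show _ = xS F' (g * (r i : SL(2, ℤ))⁻¹) * d (g * (r i : SL(2, ℤ))⁻¹)
  rw [h1]

end Fermat.Agent.S41.Pair
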