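import Fermat.Agent.S41.Pair.Basic

/-!
# S41 / Pair / Integ : calculus of `integ Γ f = ∑_{x ∈ G/Γ} f (x.out)`   [key S41/PAIR-INTEG]
All proofs: `finsum_eq_sum_of_fintype` (after `Fintype.ofFinite`) + `Finset.sum_*`.
`integ_translate`: `x ↦ h • x` is a bijection of `G ⧸ Γ`, and `f (h * x.out) = f ((h • x).out)`
because both arguments lie in the same coset and `f` is right invariant
(`QuotientGroup.mk_out_eq_mul` / `QuotientGroup.out_eq'`).
-/

set_option autoImplicit false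

open ModularGroup
open scoped MatrixGroups

noncomputable section

namespace Fermat.Agent.S41.Pair

variable {p : ℕ} {Γ : Subgroup SL(2, ℤ)}

theorem integ_eq_sum [Fintype (SL(2, ℤ) ⧸ Γ)] (f : SL(2, ℤ) → ZMod p) :
    integ Γ f = ∑ x : SL(2, ℤ) ⧸ Γ, f x.out := by
  exact finsum_eq_sum_of_fintype _

theorem integ_congr {f f' : SL(2, ℤ) → ZMod p} (h : ∀ g, f g = f' g) : integ Γ f = integ Γ f' := by
  exact finsum_congr fun x => h _

theorem integ_zero : integ Γ (fun _ => (0 : ZMod p)) = 0 := by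
  exact finsum_zero

theorem integ_add [Finite (SL(2, ℤ) ⧸ Γ)] (f f' : SL(2, ℤ) → ZMod p) :
    integ Γ (fun g => f g + f' g) = integ Γ f + integ Γ f' := by
  exact finsum_add_distrib (Set.toFinite _) (Set.toFinite _)

theorem integ_sub [Finite (SL(2, ℤ) ⧸ Γ)] (f f' : SL(2, ℤ) → ZMod p) :
    integ Γ (fun g => f g - f' g) = integ Γ f - integ Γ f' := by
  exact finsum_sub_distrib (Set.toFinite _) (Set.toFinite _)

theorem integ_neg [Finite (SL(2, ℤ) ⧸ Γ)] (f : SL(2, ℤ) → ZMod p) :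
    integ Γ (fun g => - f g) = - integ Γ f := by
  exact finsum_neg_distrib _

theorem integ_mul_left [Finite (SL(2, ℤ) ⧸ Γ)] (c : ZMod p) (f : SL(2, ℤ) → ZMod p) :
    integ Γ (fun g => c * f g) = c * integ Γ f := by
  classical
  letI : Fintype (SL(2, ℤ) ⧸ Γ) := Fintype.ofFinite _
  simp only [integ_eq_sum]
  exact Finset.mul_sum _ _ _ |>.symm

theorem integ_finset_sum [Finite (SL(2, ℤ) ⧸ Γ)] {ι : Type} (s : Finset ι)
    (f : ι → SL(2, ℤ) → ZMod p) :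
    integ Γ (fun g => ∑ i ∈ s, f i g) = ∑ i ∈ s, integ Γ (f i) := by
  classical
  letI : Fintype (SL(2, ℤ) ⧸ Γ) := Fintype.ofFinite _
  simp only [integ_eq_sum]
  exact Finset.sum_comm

/-- functions on the coset space -/
theorem integ_mk [Fintype (SL(2, ℤ) ⧸ Γ)] (v : SL(2, ℤ) ⧸ Γ → ZMod p) :
    integ Γ (fun g => v (g : SL(2, ℤ) ⧸ Γ)) = ∑ x, v x := by
  rw [integ_eq_sum]
  refine Finset.sum_congr rfl fun x _ => ?_
  rw [QuotientGroup.out_eq']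

/-- a right invariant function takes the same value at `g` and at the chosen representative -/
theorem RI.out_eq {f : SL(2, ℤ) → ZMod p} (hf : RI Γ f) (g : SL(2, ℤ)) :
    f ((g : SL(2, ℤ) ⧸ Γ).out) = f g := by
  obtain ⟨γ, hγ⟩ := QuotientGroup.mk_out_eq_mul Γ g
  rw [hγ, hf]

/-- descent to the coset space -/
theorem RI.exists_desc {f : SL(2, ℤ) → ZMod p} (hf : RI Γ f) :
    ∃ v : SL(2, ℤ) ⧸ Γ → ZMod p, ∀ g : SL(2, ℤ), v (g : SL(2, ℤ) ⧸ Γ) = f g := by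
  exact ⟨fun x => f x.out, fun g => hf.out_eq g⟩

theorem RI_mk (v : SL(2, ℤ) ⧸ Γ → ZMod p) : RI Γ (fun g : SL(2, ℤ) => v (g : SL(2, ℤ) ⧸ Γ)) := by
  intro g γ
  show v ((g * γ : SL(2, ℤ)) : SL(2, ℤ) ⧸ Γ) = v (g : SL(2, ℤ) ⧸ Γ)
  rw [QuotientGroup.mk_mul_of_mem g γ.2]

/-- translation invariance -/
theorem integ_translate [Finite (SL(2, ℤ) ⧸ Γ)] (h : SL(2, ℤ)) {f : SL(2, ℤ) → ZMod p}
    (hf : RI Γ f) : integ Γ (fun g => f (h * g)) = integ Γ f := by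
  have h1 : ∀ x : SL(2, ℤ) ⧸ Γ, f (h * x.out) =
      (fun y : SL(2, ℤ) ⧸ Γ => f y.out) ((MulAction.toPerm h : Equiv.Perm (SL(2, ℤ) ⧸ Γ)) x) := by
    intro x
    show f (h * x.out) = f ((h • x : SL(2, ℤ) ⧸ Γ).out)
    conv_rhs => rw [← QuotientGroup.out_eq' x]
    exact (hf.out_eq (h * x.out)).symm
  unfold integ
  rw [finsum_congr h1]
  exact finsum_comp_equiv (MulAction.toPerm h : Equiv.Perm (SL(2, ℤ) ⧸ Γ))
    (f := fun y : SL(2, ℤ) ⧸ Γ => f y.out)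

/-- the integral of the indicator function of the trivial coset times `f` -/
theorem integ_indicator [Finite (SL(2, ℤ) ⧸ Γ)] [DecidablePred (· ∈ Γ)] {f : SL(2, ℤ) → ZMod p}
    (hf : RI Γ f) : integ Γ (fun g => f g * (if g ∈ Γ then 1 else 0)) = f 1 := by
  classical
  letI : Fintype (SL(2, ℤ) ⧸ Γ) := Fintype.ofFinite _
  rw [integ_eq_sum, Finset.sum_eq_single ((1 : SL(2, ℤ)) : SL(2, ℤ) ⧸ Γ)]
  · have h1 : ((1 : SL(2, ℤ)) : SL(2, ℤ) ⧸ Γ).out ∈ Γ := by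
      obtain ⟨γ, hγ⟩ := QuotientGroup.mk_out_eq_mul Γ 1
      rw [hγ, one_mul]
      exact γ.2
    rw [if_pos h1, mul_one, hf.out_eq]
  · intro x _ hx
    have h1 : x.out ∉ Γ := by
      intro h
      apply hx
      rw [← QuotientGroup.out_eq' x, QuotientGroup.eq]
      exact Γ.mul_mem (Γ.inv_mem h) Γ.one_mem
    rw [if_neg h1, mul_zero]
  · intro h
    exact absurd (Finset.mem_univ _) h

theorem RI.add {f f' : SL(2, ℤ) → ZMod p} (hf : RI Γ f) (hf' : RI Γ f') :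
    RI Γ (fun g => f g + f' g) := fun g γ => by dsimp only; rw [hf, hf']

theorem RI.sub {f f' : SL(2, ℤ) → ZMod p} (hf : RI Γ f) (hf' : RI Γ f') :
    RI Γ (fun g => f g - f' g) := fun g γ => by dsimp only; rw [hf, hf']

theorem RI.mul {f f' : SL(2, ℤ) → ZMod p} (hf : RI Γ f) (hf' : RI Γ f') :
    RI Γ (fun g => f g * f' g) := fun g γ => by dsimp only; rw [hf, hf']

theorem RI.translate {f : SL(2, ℤ) → ZMod p} (hf : RI Γ f) (h : SL(2, ℤ)) :
    RI Γ (fun g => f (h * g)) := fun g γ => by dsimp only; rw [← mul_assoc, hf]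

theorem QI.sub_RI {κ : Additive Γ →+ ZMod p} {u u' : SL(2, ℤ) → ZMod p} (hu : QI Γ κ u)
    (hu' : QI Γ κ u') : RI Γ (fun g => u g - u' g) := fun g γ => by dsimp only; rw [hu, hu']; ring

theorem QI.add {κ κ' : Additive Γ →+ ZMod p} {u u' : SL(2, ℤ) → ZMod p} (hu : QI Γ κ u)
    (hu' : QI Γ κ' u') : QI Γ (κ + κ') (fun g => u g + u' g) := fun g γ => by
  dsimp only; rw [hu, hu', AddMonoidHom.add_apply]; ring

theorem QI.smul {κ : Additive Γ →+ ZMod p} {u : SL(2, ℤ) → ZMod p} (c : ZMod p) (hu : QI Γ κ u) :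
    QI Γ (c • κ) (fun g => c * u g) := fun g γ => by
  dsimp only; rw [hu, AddMonoidHom.smul_apply, smul_eq_mul]; ring

theorem QI.add_RI {κ : Additive Γ →+ ZMod p} {u f : SL(2, ℤ) → ZMod p} (hu : QI Γ κ u)
    (hf : RI Γ f) : QI Γ κ (fun g => u g + f g) := fun g γ => by dsimp only; rw [hu, hf]; ring

theorem QI_zero_iff {u : SL(2, ℤ) → ZMod p} : QI Γ 0 u ↔ RI Γ u := by
  constructor
  · intro h g γ; rw [h]; simp
  · intro h g γ; rw [h]; simp

theorem QI.res {Γ' : Subgroup SL(2, ℤ)} (hle : Γ' ≤ Γ) {κ : Additive Γ →+ ZMod p}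
    {u : SL(2, ℤ) → ZMod p} (hu : QI Γ κ u) : QI Γ' (resH hle κ) u := fun g γ => by
  rw [resH_apply]; exact hu g (Subgroup.inclusion hle γ)

theorem LI.mul_left {h : SL(2, ℤ)} {A : Type} {f : SL(2, ℤ) → A} (hf : LI h f) (g : SL(2, ℤ)) :
    f (h * g) = f g := by
  have := hf (h * g)
  rw [inv_mul_cancel_left] at this
  exact this.symm

theorem LI.add {h : SL(2, ℤ)} {f f' : SL(2, ℤ) → ZMod p} (hf : LI h f) (hf' : LI h f') :
    LI h (fun g => f g + f' g) := fun g => by dsimp only; rw [hf, hf']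

theorem LI.sub {h : SL(2, ℤ)} {f f' : SL(2, ℤ) → ZMod p} (hf : LI h f) (hf' : LI h f') :
    LI h (fun g => f g - f' g) := fun g => by dsimp only; rw [hf, hf']

theorem LI.smul {h : SL(2, ℤ)} {f : SL(2, ℤ) → ZMod p} (c : ZMod p) (hf : LI h f) :
    LI h (fun g => c * f g) := fun g => by dsimp only; rw [hf]

theorem IsH.add {κ κ' : Additive Γ →+ ZMod p} {uS uU uS' uU' : SL(2, ℤ) → ZMod p}
    (h : IsH Γ κ uS uU) (h' : IsH Γ κ' uS' uU') :
    IsH Γ (κ + κ') (fun g => uS g + uS' g) (fun g => uU g + uU' g) :=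
  ⟨h.qS.add h'.qS, h.qU.add h'.qU, h.lS.add h'.lS, h.lU.add h'.lU⟩

theorem IsH.smul {κ : Additive Γ →+ ZMod p} {uS uU : SL(2, ℤ) → ZMod p} (c : ZMod p)
    (h : IsH Γ κ uS uU) : IsH Γ (c • κ) (fun g => c * uS g) (fun g => c * uU g) :=
  ⟨h.qS.smul c, h.qU.smul c, h.lS.smul c, h.lU.smul c⟩

theorem IsH.res {Γ' : Subgroup SL(2, ℤ)} (hle : Γ' ≤ Γ) {κ : Additive Γ →+ ZMod p}
    {uS uU : SL(2, ℤ) → ZMod p} (h : IsH Γ κ uS uU) : IsH Γ' (resH hle κ) uS uU :=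
  ⟨h.qS.res hle, h.qU.res hle, h.lS, h.lU⟩

theorem IsSymb.add {κ κ' : Additive Γ →+ ZMod p} {F F' : SL(2, ℤ) → ZMod p}
    (h : IsSymb Γ κ F) (h' : IsSymb Γ κ' F') : IsSymb Γ (κ + κ') (fun g => F g + F' g) :=
  ⟨h.q.add h'.q, h.l.add h'.l⟩

theorem IsSymb.smul {κ : Additive Γ →+ ZMod p} {F : SL(2, ℤ) → ZMod p} (c : ZMod p)
    (h : IsSymb Γ κ F) : IsSymb Γ (c • κ) (fun g => c * F g) :=
  ⟨h.q.smul c, h.l.smul c⟩

theorem IsSymb.res {Γ' : Subgroup SL(2, ℤ)} (hle : Γ' ≤ Γ) {κ : Additive Γ →+ ZMod p}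
    {F : SL(2, ℤ) → ZMod p} (h : IsSymb Γ κ F) : IsSymb Γ' (resH hle κ) F :=
  ⟨h.q.res hle, h.l⟩

/-! ### bilinearity of `Pv` -/

theorem xS_RI {κ : Additive Γ →+ ZMod p} {F : SL(2, ℤ) → ZMod p} (hF : QI Γ κ F) :
    RI Γ (xS F) := fun g γ => by
  unfold xS
  rw [← mul_assoc, hF, hF]; ring

theorem xS_eq_U {F : SL(2, ℤ) → ZMod p} (hF : LI T F) (g : SL(2, ℤ)) :
    xS F g = F ((S * T)⁻¹ * g) - F g := by
  unfold xS
  rw [mul_inv_rev, mul_assoc, hF]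

theorem Pv_add_left [Finite (SL(2, ℤ) ⧸ Γ)] (F F' d : SL(2, ℤ) → ZMod p) :
    Pv Γ (fun g => F g + F' g) d = Pv Γ F d + Pv Γ F' d := by
  unfold Pv
  rw [← integ_add]
  exact integ_congr fun g => by unfold xS; ring

theorem Pv_sub_left [Finite (SL(2, ℤ) ⧸ Γ)] (F F' d : SL(2, ℤ) → ZMod p) :
    Pv Γ (fun g => F g - F' g) d = Pv Γ F d - Pv Γ F' d := by
  unfold Pv
  rw [← integ_sub]
  exact integ_congr fun g => by unfold xS; ring

theorem Pv_smul_left [Finite (SL(2, ℤ) ⧸ Γ)] (c : ZMod p) (F d : SL(2, ℤ) → ZMod p) :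
    Pv Γ (fun g => c * F g) d = c * Pv Γ F d := by
  unfold Pv
  rw [← integ_mul_left]
  exact integ_congr fun g => by unfold xS; ring

theorem Pv_add_const [Finite (SL(2, ℤ) ⧸ Γ)] (c : ZMod p) (F d : SL(2, ℤ) → ZMod p) :
    Pv Γ (fun g => F g + c) d = Pv Γ F d := by
  unfold Pv
  exact integ_congr fun g => by unfold xS; ring

theorem Pv_add_right [Finite (SL(2, ℤ) ⧸ Γ)] (F d d' : SL(2, ℤ) → ZMod p) :
    Pv Γ F (fun g => d g + d' g) = Pv Γ F d + Pv Γ F d' := by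
  unfold Pv
  rw [← integ_add]
  exact integ_congr fun g => by ring

theorem Pv_sub_right [Finite (SL(2, ℤ) ⧸ Γ)] (F d d' : SL(2, ℤ) → ZMod p) :
    Pv Γ F (fun g => d g - d' g) = Pv Γ F d - Pv Γ F d' := by
  unfold Pv
  rw [← integ_sub]
  exact integ_congr fun g => by ring

theorem Pv_smul_right [Finite (SL(2, ℤ) ⧸ Γ)] (c : ZMod p) (F d : SL(2, ℤ) → ZMod p) :
    Pv Γ F (fun g => c * d g) = c * Pv Γ F d := by
  unfold Pv
  rw [← integ_mul_left]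
  exact integ_congr fun g => by ring

theorem Pv_congr {F F' d d' : SL(2, ℤ) → ZMod p} (hF : ∀ g, F g = F' g) (hd : ∀ g, d g = d' g) :
    Pv Γ F d = Pv Γ F' d' := by
  unfold Pv
  exact integ_congr fun g => by unfold xS; rw [hF, hF, hd]

end Fermat.Agent.S41.Pair
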