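import Fermat.Agent.S41.Pair.Lift
import Fermat.Agent.S41.Pair.BD

/-!
# S41 / Pair / LiftInd : `δ_*` of the indicator of the cusp `∞`, widths      key `S41/PAIR-LIFT` (helper21)
-/

set_option autoImplicit false

open ModularGroup Fermat.Agent.S16.Lower
open scoped MatrixGroups

noncomputable section

namespace Fermat.Agent.S41.Pair

variable {p : ℕ}

theorem liftAux_mul_matD (l : ℕ) (X : M2) :
    X * matD l = !![X 0 0 * l, X 0 1; X 1 0 * l, X 1 1] := by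
  ext i j
  fin_cases i <;> fin_cases j <;> simp [matD, Matrix.mul_apply, Fin.sum_univ_two]

theorem liftAux_matD_mul (l : ℕ) (X : M2) :
    matD l * X = !![l * X 0 0, l * X 0 1; X 1 0, X 1 1] := by
  ext i j
  fin_cases i <;> fin_cases j <;> simp [matD, Matrix.mul_apply, Fin.sum_univ_two]

theorem liftAux_cancel {l : ℕ} (hl : 0 < l) {X Y : M2} (h : X * matD l = Y * matD l) : X = Y := by
  rw [liftAux_mul_matD, liftAux_mul_matD] at h
  have h00 := congrFun (congrFun h 0) 0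
  have h01 := congrFun (congrFun h 0) 1
  have h10 := congrFun (congrFun h 1) 0
  have h11 := congrFun (congrFun h 1) 1
  simp at h00 h01 h10 h11
  ext i j
  fin_cases i <;> fin_cases j
  · exact h00.resolve_right hl.ne'
  · exact h01
  · exact h10.resolve_right hl.ne'
  · exact h11

theorem liftAux_coe_T_pow (n : ℕ) : ((T ^ n : SL(2, ℤ)) : M2) = !![1, (n : ℤ); 0, 1] := by
  rw [← zpow_natCast, coe_T_zpow]

theorem indT_neg {Γ : Subgroup SL(2, ℤ)} (hneg : (-1 : SL(2, ℤ)) ∈ Γ) (g : SL(2, ℤ)) :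
    (indT Γ (-g) : ZMod p) = indT Γ g := by
  classical
  have : (∃ n : ℤ, T ^ n * (-g) ∈ Γ) ↔ ∃ n : ℤ, T ^ n * g ∈ Γ := by
    refine exists_congr fun n => ?_
    have e1 : T ^ n * (-g) = (T ^ n * g) * (-1) := by simp
    rw [e1]
    exact Subgroup.mul_mem_cancel_right Γ hneg
  simp only [indT, this]

section conj

variable {l : ℕ} {Γ Γ' : Subgroup SL(2, ℤ)} {e : Γ ≃* Γ'}

theorem conj_neg_one_mem (hl : 0 < l)
    (he : ∀ γ : Γ, matD l * ((γ : SL(2, ℤ)) : M2) = ((e γ : SL(2, ℤ)) : M2) * matD l)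
    (hneg : (-1 : SL(2, ℤ)) ∈ Γ) : (-1 : SL(2, ℤ)) ∈ Γ' := by
  have h1 := he ⟨-1, hneg⟩
  have h2 : ((e ⟨-1, hneg⟩ : SL(2, ℤ)) : M2) = ((-1 : SL(2, ℤ)) : M2) := by
    apply liftAux_cancel hl
    rw [← h1]
    simp
  have h3 : (e ⟨-1, hneg⟩ : SL(2, ℤ)) = -1 := Subtype.ext h2
  rw [← h3]
  exact (e ⟨-1, hneg⟩).2

theorem conj_T_pow (hl : 0 < l)
    (he : ∀ γ : Γ, matD l * ((γ : SL(2, ℤ)) : M2) = ((e γ : SL(2, ℤ)) : M2) * matD l)
    {w : ℕ} (h : T ^ w ∈ Γ) : (e ⟨T ^ w, h⟩ : SL(2, ℤ)) = T ^ (l * w) := by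
  have h1 := he ⟨T ^ w, h⟩
  apply Subtype.ext
  apply liftAux_cancel hl
  rw [← h1, liftAux_mul_matD, liftAux_matD_mul]
  show _ = !![((T ^ (l * w) : SL(2, ℤ)) : M2) 0 0 * l, ((T ^ (l * w) : SL(2, ℤ)) : M2) 0 1;
    ((T ^ (l * w) : SL(2, ℤ)) : M2) 1 0 * l, ((T ^ (l * w) : SL(2, ℤ)) : M2) 1 1]
  show !![(l : ℤ) * ((T ^ w : SL(2, ℤ)) : M2) 0 0, l * ((T ^ w : SL(2, ℤ)) : M2) 0 1;
    ((T ^ w : SL(2, ℤ)) : M2) 1 0, ((T ^ w : SL(2, ℤ)) : M2) 1 1] = _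
  rw [liftAux_coe_T_pow, liftAux_coe_T_pow]
  simp

theorem conj_T_pow_mem (hl : 0 < l)
    (he : ∀ γ : Γ, matD l * ((γ : SL(2, ℤ)) : M2) = ((e γ : SL(2, ℤ)) : M2) * matD l)
    {w : ℕ} (h : T ^ w ∈ Γ) : T ^ (l * w) ∈ Γ' := by
  rw [← conj_T_pow hl he h]
  exact (e ⟨T ^ w, h⟩).2

theorem conj_T_pow_of_mem (hl : 0 < l)
    (he : ∀ γ : Γ, matD l * ((γ : SL(2, ℤ)) : M2) = ((e γ : SL(2, ℤ)) : M2) * matD l)
    {m : ℕ} (h : T ^ m ∈ Γ') : ∃ w : ℕ, m = l * w ∧ T ^ w ∈ Γ := by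
  have hl' : (0 : ℤ) < l := by exact_mod_cast hl
  have h1 := he (e.symm ⟨T ^ m, h⟩)
  rw [e.apply_symm_apply] at h1
  set γ : SL(2, ℤ) := (e.symm ⟨T ^ m, h⟩ : SL(2, ℤ)) with hγ
  have hγΓ : γ ∈ Γ := (e.symm ⟨T ^ m, h⟩).2
  have h2 : matD l * (γ : M2) = ((T ^ m : SL(2, ℤ)) : M2) * matD l := h1
  rw [liftAux_mul_matD, liftAux_matD_mul, liftAux_coe_T_pow] at h2
  have h00 := congrFun (congrFun h2 0) 0
  have h01 := congrFun (congrFun h2 0) 1
  have h10 := congrFun (congrFun h2 1) 0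
  have h11 := congrFun (congrFun h2 1) 1
  simp at h00 h01 h10 h11
  have h00' : γ 0 0 = 1 := by
    apply mul_left_cancel₀ hl'.ne'
    rw [h00, mul_one]
  have hpos : 0 ≤ γ 0 1 := by
    by_contra hc
    rw [not_le] at hc
    have : (l : ℤ) * γ 0 1 < 0 := mul_neg_of_pos_of_neg hl' hc
    rw [h01] at this
    have h3 : (0 : ℤ) ≤ m := Int.natCast_nonneg m
    omega
  obtain ⟨w, hw⟩ := Int.eq_ofNat_of_zero_le hpos
  refine ⟨w, ?_, ?_⟩
  · rw [hw] at h01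
    exact_mod_cast h01.symm
  · have : T ^ w = γ := by
      apply Subtype.ext
      rw [liftAux_coe_T_pow]
      ext i j
      fin_cases i <;> fin_cases j <;> simp [h00', hw, h10, h11]
    rw [this]
    exact hγΓ

/-- the width of `∞` for `Γ' = δ Γ δ⁻¹` -/
theorem conj_width (hl : 0 < l)
    (he : ∀ γ : Γ, matD l * ((γ : SL(2, ℤ)) : M2) = ((e γ : SL(2, ℤ)) : M2) * matD l)
    {w : ℕ} (hmin : ∀ m : ℕ, 0 < m → m < w → T ^ m ∉ Γ) :
    ∀ m : ℕ, 0 < m → m < l * w → T ^ m ∉ Γ' := by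
  intro m hm hmw h
  obtain ⟨w', rfl, hw'⟩ := conj_T_pow_of_mem hl he h
  exact hmin w' (Nat.pos_of_mul_pos_left hm |> fun _ => Nat.pos_of_ne_zero (by rintro rfl; simp at hm))
    (Nat.lt_of_mul_lt_mul_left hmw) hw'

/-- `δ_*` of the indicator of the orbit of `∞` -/
theorem lift_indT (hl : 0 < l)
    (he : ∀ γ : Γ, matD l * ((γ : SL(2, ℤ)) : M2) = ((e γ : SL(2, ℤ)) : M2) * matD l)
    (hneg : (-1 : SL(2, ℤ)) ∈ Γ) :
    lift l (indT Γ : SL(2, ℤ) → ZMod p) = indT Γ' := by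
  classical
  have hl' : (l : ℤ) ≠ 0 := by exact_mod_cast hl.ne'
  have hneg' := conj_neg_one_mem hl he hneg
  funext g
  by_cases hg : ∃ n : ℤ, T ^ n * g ∈ Γ'
  · obtain ⟨n, hn⟩ := hg
    obtain ⟨γ, hγ⟩ := e.surjective ⟨T ^ n * g, hn⟩
    have hγ' : (e γ : SL(2, ℤ)) = T ^ n * g := by rw [hγ]
    have e2 : (g : M2) * matD l = (((T ^ (-n) : SL(2, ℤ)) : M2) * matD l) * ((γ : SL(2, ℤ)) : M2) := by
      rw [Matrix.mul_assoc, he γ, hγ', ← Matrix.mul_assoc, ← Matrix.SpecialLinearGroup.coe_mul,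
        ← mul_assoc, ← zpow_add, neg_add_cancel, zpow_zero, one_mul]
    have hB : (((T ^ (-n) : SL(2, ℤ)) : M2) * matD l) 1 0 = 0 := by
      rw [liftAux_mul_matD, coe_T_zpow]
      simp
    rw [lift_eq' hl (indT_LI Γ) (indT_neg hneg) hB e2]
    have h1 : ∃ n : ℤ, T ^ n * (γ : SL(2, ℤ)) ∈ Γ := ⟨0, by simp⟩
    have h2 : ∃ n : ℤ, T ^ n * g ∈ Γ' := ⟨n, hn⟩
    simp only [indT, if_pos h1, if_pos h2]
  · have h1 : ¬ ∃ n : ℤ, T ^ n * dl l g ∈ Γ := by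
      rintro ⟨n, hn⟩
      apply hg
      obtain ⟨B, hB, e1⟩ := dl_spec hl g
      set γ : Γ := ⟨T ^ n * dl l g, hn⟩ with hγ
      -- `k = g * (e γ)⁻¹`
      have e3 : ((g * (e γ : SL(2, ℤ))⁻¹ : SL(2, ℤ)) : M2) * matD l =
          B * ((T ^ (-n) : SL(2, ℤ)) : M2) := by
        have h1 := he γ⁻¹
        rw [map_inv, Subgroup.coe_inv, Subgroup.coe_inv] at h1
        rw [Matrix.SpecialLinearGroup.coe_mul, Matrix.mul_assoc, ← h1, ← Matrix.mul_assoc, e1,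
          Matrix.mul_assoc, ← Matrix.SpecialLinearGroup.coe_mul]
        congr 2
        show dl l g * (T ^ n * dl l g)⁻¹ = T ^ (-n)
        group
      have hk : (g * (e γ : SL(2, ℤ))⁻¹ : SL(2, ℤ)) 1 0 = 0 := by
        have h2 := congrFun (congrFun e3 1) 0
        rw [liftAux_mul_matD, Matrix.mul_apply, Fin.sum_univ_two, hB, coe_T_zpow] at h2
        simp at h2
        exact h2.resolve_right hl.ne'
      obtain ⟨m, hm | hm⟩ := liftAux_eq_T hk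
      · refine ⟨-m, ?_⟩
        have : T ^ (-m) * g = (e γ : SL(2, ℤ)) := by
          rw [mul_inv_eq_iff_eq_mul] at hm
          rw [hm, ← mul_assoc, ← zpow_add, neg_add_cancel, zpow_zero, one_mul]
        rw [this]
        exact (e γ).2
      · refine ⟨-m, ?_⟩
        have : T ^ (-m) * g = (-1) * (e γ : SL(2, ℤ)) := by
          rw [mul_inv_eq_iff_eq_mul] at hm
          rw [hm, neg_mul, mul_neg, ← mul_assoc, ← zpow_add, neg_add_cancel, zpow_zero, one_mul,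
            neg_mul, one_mul]
        rw [this]
        exact Γ'.mul_mem hneg' (e γ).2
    show indT Γ (dl l g) = indT Γ' g
    simp only [indT, if_neg h1, if_neg hg]

end conj

end Fermat.Agent.S41.Pair
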