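import Fermat.Agent.S41.Pair.Pres

/-!
# S41 / Pair / Surj : every `v : G ⧸ Γ → k` is `uS - uU`

`G = SL(2,ℤ)`, `Γ ≤ G` with `-1 ∈ Γ`, `k` an abelian group.  For every `v : G ⧸ Γ → k` there are a
homomorphism `κ : Γ → k` and `κ`-quasi-invariant functions `uS uU : G → k`
(`u (g * γ) = u g + κ γ`) with `uS (S * g) = uS g`, `uU (S * T * g) = uU g` and
`uS g - uU g = v (g Γ)`.   (SURJECTIVITY in section 3 of the briefing `S41-BLUEPRINT`.)
-/

set_option autoImplicit false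

namespace Fermat.Agent.S41.Pair

open Matrix ModularGroup
open scoped MatrixGroups

variable {Γ : Subgroup SL(2,ℤ)} {k : Type*} [AddCommGroup k]

lemma surj_neg_smul (hneg : (-1 : SL(2,ℤ)) ∈ Γ) (x : SL(2,ℤ) ⧸ Γ) : (-1 : SL(2,ℤ)) • x = x := by
  induction x using QuotientGroup.induction_on with
  | H g =>
    rw [MulAction.Quotient.smul_coe, QuotientGroup.eq]
    have : ((-1 : SL(2,ℤ)) • g)⁻¹ * g = -1 := by
      rw [smul_eq_mul]
      have h1 : (-1 : SL(2,ℤ)) * g = g * (-1) := by simp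
      rw [h1, _root_.mul_inv_rev, mul_assoc, inv_mul_cancel, mul_one]
      ext i j
      fin_cases i <;> fin_cases j <;> simp
    rw [this]
    exact hneg

lemma surj_S_sq : (S : SL(2,ℤ)) ^ 2 = -1 := by
  ext i j
  fin_cases i <;> fin_cases j <;> simp [pow_two, coe_S, Matrix.mul_apply, Fin.sum_univ_two]

lemma surj_U_cube : (S * T : SL(2,ℤ)) ^ 3 = -1 := by
  ext i j
  fin_cases i <;> fin_cases j <;>
    simp [pow_succ, coe_S, coe_T, Matrix.mul_apply, Fin.sum_univ_two]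

/-- a skew translation `(x,a) ↦ (g x, a + w x)` of `Ω × k`. -/
def surjSkew (g : SL(2,ℤ)) (w : SL(2,ℤ) ⧸ Γ → k) : Equiv.Perm ((SL(2,ℤ) ⧸ Γ) × k) where
  toFun z := (g • z.1, z.2 + w z.1)
  invFun z := (g⁻¹ • z.1, z.2 - w (g⁻¹ • z.1))
  left_inv z := by simp
  right_inv z := by simp

@[simp] lemma surjSkew_apply (g : SL(2,ℤ)) (w : SL(2,ℤ) ⧸ Γ → k) (z : (SL(2,ℤ) ⧸ Γ) × k) :
    surjSkew g w z = (g • z.1, z.2 + w z.1) := rfl

lemma surjSkew_mul (g h : SL(2,ℤ)) (w w' : SL(2,ℤ) ⧸ Γ → k) :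
    surjSkew g w * surjSkew h w' = surjSkew (g * h) (fun x => w' x + w (h • x)) := by
  ext z
  · simp [mul_smul]
  · simp [add_assoc]

lemma surjSkew_inv (g : SL(2,ℤ)) (w : SL(2,ℤ) ⧸ Γ → k) :
    (surjSkew g w)⁻¹ = surjSkew g⁻¹ (fun x => - w (g⁻¹ • x)) := by
  rw [inv_eq_iff_mul_eq_one, surjSkew_mul]
  ext z
  · simp
  · simp

theorem exists_quasi_pair_aux (hneg : (-1 : SL(2,ℤ)) ∈ Γ) (v : SL(2,ℤ) ⧸ Γ → k)
    (U : SL(2,ℤ)) (hU : U = S * T) :
    ∃ (κ : Additive Γ →+ k) (uS uU : SL(2,ℤ) → k),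
      (∀ (g : SL(2,ℤ)) (γ : Γ), uS (g * γ) = uS g + κ (Additive.ofMul γ)) ∧
      (∀ (g : SL(2,ℤ)) (γ : Γ), uU (g * γ) = uU g + κ (Additive.ofMul γ)) ∧
      (∀ g : SL(2,ℤ), uS (S * g) = uS g) ∧
      (∀ g : SL(2,ℤ), uU (U * g) = uU g) ∧
      ∀ g : SL(2,ℤ), uS g - uU g = v (g : SL(2,ℤ) ⧸ Γ) := by
  classical
  set s : Equiv.Perm ((SL(2,ℤ) ⧸ Γ) × k) := surjSkew S (fun _ => 0) with hs
  set u : Equiv.Perm ((SL(2,ℤ) ⧸ Γ) × k) :=
    surjSkew U (fun x => v (U • x) - v x) with hu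
  have hs2 : s ^ 2 = 1 := by
    rw [pow_two, hs, surjSkew_mul, ← pow_two, surj_S_sq]
    ext z
    · simp [surj_neg_smul hneg]
    · simp
  have h3 : U * U * U = -1 := by
    rw [← surj_U_cube, pow_succ, pow_two, hU]
  have hu3 : u ^ 3 = 1 := by
    rw [pow_succ, pow_two, hu, surjSkew_mul, surjSkew_mul, h3]
    ext z
    · simp [surj_neg_smul hneg]
    · have h4 : U • U • U • z.1 = z.1 := by
        rw [← mul_smul, ← mul_smul, h3, surj_neg_smul hneg]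
      simp only [surjSkew_apply, Equiv.Perm.one_apply]
      rw [h4]
      abel
  obtain ⟨Φ, hΦS, hΦU⟩ := pres s u hs2 hu3
  rw [← hU] at hΦU
  -- every `Φ g` is a skew translation over `g`
  have hskew : ∀ g : SL(2,ℤ), ∃ w : SL(2,ℤ) ⧸ Γ → k, Φ g = surjSkew g w := by
    intro g
    have hg : g ∈ Subgroup.closure ({S, T} : Set SL(2,ℤ)) := by
      rw [SpecialLinearGroup.SL2Z_generators]; trivial
    induction hg using Subgroup.closure_induction with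
    | mem x hx =>
      rcases hx with rfl | rfl
      · exact ⟨_, hΦS⟩
      · have hT : T = S⁻¹ * U := by rw [hU, inv_mul_cancel_left]
        have : Φ T = (Φ S)⁻¹ * Φ U := by rw [hT, map_mul, map_inv]
        rw [this, hΦS, hΦU, hs, hu, surjSkew_inv, surjSkew_mul, ← hT]
        exact ⟨_, rfl⟩
    | one => exact ⟨fun _ => 0, by rw [map_one]; ext z <;> simp⟩
    | mul x y _ _ hx hy =>
      obtain ⟨w, hw⟩ := hx
      obtain ⟨w', hw'⟩ := hy
      exact ⟨_, by rw [map_mul, hw, hw', surjSkew_mul]⟩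
    | inv x _ hx =>
      obtain ⟨w, hw⟩ := hx
      exact ⟨_, by rw [map_inv, hw, surjSkew_inv]⟩
  choose c hc using hskew
  have hcmul : ∀ (g h : SL(2,ℤ)) (x : SL(2,ℤ) ⧸ Γ), c (g * h) x = c h x + c g (h • x) := by
    intro g h x
    have h1 : surjSkew (g * h) (c (g * h)) = surjSkew (g * h) (fun x => c h x + c g (h • x)) := by
      rw [← hc, map_mul, hc g, hc h, surjSkew_mul]
    have h2 := congrArg (fun e : Equiv.Perm ((SL(2,ℤ) ⧸ Γ) × k) => (e (x, 0)).2) h1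
    simpa using h2
  have hcS : ∀ x, c S x = 0 := by
    intro x
    have h1 : surjSkew S (c S) = surjSkew S (fun _ => (0 : k)) := by rw [← hc, hΦS]
    have h2 := congrArg (fun e : Equiv.Perm ((SL(2,ℤ) ⧸ Γ) × k) => (e (x, 0)).2) h1
    simpa using h2
  have hcU : ∀ x, c U x = v (U • x) - v x := by
    intro x
    have h1 : surjSkew U (c U) = surjSkew U (fun x => v (U • x) - v x) := by rw [← hc, hΦU]
    have h2 := congrArg (fun e : Equiv.Perm ((SL(2,ℤ) ⧸ Γ) × k) => (e (x, 0)).2) h1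
    simpa using h2
  set x0 : SL(2,ℤ) ⧸ Γ := ((1 : SL(2,ℤ)) : SL(2,ℤ) ⧸ Γ) with hx0
  have hfix : ∀ γ : Γ, (γ : SL(2,ℤ)) • x0 = x0 := by
    intro γ
    rw [hx0, MulAction.Quotient.smul_coe, QuotientGroup.eq, smul_eq_mul, mul_one, mul_one]
    exact inv_mem γ.2
  have hgx : ∀ g : SL(2,ℤ), g • x0 = (g : SL(2,ℤ) ⧸ Γ) := by
    intro g
    rw [hx0, MulAction.Quotient.smul_coe, smul_eq_mul, mul_one]
  let κ : Additive Γ →+ k := AddMonoidHom.mk' (fun γ => c ((Additive.toMul γ : Γ) : SL(2,ℤ)) x0) (by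
    intro γ γ'
    show c (((Additive.toMul γ * Additive.toMul γ' : Γ)) : SL(2,ℤ)) x0 = _
    rw [Subgroup.coe_mul, hcmul, hfix, add_comm])
  have hκ : ∀ γ : Γ, κ (Additive.ofMul γ) = c (γ : SL(2,ℤ)) x0 := fun _ => rfl
  refine ⟨κ, fun g => c g x0, fun g => c g x0 - v (g • x0), ?_, ?_, ?_, ?_, ?_⟩
  · intro g γ
    show c (g * γ) x0 = c g x0 + κ (Additive.ofMul γ)
    rw [hcmul, hfix, hκ, add_comm]
  · intro g γ
    show c (g * γ) x0 - v ((g * γ) • x0) = c g x0 - v (g • x0) + κ (Additive.ofMul γ)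
    rw [hcmul, mul_smul, hfix, hκ]
    abel
  · intro g
    show c (S * g) x0 = c g x0
    rw [hcmul, hcS, add_zero]
  · intro g
    show c (U * g) x0 - v ((U * g) • x0) = c g x0 - v (g • x0)
    rw [hcmul, hcU, mul_smul]
    abel
  · intro g
    show c g x0 - (c g x0 - v (g • x0)) = _
    rw [hgx]
    abel

/-- **SURJECTIVITY**: every `v : G ⧸ Γ → k` is `uS - uU` for a pair of quasi-invariant functions
(for one and the same `κ : Γ → k`), `uS` left `S`-invariant, `uU` left `S * T`-invariant. -/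
theorem exists_quasi_pair (hneg : (-1 : SL(2,ℤ)) ∈ Γ) (v : SL(2,ℤ) ⧸ Γ → k) :
    ∃ (κ : Additive Γ →+ k) (uS uU : SL(2,ℤ) → k),
      (∀ (g : SL(2,ℤ)) (γ : Γ), uS (g * γ) = uS g + κ (Additive.ofMul γ)) ∧
      (∀ (g : SL(2,ℤ)) (γ : Γ), uU (g * γ) = uU g + κ (Additive.ofMul γ)) ∧
      (∀ g : SL(2,ℤ), uS (S * g) = uS g) ∧
      (∀ g : SL(2,ℤ), uU (S * T * g) = uU g) ∧
      ∀ g : SL(2,ℤ), uS g - uU g = v (g : SL(2,ℤ) ⧸ Γ) :=
  exists_quasi_pair_aux hneg v (S * T) rfl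

end Fermat.Agent.S41.Pair
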