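import Fermat.Agent.S41.Pair.Integ
import Fermat.Agent.S41.Pair.Surj
import Fermat.Agent.S41.Pair.Class

/-!
# S41 / Pair / Symb : dictionary homs <-> functions   [key S41/PAIR-SYMB]

* `exists_isH`, `exists_isSymb` : `S16.Lower.exists_quasi` for `h = S, S*T, T`
  (hypothesis of `exists_quasi`: `γ = r⁻¹ h^k r` is torsion by `S16.Lower.LiftAux.conj_zpow_pow_twelve`, `S_pow_twelve`,
  `ST_pow_twelve`; resp. has trace `2`: trace of a conjugate of `T^k`).
* `mem_HH_of_isH` : `γ^12 = 1` => (`CL.exists_conj_SU`) `γ = r⁻¹ S^k r`: `uS (S^k r) = uS r` and `S^k r = r γ`, so `κ γ = 0`; same with `U`.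
* `mem_PH_of` : `CL.exists_conj_T_neg`; `κ(-1) = 0` by `mem_HH_of_isH`.
* `exists_H_of` : `exists_quasi_pair` applied to the descent of `v`.
* `eq_zero_of_split` : `u := uS - a = uU + b` is quasi-invariant for `κ`, left invariant under `S` and `U`, hence under `T`,
  hence constant (`S16.Lower.LiftAux.const_of_inv`), so `κ γ = u γ - u 1 = 0`.
* `exists_symb_of` : `exists_H_of` for `v = y - w`; `F := uS + w = uU + y`; `F(S⁻¹g) - F g = (S-1)w = (U-1)y = F(U⁻¹ g) - F g`,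
  so `F(S⁻¹ g) = F(T⁻¹ S⁻¹ g)` for all `g`: `LI T F`.
-/

set_option autoImplicit false

open ModularGroup
open scoped MatrixGroups

noncomputable section

namespace Fermat.Agent.S41.Pair

variable {p : ℕ} {Γ : Subgroup SL(2, ℤ)}

theorem exists_isH {κ : Additive Γ →+ ZMod p} (hκ : κ ∈ HH p Γ) :
    ∃ uS uU : SL(2, ℤ) → ZMod p, IsH Γ κ uS uU := by
  have htors : ∀ h : SL(2, ℤ), h ^ 12 = 1 → ∀ (r : SL(2, ℤ)) (k : ℤ) (γ : Γ),
      (γ : SL(2, ℤ)) = r⁻¹ * h ^ k * r → κ (Additive.ofMul γ) = 0 := by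
    intro h hh r k γ hγ
    apply hκ γ
    apply Subtype.ext
    rw [Subgroup.coe_pow, hγ, Fermat.Agent.S16.Lower.LiftAux.conj_zpow_pow_twelve hh]
    rfl
  obtain ⟨uS, uS1, uS2⟩ := Fermat.Agent.S16.Lower.exists_quasi (Γ := Γ) S κ
    (htors S Fermat.Agent.S16.Lower.LiftAux.S_pow_twelve)
  obtain ⟨uU, uU1, uU2⟩ := Fermat.Agent.S16.Lower.exists_quasi (Γ := Γ) (S * T) κ
    (htors (S * T) Fermat.Agent.S16.Lower.LiftAux.ST_pow_twelve)
  exact ⟨uS, uU, uS1, uU1, uS2, uU2⟩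

theorem exists_isSymb {κ : Additive Γ →+ ZMod p} (hκ : κ ∈ PH p Γ) :
    ∃ F : SL(2, ℤ) → ZMod p, IsSymb Γ κ F := by
  obtain ⟨u, h1, h2⟩ := Fermat.Agent.S16.Lower.exists_quasi (Γ := Γ) T κ (by
    intro r k γ hγ
    apply hκ γ
    left
    rw [hγ, Fermat.Agent.S21.DimBound.trace_conj_T_zpow]
    norm_num)
  exact ⟨u, h1, h2⟩

theorem LI.zpow_mul {h : SL(2, ℤ)} {A : Type} {f : SL(2, ℤ) → A} (hf : LI h f) (k : ℤ)
    (g : SL(2, ℤ)) : f (h ^ k * g) = f g := by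
  induction k using Int.induction_on generalizing g with
  | zero => simp
  | succ n ih => rw [zpow_add_one, mul_assoc, ih, hf.mul_left]
  | pred n ih => rw [zpow_sub_one, mul_assoc, ih, hf]

/-- a quasi-invariant function which is left invariant under `h` kills the conjugates of the powers
of `h` -/
theorem QI.eq_zero_of_conj {κ : Additive Γ →+ ZMod p} {u : SL(2, ℤ) → ZMod p} (hu : QI Γ κ u)
    {h : SL(2, ℤ)} (hl : LI h u) (r : SL(2, ℤ)) (k : ℤ) (γ : Γ)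
    (hγ : (γ : SL(2, ℤ)) = r⁻¹ * h ^ k * r) : κ (Additive.ofMul γ) = 0 := by
  have h1 := hu r γ
  have h2 : r * (γ : SL(2, ℤ)) = h ^ k * r := by rw [hγ]; group
  rw [h2, hl.zpow_mul] at h1
  exact (left_eq_add.1 h1)

theorem mem_HH_of_isH {κ : Additive Γ →+ ZMod p} {uS uU : SL(2, ℤ) → ZMod p}
    (hH : IsH Γ κ uS uU) : κ ∈ HH p Γ := by
  intro γ hγ
  have hγ' : (γ : SL(2, ℤ)) ^ 12 = 1 := by
    rw [← Subgroup.coe_pow, hγ]; rfl
  obtain ⟨r, k, e | e⟩ := CL.exists_conj_SU (γ : SL(2, ℤ)) hγ'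
  · exact hH.qS.eq_zero_of_conj hH.lS r k γ e
  · exact hH.qU.eq_zero_of_conj hH.lU r k γ e

theorem mem_PH_of (hneg : (-1 : SL(2, ℤ)) ∈ Γ) {κ : Additive Γ →+ ZMod p}
    {uS uU F : SL(2, ℤ) → ZMod p} (hH : IsH Γ κ uS uU) (hF : IsSymb Γ κ F) : κ ∈ PH p Γ := by
  have hκ := mem_HH_of_isH hH
  intro γ hγ
  rcases hγ with hγ | hγ
  · obtain ⟨r, k, e | e⟩ := CL.exists_conj_T_neg (γ : SL(2, ℤ)) hγ
    · exact hF.q.eq_zero_of_conj hF.l r k γ e
    · let m : Γ := ⟨-1, hneg⟩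
      have hm : κ (Additive.ofMul m) = 0 := by
        apply hκ m
        apply Subtype.ext
        show (-1 : SL(2, ℤ)) ^ 12 = 1
        exact Even.neg_one_pow (by decide)
      have e' : ((m * γ : Γ) : SL(2, ℤ)) = r⁻¹ * T ^ k * r := by
        show (-1 : SL(2, ℤ)) * (γ : SL(2, ℤ)) = _
        rw [e]; simp
      have h1 := hF.q.eq_zero_of_conj hF.l r k (m * γ) e'
      rw [ofMul_mul, map_add, hm, zero_add] at h1
      exact h1
  · exact hκ γ hγ

theorem exists_H_of (hneg : (-1 : SL(2, ℤ)) ∈ Γ) (v : SL(2, ℤ) → ZMod p) (hv : RI Γ v) :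
    ∃ (κ : Additive Γ →+ ZMod p) (uS uU : SL(2, ℤ) → ZMod p),
      IsH Γ κ uS uU ∧ ∀ g, uS g - uU g = v g := by
  obtain ⟨v', hv'⟩ := hv.exists_desc
  obtain ⟨κ, uS, uU, h1, h2, h3, h4, h5⟩ := exists_quasi_pair hneg v'
  refine ⟨κ, uS, uU, ⟨h1, h2, fun g => ?_, fun g => ?_⟩, fun g => by rw [h5, hv']⟩
  · have := h3 (S⁻¹ * g)
    rw [mul_inv_cancel_left] at this
    exact this.symm
  · have := h4 ((S * T)⁻¹ * g)
    rw [mul_inv_cancel_left] at this
    exact this.symm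

/-- a function which is left invariant under `S` and `T` is constant -/
theorem const_of_LI {E : SL(2, ℤ) → ZMod p} (hS : LI S E) (hT : LI T E) (g : SL(2, ℤ)) :
    E g = E 1 :=
  Fermat.Agent.S16.Lower.LiftAux.const_of_inv E hT hS g

/-- left invariance under `S` and `S * T` gives left invariance under `T` -/
theorem LI_T_of {A : Type} {f : SL(2, ℤ) → A} (hS : LI S f) (hU : LI (S * T) f) : LI T f := by
  intro g
  have h1 := hU (S * g)
  rw [mul_inv_rev, mul_assoc, inv_mul_cancel_left, hS.mul_left] at h1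
  exact h1

theorem eq_zero_of_split {κ : Additive Γ →+ ZMod p} {uS uU a b : SL(2, ℤ) → ZMod p}
    (hH : IsH Γ κ uS uU) (ha : RI Γ a) (hb : RI Γ b) (haS : LI S a) (hbU : LI (S * T) b)
    (h : ∀ g, uS g - uU g = a g + b g) : κ = 0 := by
  have hq : QI Γ κ (fun g => uS g - a g) := fun g γ => by
    dsimp only; rw [hH.qS, ha]; ring
  have hlS : LI S (fun g => uS g - a g) := hH.lS.sub haS
  have hlU : LI (S * T) (fun g => uS g - a g) := by
    have e : (fun g => uS g - a g) = fun g => uU g + b g := by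
      funext g
      linear_combination h g
    rw [e]
    exact hH.lU.add hbU
  refine AddMonoidHom.ext fun γ => ?_
  have h1 := hq 1 (Additive.toMul γ)
  have h2 := const_of_LI hlS (LI_T_of hlS hlU) (1 * ((Additive.toMul γ : Γ) : SL(2, ℤ)))
  exact add_eq_left.1 (h1.symm.trans h2)

theorem exists_symb_of (hneg : (-1 : SL(2, ℤ)) ∈ Γ) (w y : SL(2, ℤ) → ZMod p) (hw : RI Γ w)
    (hy : RI Γ y) (h : ∀ g, w (S⁻¹ * g) - w g = y ((S * T)⁻¹ * g) - y g) :
    ∃ (κ : Additive Γ →+ ZMod p) (uS uU F : SL(2, ℤ) → ZMod p),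
      IsH Γ κ uS uU ∧ IsSymb Γ κ F ∧ ∀ g, xS F g = w (S⁻¹ * g) - w g := by
  obtain ⟨κ, uS, uU, hH, hv⟩ := exists_H_of hneg (fun g => y g - w g) (hy.sub hw)
  have hx : ∀ g, xS (fun g => uS g + w g) g = w (S⁻¹ * g) - w g := by
    intro g
    unfold xS
    dsimp only
    rw [hH.lS]
    ring
  refine ⟨κ, uS, uU, fun g => uS g + w g, hH, ⟨hH.qS.add_RI hw, ?_⟩, hx⟩
  intro g
  have e : ∀ g, uS g + w g = uU g + y g := fun g => by linear_combination hv g
  -- `F (S⁻¹ g') = F (T⁻¹ S⁻¹ g')` with `g' = S g`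
  have h1 := hx (S * g)
  unfold xS at h1
  rw [inv_mul_cancel_left] at h1
  dsimp only at h1
  have h2 := h (S * g)
  rw [inv_mul_cancel_left, mul_inv_rev, mul_assoc, inv_mul_cancel_left] at h2
  have h3 := hH.lU (S * g)
  rw [mul_inv_rev, mul_assoc, inv_mul_cancel_left] at h3
  dsimp only
  rw [e (T⁻¹ * g), h3]
  have h4 := e (S * g)
  linear_combination - h2 - h4 - h1

end Fermat.Agent.S41.Pair
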