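import Fermat.Agent.S41.Pair.Ker
import Fermat.Agent.S41.Pair.Symb
import Fermat.Agent.S41.Pair.LiftInd

/-!
# S41 / Pair / Inv : invariance of the pairing under conjugation by `diag(ℓ,1)`
[key S41/PAIR-INV, helper8]   (kernel trick, second half)
-/

set_option autoImplicit false
set_option linter.style.haveILetI false

open ModularGroup Fermat.Agent.S16.Lower
open scoped MatrixGroups

noncomputable section

namespace Fermat.Agent.S41.Pair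

variable {p : ℕ} {l : ℕ} {Γ Γd : Subgroup SL(2, ℤ)}

theorem coe_mem_kerG {κ : Additive Γ →+ ZMod p} (x : Γ) :
    (x : SL(2, ℤ)) ∈ kerG Γ κ ↔ κ (Additive.ofMul x) = 0 := by
  rw [mem_kerG]
  constructor
  · rintro ⟨_, h⟩; exact h
  · intro h; exact ⟨x.2, h⟩

theorem inv_mem_iff (e : Γ ≃* Γd) (κ : Additive Γ →+ ZMod p) (x : Γ) :
    (e x : SL(2, ℤ)) ∈ kerG Γd (liftH e κ) ↔ (x : SL(2, ℤ)) ∈ kerG Γ κ := by
  rw [coe_mem_kerG, coe_mem_kerG, liftH_apply]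

/-- the isomorphism induced on the kernels -/
def kerE (e : Γ ≃* Γd) (κ : Additive Γ →+ ZMod p) : kerG Γ κ ≃* kerG Γd (liftH e κ) where
  toFun γ := ⟨e ⟨γ.1, kerG_le _ _ γ.2⟩, (inv_mem_iff e κ _).mpr γ.2⟩
  invFun γ := ⟨e.symm ⟨γ.1, kerG_le _ _ γ.2⟩, by
    rw [← inv_mem_iff e κ, e.apply_symm_apply]; exact γ.2⟩
  left_inv γ := by
    apply Subtype.ext
    simp
  right_inv γ := by
    apply Subtype.ext
    simp
  map_mul' a b := by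
    apply Subtype.ext
    have h := map_mul e ⟨a.1, kerG_le _ _ a.2⟩ ⟨b.1, kerG_le _ _ b.2⟩
    exact congrArg (fun z : Γd => (z : SL(2, ℤ))) h

theorem kerE_coe (e : Γ ≃* Γd) (κ : Additive Γ →+ ZMod p) (γ : kerG Γ κ) :
    ((kerE e κ γ : kerG Γd (liftH e κ)) : SL(2, ℤ)) = (e ⟨γ.1, kerG_le _ _ γ.2⟩ : SL(2, ℤ)) := rfl

theorem inv_liftH_mem_HH (e : Γ ≃* Γd) {κ : Additive Γ →+ ZMod p} (hκ : κ ∈ HH p Γ) :
    liftH e κ ∈ HH p Γd := by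
  intro γ hγ
  rw [liftH_apply']
  apply hκ
  rw [← map_pow, hγ, map_one]

theorem inv_isReps (e : Γ ≃* Γd) (κ : Additive Γ →+ ZMod p) {ι : Type} {r : ι → Γ}
    (hr : IsReps (kerG Γ κ) Γ r) : IsReps (kerG Γd (liftH e κ)) Γd (fun i => e (r i)) := by
  intro γd
  obtain ⟨γ, rfl⟩ := e.surjective γd
  have key : ∀ i, (e γ : SL(2, ℤ)) * (e (r i) : SL(2, ℤ))⁻¹ ∈ kerG Γd (liftH e κ) ↔
      (γ : SL(2, ℤ)) * (r i : SL(2, ℤ))⁻¹ ∈ kerG Γ κ := by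
    intro i
    have h1 : (e γ : SL(2, ℤ)) * (e (r i) : SL(2, ℤ))⁻¹ = (e (γ * (r i)⁻¹) : SL(2, ℤ)) := by
      rw [map_mul, map_inv]; rfl
    rw [h1, inv_mem_iff]
    rfl
  obtain ⟨i, hi, hu⟩ := hr γ
  exact ⟨i, (key i).mpr hi, fun j hj => hu j ((key j).mp hj)⟩

theorem isH_zero (Γ : Subgroup SL(2, ℤ)) :
    IsH Γ (0 : Additive Γ →+ ZMod p) (fun _ => 0) (fun _ => 0) :=
  ⟨fun _ _ => by simp, fun _ _ => by simp, fun _ => rfl, fun _ => rfl⟩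

/-- **kernel trick, second half** -/
theorem inv_kill [Fact p.Prime] (hp2 : p ≠ 2) (hl : 0 < l) [Γ.FiniteIndex] [Γd.FiniteIndex]
    (hneg : (-1 : SL(2, ℤ)) ∈ Γ) {e : Γ ≃* Γd}
    (he : ∀ γ : Γ, matD l * ((γ : SL(2, ℤ)) : M2) = ((e γ : SL(2, ℤ)) : M2) * matD l)
    {κ κ' : Additive Γ →+ ZMod p} {uS uU wS wU F uSd uUd : SL(2, ℤ) → ZMod p}
    (hH' : IsH Γ κ' uS uU) (h0 : κ' ≠ 0) (hF : IsSymb Γ κ F) (hH : IsH Γ κ wS wU)
    (hP : Pv Γ F (fun g => uS g - uU g) = 0) (hHd : IsH Γd (liftH e κ') uSd uUd) :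
    Pv Γd (lift l F) (fun g => uSd g - uUd g) = 0 := by
  haveI : (kerG Γ κ').FiniteIndex := kerG_finiteIndex Γ κ'
  haveI : (kerG Γd (liftH e κ')).FiniteIndex := kerG_finiteIndex Γd _
  have hneg' : (-1 : SL(2, ℤ)) ∈ kerG Γ κ' := neg_one_mem_kerG hH' hneg
  obtain ⟨ι, _, r, hr⟩ := exists_reps (kerG_le Γ κ')
  obtain ⟨κ'', F', vS, vU, c, hF', hHv, hFeq⟩ := ker_tr hneg hH' h0 hF hH hP hr
  have he' : ∀ γ : kerG Γ κ', matD l * ((γ : SL(2, ℤ)) : M2)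
      = ((kerE e κ' γ : SL(2, ℤ)) : M2) * matD l := fun γ => he ⟨γ.1, kerG_le _ _ γ.2⟩
  have hF'd : IsSymb (kerG Γd (liftH e κ')) (liftH (kerE e κ') κ'') (lift l F') :=
    lift_isSymb hp2 hl hneg' he' hF'
  obtain ⟨xS', xU', hHx⟩ := exists_isH (inv_liftH_mem_HH (kerE e κ') (mem_HH_of_isH hHv))
  have h1 : ∀ g, lift l F g = trF (fun i => e (r i)) (lift l F') g + c := by
    intro g
    rw [← lift_trF hl he r hF'.l (hF'.q.neg hp2 hneg')]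
    exact hFeq _
  rw [Pv_congr h1 (fun _ => rfl), Pv_add_const,
    Pv_trF_left (kerG_le _ _) (inv_isReps e κ' hr) (xS_RI hF'd.q) (hHd.qS.sub_RI hHd.qU)]
  have h2 : IsH (kerG Γd (liftH e κ')) 0 uSd uUd := by
    have := hHd.res (kerG_le Γd (liftH e κ'))
    rwa [resH_kerG] at this
  rw [Pv_indep_right hHx hF'd h2 (isH_zero _)]
  unfold Pv
  rw [← integ_zero (Γ := kerG Γd (liftH e κ'))]
  exact integ_congr fun g => by simp


theorem inv_exists_width (Γ : Subgroup SL(2, ℤ)) [Γ.FiniteIndex] :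
    ∃ w : ℕ, 0 < w ∧ T ^ w ∈ Γ ∧ ∀ m : ℕ, 0 < m → m < w → T ^ m ∉ Γ := by
  classical
  have hex : ∃ n : ℕ, 0 < n ∧ T ^ n ∈ Γ := by
    obtain ⟨n, h1, -, h2⟩ := Subgroup.exists_pow_mem_of_index_ne_zero
      (Subgroup.FiniteIndex.index_ne_zero (H := Γ)) T
    exact ⟨n, h1, h2⟩
  refine ⟨Nat.find hex, (Nat.find_spec hex).1, (Nat.find_spec hex).2, fun m hm hlt hmem => ?_⟩
  exact Nat.find_min hex hlt ⟨hm, hmem⟩

/-- the boundary formula on both sides -/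
theorem inv_bd (hl : 0 < l) [Γ.FiniteIndex] [Γd.FiniteIndex]
    (hneg : (-1 : SL(2, ℤ)) ∈ Γ) {e : Γ ≃* Γd}
    (he : ∀ γ : Γ, matD l * ((γ : SL(2, ℤ)) : M2) = ((e γ : SL(2, ℤ)) : M2) * matD l)
    {κ' : Additive Γ →+ ZMod p} {uS uU uSd uUd : SL(2, ℤ) → ZMod p}
    (hH' : IsH Γ κ' uS uU) (hHd : IsH Γd (liftH e κ') uSd uUd) :
    Pv Γd (lift l (indT Γ)) (fun g => uSd g - uUd g) = Pv Γ (indT Γ) (fun g => uS g - uU g) := by
  obtain ⟨w, hw, hwΓ, hmin⟩ := inv_exists_width Γ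
  rw [lift_indT hl he hneg, bd Γ κ' uS uU hH' w hw hwΓ hmin,
    bd Γd (liftH e κ') uSd uUd hHd (l * w) (Nat.mul_pos hl hw) (conj_T_pow_mem hl he hwΓ)
      (conj_width hl he hmin)]
  have : (⟨T ^ (l * w), conj_T_pow_mem hl he hwΓ⟩ : Γd) = e ⟨T ^ w, hwΓ⟩ :=
    Subtype.ext (conj_T_pow hl he hwΓ).symm
  rw [this, liftH_apply]

theorem isSymb_indT (Γ : Subgroup SL(2, ℤ)) :
    IsSymb Γ (0 : Additive Γ →+ ZMod p) (indT Γ) :=
  ⟨QI_zero_iff.mpr (indT_RI Γ), indT_LI Γ⟩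

/-- step (A) -/
theorem inv_stepA [Fact p.Prime] (hp2 : p ≠ 2) (hl : 0 < l) [Γ.FiniteIndex] [Γd.FiniteIndex]
    (hneg : (-1 : SL(2, ℤ)) ∈ Γ) {e : Γ ≃* Γd}
    (he : ∀ γ : Γ, matD l * ((γ : SL(2, ℤ)) : M2) = ((e γ : SL(2, ℤ)) : M2) * matD l)
    {κ κ' : Additive Γ →+ ZMod p} {uS uU wS wU F uSd uUd : SL(2, ℤ) → ZMod p}
    (hH' : IsH Γ κ' uS uU) (hF : IsSymb Γ κ F) (hH : IsH Γ κ wS wU)
    (hHd : IsH Γd (liftH e κ') uSd uUd)
    (hne : Pv Γ (indT Γ) (fun g => uS g - uU g) ≠ 0) :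
    Pv Γd (lift l F) (fun g => uSd g - uUd g) = Pv Γ F (fun g => uS g - uU g) := by
  have h0 : κ' ≠ 0 := by
    rintro rfl
    apply hne
    rw [Pv_indep_right (isH_zero Γ) (isSymb_indT Γ) hH' (isH_zero Γ)]
    unfold Pv
    rw [← integ_zero (Γ := Γ)]
    exact integ_congr fun g => by simp
  set c : ZMod p := Pv Γ F (fun g => uS g - uU g) / Pv Γ (indT Γ) (fun g => uS g - uU g) with hc
  have hF2 : IsSymb Γ κ (fun g => F g - c * indT Γ g) := by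
    refine ⟨?_, hF.l.sub ((indT_LI Γ).smul c)⟩
    intro g γ
    dsimp only
    rw [hF.q, indT_RI Γ]
    ring
  have hP2 : Pv Γ (fun g => F g - c * indT Γ g) (fun g => uS g - uU g) = 0 := by
    rw [Pv_sub_left, Pv_smul_left, hc]
    field_simp
    ring
  have h1 := inv_kill hp2 hl hneg he hH' h0 hF2 hH hP2 hHd
  have h2 : ∀ g, lift l (fun g => F g - c * indT Γ g) g = lift l F g - c * lift l (indT Γ) g :=
    fun _ => rfl
  rw [Pv_congr h2 (fun _ => rfl), Pv_sub_left, Pv_smul_left, inv_bd hl hneg he hH' hHd,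
    sub_eq_zero] at h1
  rw [h1, hc]
  field_simp


theorem inv_dvd {e : Γ ≃* Γd}
    (he : ∀ γ : Γ, matD l * ((γ : SL(2, ℤ)) : M2) = ((e γ : SL(2, ℤ)) : M2) * matD l)
    {g : SL(2, ℤ)} (hg : g ∈ Γ) : (l : ℤ) ∣ g 1 0 := by
  have h := congrFun (congrFun (he ⟨g, hg⟩) 1) 0
  simp only [matD, Matrix.mul_apply, Fin.sum_univ_two] at h
  simp at h
  exact ⟨_, by rw [h]; ring⟩

theorem inv_indT_S (hl : 1 < l) {e : Γ ≃* Γd}
    (he : ∀ γ : Γ, matD l * ((γ : SL(2, ℤ)) : M2) = ((e γ : SL(2, ℤ)) : M2) * matD l) :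
    (indT Γ : SL(2, ℤ) → ZMod p) (S⁻¹ * 1) = 0 := by
  classical
  unfold indT
  rw [if_neg]
  rintro ⟨n, hn⟩
  have h1 := inv_dvd he hn
  have h2 : (T ^ n * (S⁻¹ * 1) : SL(2, ℤ)) 1 0 = -1 := by
    rw [mul_one, Matrix.SpecialLinearGroup.coe_mul, coe_T_zpow, Matrix.SpecialLinearGroup.coe_inv,
      Matrix.adjugate_fin_two, coe_S]
    simp [Matrix.mul_apply, Fin.sum_univ_two]
  rw [h2] at h1
  have h3 : (l : ℤ) ∣ 1 := by simpa using h1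
  have h4 := Int.le_of_dvd one_pos h3
  omega

theorem inv_indT_one (Γ : Subgroup SL(2, ℤ)) : (indT Γ : SL(2, ℤ) → ZMod p) 1 = 1 := by
  classical
  unfold indT
  rw [if_pos]
  exact ⟨0, by simp⟩

/-- existence of `κ₁` -/
theorem inv_exists_kappa [Fact p.Prime] (hl : 1 < l) [Γ.FiniteIndex]
    (hneg : (-1 : SL(2, ℤ)) ∈ Γ) {e : Γ ≃* Γd}
    (he : ∀ γ : Γ, matD l * ((γ : SL(2, ℤ)) : M2) = ((e γ : SL(2, ℤ)) : M2) * matD l) :
    ∃ (κ₁ : Additive Γ →+ ZMod p) (uS uU : SL(2, ℤ) → ZMod p), IsH Γ κ₁ uS uU ∧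
      Pv Γ (indT Γ) (fun g => uS g - uU g) ≠ 0 := by
  classical
  have hv : RI Γ (fun g : SL(2, ℤ) => if g ∈ Γ then (1 : ZMod p) else 0) := by
    intro g γ
    have : g * (γ : SL(2, ℤ)) ∈ Γ ↔ g ∈ Γ := Subgroup.mul_mem_cancel_right Γ γ.2
    simp only [this]
  obtain ⟨κ₁, uS, uU, hH, hd⟩ := exists_H_of hneg _ hv
  refine ⟨κ₁, uS, uU, hH, ?_⟩
  rw [Pv_congr (fun _ => rfl) hd]
  unfold Pv
  rw [integ_indicator (xS_RI (isSymb_indT Γ).q)]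
  unfold xS
  rw [inv_indT_S hl he, inv_indT_one]
  simp

theorem inv_liftH_add (e : Γ ≃* Γd) (κ κ' : Additive Γ →+ ZMod p) :
    liftH e (κ + κ') = liftH e κ + liftH e κ' := rfl

/-- **(INV)** at the level of `Pv` -/
theorem Pv_conj [Fact p.Prime] (hp2 : p ≠ 2) (hl : 1 < l) [Γ.FiniteIndex] [Γd.FiniteIndex]
    (hneg : (-1 : SL(2, ℤ)) ∈ Γ) {e : Γ ≃* Γd}
    (he : ∀ γ : Γ, matD l * ((γ : SL(2, ℤ)) : M2) = ((e γ : SL(2, ℤ)) : M2) * matD l)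
    {κ κ' : Additive Γ →+ ZMod p} {uS uU wS wU F uSd uUd : SL(2, ℤ) → ZMod p}
    (hF : IsSymb Γ κ F) (hH : IsH Γ κ wS wU) (hH' : IsH Γ κ' uS uU)
    (hHd : IsH Γd (liftH e κ') uSd uUd) :
    Pv Γd (lift l F) (fun g => uSd g - uUd g) = Pv Γ F (fun g => uS g - uU g) := by
  have hl0 : 0 < l := by omega
  by_cases hne : Pv Γ (indT Γ) (fun g => uS g - uU g) = 0
  · obtain ⟨κ₁, aS, aU, hH1, hne1⟩ := inv_exists_kappa (p := p) hl hneg he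
    obtain ⟨aSd, aUd, hH1d⟩ := exists_isH (inv_liftH_mem_HH e (mem_HH_of_isH hH1))
    have e1 := inv_stepA hp2 hl0 hneg he hH1 hF hH hH1d hne1
    have hsum : IsH Γd (liftH e (κ' + κ₁)) (fun g => uSd g + aSd g) (fun g => uUd g + aUd g) := by
      rw [inv_liftH_add]; exact hHd.add hH1d
    have r1 : ∀ (X : Subgroup SL(2, ℤ)) [X.FiniteIndex] (E a b c d : SL(2, ℤ) → ZMod p),
        Pv X E (fun g => (a g + c g) - (b g + d g))
          = Pv X E (fun g => a g - b g) + Pv X E (fun g => c g - d g) := by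
      intro X _ E a b c d
      rw [← Pv_add_right]
      exact Pv_congr (fun _ => rfl) (fun g => by ring)
    have e2 := inv_stepA hp2 hl0 hneg he (hH'.add hH1) hF hH hsum (by
      rw [r1, hne, zero_add]; exact hne1)
    rw [r1, r1, e1] at e2
    exact add_right_cancel e2
  · exact inv_stepA hp2 hl0 hneg he hH' hF hH hHd hne

end Fermat.Agent.S41.Pair
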