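import Fermat.Agent.S41.Pair.Ker
import Fermat.Agent.S41.Pair.LiftInd
import Fermat.Agent.S41.Pair.Symb

/-!
# S41 / Pair / InvAux : auxiliary statements for (INV)     (helper6)
-/

set_option autoImplicit false

open ModularGroup Fermat.Agent.S16.Lower
open scoped MatrixGroups

noncomputable section

namespace Fermat.Agent.S41.Pair

variable {p : ℕ} {l : ℕ} {Γ Γ' : Subgroup SL(2, ℤ)} (e : Γ ≃* Γ')

theorem mem_kerG_map (κ : Additive Γ →+ ZMod p) (k : kerG Γ κ) :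
    ((e ⟨k.1, kerG_le Γ κ k.2⟩ : Γ') : SL(2, ℤ)) ∈ kerG Γ' (liftH e κ) := by
  obtain ⟨h, hk⟩ := mem_kerG.mp k.2
  refine mem_kerG.mpr ⟨(e ⟨k.1, kerG_le Γ κ k.2⟩).2, ?_⟩
  have : liftH e κ (Additive.ofMul (e ⟨k.1, kerG_le Γ κ k.2⟩)) = 0 := by
    rw [liftH_apply]; exact hk
  exact this

theorem mem_kerG_symm (κ : Additive Γ →+ ZMod p) (k : kerG Γ' (liftH e κ)) :
    ((e.symm ⟨k.1, kerG_le Γ' _ k.2⟩ : Γ) : SL(2, ℤ)) ∈ kerG Γ κ := by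
  obtain ⟨h, hk⟩ := mem_kerG.mp k.2
  refine mem_kerG.mpr ⟨(e.symm ⟨k.1, kerG_le Γ' _ k.2⟩).2, ?_⟩
  rw [liftH_apply'] at hk
  exact hk

/-- the isomorphism induced on the kernels -/
def kerEquiv (κ : Additive Γ →+ ZMod p) : kerG Γ κ ≃* kerG Γ' (liftH e κ) where
  toFun k := ⟨(e ⟨k.1, kerG_le Γ κ k.2⟩ : Γ'), mem_kerG_map e κ k⟩
  invFun k := ⟨(e.symm ⟨k.1, kerG_le Γ' _ k.2⟩ : Γ), mem_kerG_symm e κ k⟩
  left_inv k := by
    apply Subtype.ext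
    simp
  right_inv k := by
    apply Subtype.ext
    simp
  map_mul' a b := by
    apply Subtype.ext
    have : (⟨(a * b : kerG Γ κ).1, kerG_le Γ κ (a * b).2⟩ : Γ) =
        ⟨a.1, kerG_le Γ κ a.2⟩ * ⟨b.1, kerG_le Γ κ b.2⟩ := rfl
    simp only [this, map_mul]
    rfl

theorem kerEquiv_coe (κ : Additive Γ →+ ZMod p) (k : kerG Γ κ) :
    ((kerEquiv e κ k : kerG Γ' (liftH e κ)) : SL(2, ℤ)) =
      ((e ⟨k.1, kerG_le Γ κ k.2⟩ : Γ') : SL(2, ℤ)) := rfl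

variable {e}

theorem kerEquiv_rel
    (he : ∀ γ : Γ, matD l * ((γ : SL(2, ℤ)) : M2) = ((e γ : SL(2, ℤ)) : M2) * matD l)
    (κ : Additive Γ →+ ZMod p) (k : kerG Γ κ) :
    matD l * ((k : SL(2, ℤ)) : M2) = ((kerEquiv e κ k : SL(2, ℤ)) : M2) * matD l :=
  he ⟨k.1, kerG_le Γ κ k.2⟩

theorem isReps_map (κ : Additive Γ →+ ZMod p) {ι : Type} {r : ι → Γ}
    (hr : IsReps (kerG Γ κ) Γ r) : IsReps (kerG Γ' (liftH e κ)) Γ' (fun i => e (r i)) := by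
  have key : ∀ (γ : Γ) (i : ι), ((e γ : Γ') : SL(2, ℤ)) * ((e (r i) : Γ') : SL(2, ℤ))⁻¹ ∈
      kerG Γ' (liftH e κ) ↔ (γ : SL(2, ℤ)) * (r i : SL(2, ℤ))⁻¹ ∈ kerG Γ κ := by
    intro γ i
    have h1 : ((e γ : Γ') : SL(2, ℤ)) * ((e (r i) : Γ') : SL(2, ℤ))⁻¹ =
        ((e (γ * (r i)⁻¹) : Γ') : SL(2, ℤ)) := by
      rw [map_mul, map_inv]; rfl
    have h2 : (γ : SL(2, ℤ)) * (r i : SL(2, ℤ))⁻¹ = ((γ * (r i)⁻¹ : Γ) : SL(2, ℤ)) := rfl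
    rw [h1, h2, mem_kerG, mem_kerG]
    constructor
    · rintro ⟨_, h⟩
      refine ⟨(γ * (r i)⁻¹).2, ?_⟩
      have h3 : liftH e κ (Additive.ofMul (e (γ * (r i)⁻¹))) = 0 := h
      rw [liftH_apply] at h3
      exact h3
    · rintro ⟨_, h⟩
      refine ⟨(e (γ * (r i)⁻¹)).2, ?_⟩
      have h3 : liftH e κ (Additive.ofMul (e (γ * (r i)⁻¹))) = 0 := by
        rw [liftH_apply]; exact h
      exact h3
  intro γ'
  obtain ⟨i, hi, hu⟩ := hr (e.symm γ')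
  refine ⟨i, ?_, ?_⟩
  · have := (key (e.symm γ') i).mpr hi
    rwa [e.apply_symm_apply] at this
  · intro j hj
    apply hu
    have := (key (e.symm γ') j)
    rw [e.apply_symm_apply] at this
    exact this.mp hj

theorem liftH_mem_HH {κ : Additive Γ →+ ZMod p} (hκ : κ ∈ HH p Γ) : liftH e κ ∈ HH p Γ' := by
  intro γ hγ
  rw [liftH_apply']
  apply hκ
  rw [← map_pow, hγ, map_one]

theorem liftH_add (κ κ' : Additive Γ →+ ZMod p) :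
    liftH e (κ + κ') = liftH e κ + liftH e κ' := rfl

theorem liftH_ne_zero {κ : Additive Γ →+ ZMod p} (hκ : κ ≠ 0) : liftH e κ ≠ 0 := by
  intro h
  apply hκ
  refine AddMonoidHom.ext fun γ => ?_
  have := congrArg (fun f => f (Additive.ofMul (e (Additive.toMul γ)))) h
  simp only [liftH_apply] at this
  exact this

theorem exists_width (Γ : Subgroup SL(2, ℤ)) [Γ.FiniteIndex] :
    ∃ w : ℕ, 0 < w ∧ T ^ w ∈ Γ ∧ ∀ m : ℕ, 0 < m → m < w → T ^ m ∉ Γ := by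
  classical
  have hex : ∃ n : ℕ, 0 < n ∧ T ^ n ∈ Γ := by
    obtain ⟨n, hn, -, h⟩ := Subgroup.exists_pow_mem_of_index_ne_zero
      (Subgroup.FiniteIndex.index_ne_zero (H := Γ)) T
    exact ⟨n, hn, h⟩
  refine ⟨Nat.find hex, (Nat.find_spec hex).1, (Nat.find_spec hex).2, ?_⟩
  intro m hm hlt hmem
  exact Nat.find_min hex hlt ⟨hm, hmem⟩

/-- (BD) on both sides -/
theorem Pv_indT_conj [Γ.FiniteIndex] [Γ'.FiniteIndex] (hl : 0 < l)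
    (he : ∀ γ : Γ, matD l * ((γ : SL(2, ℤ)) : M2) = ((e γ : SL(2, ℤ)) : M2) * matD l)
    (hneg : (-1 : SL(2, ℤ)) ∈ Γ) {κ : Additive Γ →+ ZMod p}
    {uS uU uSd uUd : SL(2, ℤ) → ZMod p} (hH : IsH Γ κ uS uU) (hHd : IsH Γ' (liftH e κ) uSd uUd) :
    Pv Γ' (lift l (indT Γ)) (fun g => uSd g - uUd g) = Pv Γ (indT Γ) (fun g => uS g - uU g) := by
  obtain ⟨w, hw, hwΓ, hmin⟩ := exists_width Γ
  rw [lift_indT hl he hneg, bd Γ κ uS uU hH w hw hwΓ hmin,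
    bd Γ' (liftH e κ) uSd uUd hHd (l * w) (Nat.mul_pos hl hw) (conj_T_pow_mem hl he hwΓ)
      (conj_width hl he hmin)]
  have h1 : (⟨T ^ (l * w), conj_T_pow_mem hl he hwΓ⟩ : Γ') = e ⟨T ^ w, hwΓ⟩ :=
    Subtype.ext (conj_T_pow hl he hwΓ).symm
  rw [h1, liftH_apply]

/-- `Γ ≤ Γ₀(l)` -/
theorem conj_dvd
    (he : ∀ γ : Γ, matD l * ((γ : SL(2, ℤ)) : M2) = ((e γ : SL(2, ℤ)) : M2) * matD l)
    (γ : Γ) : (l : ℤ) ∣ (γ : SL(2, ℤ)) 1 0 := by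
  have h := he γ
  rw [liftAux_mul_matD, liftAux_matD_mul] at h
  have h10 := congrFun (congrFun h 1) 0
  simp at h10
  exact ⟨_, by rw [h10, mul_comm]⟩

theorem indT_S_inv (hl : 1 < l)
    (he : ∀ γ : Γ, matD l * ((γ : SL(2, ℤ)) : M2) = ((e γ : SL(2, ℤ)) : M2) * matD l) :
    (indT Γ (S⁻¹ * 1) : ZMod p) = 0 := by
  classical
  unfold indT
  rw [if_neg]
  rintro ⟨n, hn⟩
  have h1 := conj_dvd he ⟨_, hn⟩
  have h2 : (T ^ n * (S⁻¹ * 1) : SL(2, ℤ)) 1 0 = -1 := by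
    rw [mul_one, Matrix.SpecialLinearGroup.coe_mul, coe_T_zpow,
      Matrix.SpecialLinearGroup.coe_inv, Matrix.adjugate_fin_two]
    simp [S, Matrix.mul_apply, Fin.sum_univ_two]
  simp only at h1
  rw [h2] at h1
  have h3 : (l : ℤ) ∣ 1 := (Int.dvd_neg).mp h1
  have h4 : (l : ℤ) ≤ 1 := Int.le_of_dvd one_pos h3
  have h5 : (1 : ℤ) < l := by exact_mod_cast hl
  omega

theorem indT_one (Γ : Subgroup SL(2, ℤ)) : (indT Γ 1 : ZMod p) = 1 := by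
  classical
  unfold indT
  rw [if_pos]
  exact ⟨0, by simp⟩

/-- a hom which is not orthogonal to the boundary symbol of `∞` -/
theorem exists_H_indT_ne [Fact p.Prime] [Finite (SL(2, ℤ) ⧸ Γ)] (hl : 1 < l)
    (he : ∀ γ : Γ, matD l * ((γ : SL(2, ℤ)) : M2) = ((e γ : SL(2, ℤ)) : M2) * matD l)
    (hneg : (-1 : SL(2, ℤ)) ∈ Γ) :
    ∃ (κ₁ : Additive Γ →+ ZMod p) (uS uU : SL(2, ℤ) → ZMod p), IsH Γ κ₁ uS uU ∧
      Pv Γ (indT Γ) (fun g => uS g - uU g) ≠ 0 := by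
  classical
  have hv : RI Γ (fun g : SL(2, ℤ) => (if g ∈ Γ then 1 else 0 : ZMod p)) := by
    intro g γ
    have : g * (γ : SL(2, ℤ)) ∈ Γ ↔ g ∈ Γ := Subgroup.mul_mem_cancel_right Γ γ.2
    simp only [this]
  obtain ⟨κ₁, uS, uU, hH, hd⟩ := exists_H_of hneg _ hv
  refine ⟨κ₁, uS, uU, hH, ?_⟩
  have h1 : Pv Γ (indT Γ) (fun g => uS g - uU g) =
      integ Γ (fun g => xS (indT Γ) g * (if g ∈ Γ then 1 else 0 : ZMod p)) := by
    unfold Pv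
    exact integ_congr fun g => by dsimp only; rw [hd]
  have hRI : RI Γ (xS (indT Γ : SL(2, ℤ) → ZMod p)) :=
    xS_RI (κ := 0) (QI_zero_iff.mpr (indT_RI Γ))
  rw [h1, integ_indicator hRI]
  unfold xS
  rw [indT_S_inv hl he, indT_one, zero_sub]
  exact neg_ne_zero.mpr one_ne_zero

end Fermat.Agent.S41.Pair
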