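import Mathlib

/-!
# S41/PAIR-LINALG (Mathlib only)

`linalg1` : `W_c = im(S-1) ∩ im(U-1) = (V^S + V^U)^perp` for the dot product on `Ω → K`.
`linalg2` : `push (W_c') = {d : pull d ∈ V'^S + V'^U}^perp`.
-/

set_option autoImplicit false

namespace Fermat.Agent.S41.Pair

/-- separation of a vector from a subspace by the dot product -/
theorem linalg_sep {Ω K : Type} [Fintype Ω] [Field K] (W : Submodule K (Ω → K)) (d : Ω → K)
    (hd : d ∉ W) : ∃ z : Ω → K, (∀ v ∈ W, ∑ x, z x * v x = 0) ∧ ∑ x, z x * d x ≠ 0 := by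
  classical
  obtain ⟨φ, hφd, hφW⟩ := Submodule.exists_le_ker_of_notMem hd
  have e : ∀ v : Ω → K, φ v = ∑ x, (φ fun j => if x = j then 1 else 0) * v x := by
    intro v
    rw [LinearMap.pi_apply_eq_sum_univ φ v]
    exact Finset.sum_congr rfl fun x _ => by rw [smul_eq_mul, mul_comm]
  refine ⟨fun x => φ fun j => if x = j then 1 else 0, fun v hv => ?_, ?_⟩
  · rw [← e]
    exact hφW hv
  · rw [← e]
    exact hφd

/-- `(V^S)^perp = im (S - 1)` -/
theorem linalg_im {Ω K : Type} [Fintype Ω] [Field K] (s : Equiv.Perm Ω) (z : Ω → K)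
    (hz : ∀ a : Ω → K, (∀ x, a (s x) = a x) → ∑ x, z x * a x = 0) :
    ∃ w : Ω → K, ∀ x, z x = w (s x) - w x := by
  classical
  let L : (Ω → K) →ₗ[K] (Ω → K) := LinearMap.funLeft K K s - LinearMap.id
  have hL : ∀ w x, L w x = w (s x) - w x := fun w x => rfl
  by_contra hcon
  have hz' : z ∉ LinearMap.range L := by
    rintro ⟨w, hw⟩
    exact hcon ⟨w, fun x => by rw [← hw, hL]⟩
  obtain ⟨a, ha1, ha2⟩ := linalg_sep _ z hz'
  have ha : ∀ x, a (s x) = a x := by
    intro x0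
    have h := ha1 (L (Pi.single (s x0) 1)) ⟨_, rfl⟩
    simp only [hL, mul_sub, Finset.sum_sub_distrib] at h
    have h1 : ∑ x, a x * (Pi.single (s x0) (1 : K) : Ω → K) (s x) = a x0 := by
      rw [Finset.sum_eq_single x0]
      · simp
      · intro b _ hb
        rw [Pi.single_eq_of_ne (fun h => hb (s.injective h)), mul_zero]
      · intro h; exact absurd (Finset.mem_univ _) h
    have h2 : ∑ x, a x * (Pi.single (s x0) (1 : K) : Ω → K) x = a (s x0) := by
      rw [Finset.sum_eq_single (s x0)]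
      · simp
      · intro b _ hb
        rw [Pi.single_eq_of_ne hb, mul_zero]
      · intro h; exact absurd (Finset.mem_univ _) h
    rw [h1, h2] at h
    exact (sub_eq_zero.1 h).symm
  apply ha2
  rw [← hz a ha]
  exact Finset.sum_congr rfl fun x _ => mul_comm _ _

theorem linalg1 {Ω K : Type} [Fintype Ω] [Field K] (s u : Equiv.Perm Ω) (d : Ω → K)
    (h : ∀ w y : Ω → K, (∀ x, w (s x) - w x = y (u x) - y x) →
      ∑ x, (w (s x) - w x) * d x = 0) :
    ∃ a b : Ω → K, (∀ x, d x = a x + b x) ∧ (∀ x, a (s x) = a x) ∧ (∀ x, b (u x) = b x) := by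
  classical
  let inv : Equiv.Perm Ω → Submodule K (Ω → K) := fun t =>
    { carrier := {a | ∀ x, a (t x) = a x}
      zero_mem' := fun _ => rfl
      add_mem' := by
        intro a b ha hb x
        show a (t x) + b (t x) = a x + b x
        rw [ha x, hb x]
      smul_mem' := by
        intro c a ha x
        show c • a (t x) = c • a x
        rw [ha x] }
  by_contra hcon
  have hd : d ∉ inv s ⊔ inv u := by
    intro hd
    obtain ⟨a, ha, b, hb, hab⟩ := Submodule.mem_sup.1 hd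
    exact hcon ⟨a, b, fun x => by rw [← hab]; rfl, ha, hb⟩
  obtain ⟨z, hz1, hz2⟩ := linalg_sep _ d hd
  obtain ⟨w, hw⟩ := linalg_im s z fun a ha => hz1 a (Submodule.mem_sup_left ha)
  obtain ⟨y, hy⟩ := linalg_im u z fun b hb => hz1 b (Submodule.mem_sup_right hb)
  apply hz2
  rw [← h w y fun x => by rw [← hw, ← hy]]
  exact Finset.sum_congr rfl fun x _ => by rw [hw]

theorem linalg2 {Ω Ω' K : Type} [Fintype Ω] [Fintype Ω'] [Field K] (s' u' : Equiv.Perm Ω')
    (pull : (Ω → K) →ₗ[K] (Ω' → K)) (push : (Ω' → K) →ₗ[K] (Ω → K))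
    (hadj : ∀ x' d, ∑ t, push x' t * d t = ∑ z, x' z * pull d z) (x : Ω → K)
    (hx : ∀ d : Ω → K, (∃ a b : Ω' → K, (∀ z, pull d z = a z + b z) ∧ (∀ z, a (s' z) = a z) ∧
      (∀ z, b (u' z) = b z)) → ∑ t, x t * d t = 0) :
    ∃ w' y' : Ω' → K, (∀ z, w' (s' z) - w' z = y' (u' z) - y' z) ∧
      x = push (fun z => w' (s' z) - w' z) := by
  classical
  let L : Equiv.Perm Ω' → (Ω' → K) →ₗ[K] (Ω' → K) := fun t =>
    LinearMap.funLeft K K t - LinearMap.id
  have hL : ∀ t w z, L t w z = w (t z) - w z := fun t w z => rfl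
  let W : Submodule K (Ω → K) := (LinearMap.range (L s') ⊓ LinearMap.range (L u')).map push
  by_contra hcon
  have hxW : x ∉ W := by
    rintro ⟨v, ⟨⟨w', hw'⟩, ⟨y', hy'⟩⟩, hv⟩
    refine hcon ⟨w', y', fun z => ?_, ?_⟩
    · rw [← hL, ← hL, hw', hy']
    · rw [← hv, ← hw']
      rfl
  obtain ⟨d, hd1, hd2⟩ := linalg_sep _ x hxW
  apply hd2
  have h1 := linalg1 s' u' (pull d) (by
    intro w y hwy
    have hmem : push (L s' w) ∈ W := by
      refine ⟨L s' w, ⟨⟨w, rfl⟩, ⟨y, ?_⟩⟩, rfl⟩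
      funext z
      rw [hL, hL, hwy]
    have h2 := hd1 _ hmem
    have h3 := hadj (L s' w) d
    rw [show ∑ z, (w (s' z) - w z) * pull d z = ∑ z, L s' w z * pull d z from rfl, ← h3, ← h2]
    exact Finset.sum_congr rfl fun t _ => mul_comm _ _)
  rw [← hx d h1]
  exact Finset.sum_congr rfl fun t _ => mul_comm _ _

end Fermat.Agent.S41.Pair
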