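import Fermat.Agent.S41.Pair.Fub
import Fermat.Agent.S41.Pair.Anti
import Fermat.Agent.S41.Pair.LinAlg
import Fermat.Agent.S41.Pair.Surj
import Fermat.Agent.S41.Pair.Class

/-!
# S41 / Pair / Ker : the kernel trick, first half   [key S41/PAIR-INV, helper8]

`κ' ≠ 0` a hom on `Γ` with data `(uS,uU)`, `Γ' = kerG Γ κ'`.  Every symbol `F` of `Γ` with
`Pv Γ F (uS - uU) = 0` is, up to a constant, the transfer of a symbol of `Γ'`.
-/

set_option autoImplicit false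
set_option linter.style.haveILetI false

open ModularGroup
open scoped MatrixGroups

noncomputable section

namespace Fermat.Agent.S41.Pair

variable {p : ℕ}

/-- a function which is left invariant under `S` and `T` is left invariant under everything -/
theorem ker_LI_all {A : Type} {f : SL(2, ℤ) → A} (hS : LI S f) (hT : LI T f) (h g : SL(2, ℤ)) :
    f (h * g) = f g := by
  have hh : h ∈ Subgroup.closure ({S, T} : Set SL(2, ℤ)) := by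
    rw [SpecialLinearGroup.SL2Z_generators]; trivial
  induction hh using Subgroup.closure_induction generalizing g with
  | mem x hx =>
    rcases hx with rfl | rfl
    · exact hS.mul_left g
    · exact hT.mul_left g
  | one => rw [one_mul]
  | mul x y _ _ hx hy => rw [mul_assoc, hx, hy]
  | inv x _ hx =>
    have := hx (x⁻¹ * g)
    rw [mul_inv_cancel_left] at this
    exact this.symm

theorem ker_const {A : Type} {f : SL(2, ℤ) → A} (hS : LI S f) (hT : LI T f) (g : SL(2, ℤ)) :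
    f g = f 1 := by
  have := ker_LI_all hS hT g 1
  rwa [mul_one] at this

theorem ker_LI_T {A : Type} {f : SL(2, ℤ) → A} (hS : LI S f) (hU : LI (S * T) f) : LI T f := by
  intro g
  have h1 := hU (S * g)
  rw [mul_inv_rev, mul_assoc, inv_mul_cancel_left] at h1
  rw [h1, hS.mul_left]

/-- a quasi-invariant function which is left invariant under `S` and `U` has `κ = 0` -/
theorem ker_eq_zero {Γ : Subgroup SL(2, ℤ)} {κ : Additive Γ →+ ZMod p} {u : SL(2, ℤ) → ZMod p}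
    (hq : QI Γ κ u) (hS : LI S u) (hU : LI (S * T) u) : κ = 0 := by
  refine AddMonoidHom.ext fun γ => ?_
  have h1 := hq 1 (Additive.toMul γ)
  have h2 := ker_const hS (ker_LI_T hS hU) (1 * ((Additive.toMul γ : Γ) : SL(2, ℤ)))
  rw [h2] at h1
  simpa using h1.symm

theorem ker_eq_smul [Fact p.Prime] {Γ : Subgroup SL(2, ℤ)} (κ κ' : Additive Γ →+ ZMod p)
    (h0 : κ' ≠ 0) (h : ∀ γ, κ' γ = 0 → κ γ = 0) : ∃ c : ZMod p, κ = c • κ' := by
  obtain ⟨γ0, hγ0⟩ : ∃ γ0, κ' γ0 ≠ 0 := by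
    by_contra hcon
    push Not at hcon
    exact h0 (AddMonoidHom.ext hcon)
  refine ⟨κ γ0 / κ' γ0, ?_⟩
  refine AddMonoidHom.ext fun γ => ?_
  set n : ℕ := (κ' γ / κ' γ0).val with hn
  have hn' : (n : ZMod p) = κ' γ / κ' γ0 := ZMod.natCast_zmod_val _
  have h1 : κ' (γ - n • γ0) = 0 := by
    rw [map_sub, map_nsmul, nsmul_eq_mul, hn']
    field_simp
    ring
  have h2 := h _ h1
  rw [map_sub, map_nsmul, nsmul_eq_mul, hn', sub_eq_zero] at h2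
  rw [h2, AddMonoidHom.smul_apply, smul_eq_mul]
  field_simp

/-- the kernel of `κ`, as a subgroup of `SL(2,ℤ)` -/
def kerG (Γ : Subgroup SL(2, ℤ)) (κ : Additive Γ →+ ZMod p) : Subgroup SL(2, ℤ) :=
  (AddMonoidHom.toMultiplicativeRight κ).ker.map Γ.subtype

theorem mem_kerG {Γ : Subgroup SL(2, ℤ)} {κ : Additive Γ →+ ZMod p} {g : SL(2, ℤ)} :
    g ∈ kerG Γ κ ↔ ∃ h : g ∈ Γ, κ (Additive.ofMul (⟨g, h⟩ : Γ)) = 0 := by
  unfold kerG
  rw [Subgroup.mem_map]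
  constructor
  · rintro ⟨γ, hγ, rfl⟩
    exact ⟨γ.2, hγ⟩
  · rintro ⟨h, hg⟩
    exact ⟨⟨g, h⟩, hg, rfl⟩

theorem kerG_le (Γ : Subgroup SL(2, ℤ)) (κ : Additive Γ →+ ZMod p) : kerG Γ κ ≤ Γ :=
  fun _ hg => (mem_kerG.mp hg).1

theorem kerG_finiteIndex [NeZero p] (Γ : Subgroup SL(2, ℤ)) [Γ.FiniteIndex]
    (κ : Additive Γ →+ ZMod p) : (kerG Γ κ).FiniteIndex := by
  constructor
  unfold kerG
  rw [Subgroup.index_map_subtype]
  exact mul_ne_zero Subgroup.FiniteIndex.index_ne_zero Subgroup.FiniteIndex.index_ne_zero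

theorem resH_kerG (Γ : Subgroup SL(2, ℤ)) (κ : Additive Γ →+ ZMod p) :
    resH (kerG_le Γ κ) κ = 0 := by
  refine AddMonoidHom.ext fun γ => ?_
  obtain ⟨h, hg⟩ := mem_kerG.mp (Additive.toMul γ).2
  exact hg


theorem LI.of_mul {h : SL(2, ℤ)} {A : Type} {f : SL(2, ℤ) → A} (hf : ∀ g, f (h * g) = f g) :
    LI h f := by
  intro g
  have := hf (h⁻¹ * g)
  rw [mul_inv_cancel_left] at this
  exact this.symm

/-- `exists_quasi_pair` in the language of `IsH` -/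
theorem ker_exists_H {Γ : Subgroup SL(2, ℤ)} (hneg : (-1 : SL(2, ℤ)) ∈ Γ)
    (v : SL(2, ℤ) ⧸ Γ → ZMod p) :
    ∃ (κ : Additive Γ →+ ZMod p) (uS uU : SL(2, ℤ) → ZMod p), IsH Γ κ uS uU ∧
      ∀ g : SL(2, ℤ), uS g - uU g = v (g : SL(2, ℤ) ⧸ Γ) := by
  obtain ⟨κ, uS, uU, h1, h2, h3, h4, h5⟩ := exists_quasi_pair hneg v
  exact ⟨κ, uS, uU, ⟨h1, h2, LI.of_mul h3, LI.of_mul h4⟩, h5⟩

theorem IsH.neg_one {Γ : Subgroup SL(2, ℤ)} {κ : Additive Γ →+ ZMod p}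
    {uS uU : SL(2, ℤ) → ZMod p} (h : IsH Γ κ uS uU) (hneg : (-1 : SL(2, ℤ)) ∈ Γ) :
    κ (Additive.ofMul (⟨-1, hneg⟩ : Γ)) = 0 := by
  have h1 := h.qS 1 ⟨-1, hneg⟩
  have h2 : uS (1 * ((⟨-1, hneg⟩ : Γ) : SL(2, ℤ))) = uS 1 := by
    have e : (1 : SL(2, ℤ)) * ((⟨-1, hneg⟩ : Γ) : SL(2, ℤ)) = S * (S * 1) := by
      rw [one_mul, mul_one, CL.SS_eq_neg_one]
    rw [e, h.lS.mul_left, h.lS.mul_left]
  rw [h2] at h1
  simpa using h1.symm

theorem neg_one_mem_kerG {Γ : Subgroup SL(2, ℤ)} {κ : Additive Γ →+ ZMod p}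
    {uS uU : SL(2, ℤ) → ZMod p} (h : IsH Γ κ uS uU) (hneg : (-1 : SL(2, ℤ)) ∈ Γ) :
    (-1 : SL(2, ℤ)) ∈ kerG Γ κ := mem_kerG.mpr ⟨hneg, h.neg_one hneg⟩

/-- from `(S-1) w = (U-1) y` to a symbol -/
theorem ker_exists_symb {Γ : Subgroup SL(2, ℤ)} (hneg : (-1 : SL(2, ℤ)) ∈ Γ)
    (w y : SL(2, ℤ) ⧸ Γ → ZMod p)
    (hwy : ∀ g : SL(2, ℤ), w ((S⁻¹ * g : SL(2, ℤ)) : SL(2, ℤ) ⧸ Γ) - w (g : SL(2, ℤ) ⧸ Γ)
      = y (((S * T)⁻¹ * g : SL(2, ℤ)) : SL(2, ℤ) ⧸ Γ) - y (g : SL(2, ℤ) ⧸ Γ)) :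
    ∃ (κ : Additive Γ →+ ZMod p) (F vS vU : SL(2, ℤ) → ZMod p), IsSymb Γ κ F ∧ IsH Γ κ vS vU ∧
      ∀ g : SL(2, ℤ), xS F g = w ((S⁻¹ * g : SL(2, ℤ)) : SL(2, ℤ) ⧸ Γ) - w (g : SL(2, ℤ) ⧸ Γ) := by
  obtain ⟨κ, vS, vU, hH, hv⟩ := ker_exists_H hneg (fun z => y z - w z)
  have hx : ∀ g : SL(2, ℤ), xS (fun g => vS g + w (g : SL(2, ℤ) ⧸ Γ)) g
      = w ((S⁻¹ * g : SL(2, ℤ)) : SL(2, ℤ) ⧸ Γ) - w (g : SL(2, ℤ) ⧸ Γ) := by
    intro g
    unfold xS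
    dsimp only
    rw [hH.lS]; ring
  have hF2 : ∀ g : SL(2, ℤ), vS g + w (g : SL(2, ℤ) ⧸ Γ) = vU g + y (g : SL(2, ℤ) ⧸ Γ) := by
    intro g
    linear_combination hv g
  refine ⟨κ, fun g => vS g + w (g : SL(2, ℤ) ⧸ Γ), vS, vU, ⟨hH.qS.add_RI (RI_mk w), ?_⟩, hH, hx⟩
  intro g
  have h1 := hx (S * g)
  unfold xS at h1
  dsimp only at h1
  rw [hwy (S * g)] at h1
  simp only [inv_mul_cancel_left] at h1
  have h2 := hF2 ((S * T)⁻¹ * (S * g))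
  have h3 := hF2 (S * g)
  have h4 := hH.lU (S * g)
  have e : (S * T)⁻¹ * (S * g) = T⁻¹ * g := by rw [mul_inv_rev, mul_assoc, inv_mul_cancel_left]
  rw [e] at h2 h4 h1
  show vS (T⁻¹ * g) + w ((T⁻¹ * g : SL(2, ℤ)) : SL(2, ℤ) ⧸ Γ) = vS g + w (g : SL(2, ℤ) ⧸ Γ)
  linear_combination h2 + h4 - h1 - h3


theorem ker_mk_out {Γ' Γ : Subgroup SL(2, ℤ)} (hle : Γ' ≤ Γ) (g : SL(2, ℤ)) :
    (((g : SL(2, ℤ) ⧸ Γ').out : SL(2, ℤ)) : SL(2, ℤ) ⧸ Γ) = (g : SL(2, ℤ) ⧸ Γ) := by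
  obtain ⟨h, hh⟩ := QuotientGroup.mk_out_eq_mul Γ' g
  rw [hh]
  exact QuotientGroup.eq.mpr (by
    have : (g * (h : SL(2, ℤ)))⁻¹ * g = (h : SL(2, ℤ))⁻¹ := by group
    rw [this]
    exact Γ.inv_mem (hle h.2))

/-- **kernel trick, first half.** -/
theorem ker_tr [Fact p.Prime] {Γ : Subgroup SL(2, ℤ)} [Γ.FiniteIndex]
    (hneg : (-1 : SL(2, ℤ)) ∈ Γ) {κ κ' : Additive Γ →+ ZMod p}
    {uS uU wS wU F : SL(2, ℤ) → ZMod p} (hH' : IsH Γ κ' uS uU) (h0 : κ' ≠ 0)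
    (hF : IsSymb Γ κ F) (hH : IsH Γ κ wS wU) (hP : Pv Γ F (fun g => uS g - uU g) = 0)
    {ι : Type} [Fintype ι] {r : ι → Γ} (hr : IsReps (kerG Γ κ') Γ r) :
    ∃ (κ'' : Additive (kerG Γ κ') →+ ZMod p) (F' vS vU : SL(2, ℤ) → ZMod p) (c : ZMod p),
      IsSymb (kerG Γ κ') κ'' F' ∧ IsH (kerG Γ κ') κ'' vS vU ∧ ∀ g, F g = trF r F' g + c := by
  classical
  have hle : kerG Γ κ' ≤ Γ := kerG_le Γ κ'
  haveI : (kerG Γ κ').FiniteIndex := kerG_finiteIndex Γ κ'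
  have hneg' : (-1 : SL(2, ℤ)) ∈ kerG Γ κ' := neg_one_mem_kerG hH' hneg
  letI := Fintype.ofFinite (SL(2, ℤ) ⧸ Γ)
  letI := Fintype.ofFinite (SL(2, ℤ) ⧸ kerG Γ κ')
  let s' : Equiv.Perm (SL(2, ℤ) ⧸ kerG Γ κ') := MulAction.toPerm (S⁻¹ : SL(2, ℤ))
  let u' : Equiv.Perm (SL(2, ℤ) ⧸ kerG Γ κ') := MulAction.toPerm ((S * T)⁻¹ : SL(2, ℤ))
  let pr : SL(2, ℤ) ⧸ kerG Γ κ' → SL(2, ℤ) ⧸ Γ := fun z => ((z.out : SL(2, ℤ)) : SL(2, ℤ) ⧸ Γ)
  have hpr : ∀ g : SL(2, ℤ), pr (g : SL(2, ℤ) ⧸ kerG Γ κ') = (g : SL(2, ℤ) ⧸ Γ) :=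
    fun g => ker_mk_out hle g
  let pull : ((SL(2, ℤ) ⧸ Γ) → ZMod p) →ₗ[ZMod p] ((SL(2, ℤ) ⧸ kerG Γ κ') → ZMod p) :=
    LinearMap.funLeft (ZMod p) (ZMod p) pr
  let push : ((SL(2, ℤ) ⧸ kerG Γ κ') → ZMod p) →ₗ[ZMod p] ((SL(2, ℤ) ⧸ Γ) → ZMod p) :=
    { toFun := fun x' t => trF r (fun g => x' (g : SL(2, ℤ) ⧸ kerG Γ κ')) t.out
      map_add' := by
        intro a b
        funext t
        simp only [trF, Pi.add_apply, Finset.sum_add_distrib]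
      map_smul' := by
        intro c a
        funext t
        simp only [trF, Pi.smul_apply, smul_eq_mul, Finset.mul_sum, RingHom.id_apply] }
  have hpush : ∀ x' t, push x' t = trF r (fun g => x' (g : SL(2, ℤ) ⧸ kerG Γ κ')) t.out :=
    fun _ _ => rfl
  have hadj : ∀ x' d, ∑ t, push x' t * d t = ∑ z, x' z * pull d z := by
    intro x' d
    have e1 : ∑ t, push x' t * d t = integ Γ (trF r (fun g => x' (g : SL(2, ℤ) ⧸ kerG Γ κ') *
        d (g : SL(2, ℤ) ⧸ Γ))) := by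
      rw [integ_eq_sum]
      refine Finset.sum_congr rfl fun t _ => ?_
      rw [hpush]
      unfold trF
      rw [Finset.sum_mul]
      refine Finset.sum_congr rfl fun i _ => ?_
      congr 1
      have : ((t.out * ((r i : Γ) : SL(2, ℤ))⁻¹ : SL(2, ℤ)) : SL(2, ℤ) ⧸ Γ) = t := by
        conv_rhs => rw [← QuotientGroup.out_eq' t]
        exact (QuotientGroup.eq.mpr (by
          have : (t.out * ((r i : Γ) : SL(2, ℤ))⁻¹)⁻¹ * t.out = (r i : SL(2, ℤ)) := by group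
          rw [this]; exact (r i).2))
      rw [this]
    rw [e1, integ_trF hle hr ((RI_mk x').mul (fun g γ => by
      show d ((g * (γ : SL(2, ℤ)) : SL(2, ℤ)) : SL(2, ℤ) ⧸ Γ) = d (g : SL(2, ℤ) ⧸ Γ)
      exact RI_mk d g ⟨γ, hle γ.2⟩)), integ_eq_sum]
    refine Finset.sum_congr rfl fun z _ => ?_
    rw [QuotientGroup.out_eq']
    rfl
  let x : (SL(2, ℤ) ⧸ Γ) → ZMod p := fun t => xS F t.out
  have hx : ∀ d : (SL(2, ℤ) ⧸ Γ) → ZMod p,
      (∃ a b : (SL(2, ℤ) ⧸ kerG Γ κ') → ZMod p, (∀ z, pull d z = a z + b z) ∧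
        (∀ z, a (s' z) = a z) ∧ (∀ z, b (u' z) = b z)) → ∑ t, x t * d t = 0 := by
    rintro d ⟨a, b, hab, ha, hb⟩
    obtain ⟨κd, dS, dU, hHd, hd⟩ := ker_exists_H hneg d
    have hres : resH hle κd = 0 := by
      have hq : QI (kerG Γ κ') (resH hle κd)
          (fun g => dS g + (- a (g : SL(2, ℤ) ⧸ kerG Γ κ'))) :=
        (hHd.qS.res hle).add_RI (RI_mk (fun z => - a z))
      refine ker_eq_zero hq ?_ ?_
      · intro g
        have := ha (g : SL(2, ℤ) ⧸ kerG Γ κ')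
        show dS (S⁻¹ * g) + - a ((S⁻¹ * g : SL(2, ℤ)) : SL(2, ℤ) ⧸ kerG Γ κ') = _
        rw [hHd.lS]
        congr 2
      · have e : ∀ g : SL(2, ℤ), dS g + (- a (g : SL(2, ℤ) ⧸ kerG Γ κ'))
            = dU g + b (g : SL(2, ℤ) ⧸ kerG Γ κ') := by
          intro g
          have h1 := hab (g : SL(2, ℤ) ⧸ kerG Γ κ')
          have h2 : pull d (g : SL(2, ℤ) ⧸ kerG Γ κ') = d (g : SL(2, ℤ) ⧸ Γ) := by
            show d (pr _) = _
            rw [hpr]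
          rw [h2, ← hd g] at h1
          linear_combination h1
        intro g
        show dS _ + - a _ = dS _ + - a _
        rw [e, e, hHd.lU]
        congr 1
        exact hb (g : SL(2, ℤ) ⧸ kerG Γ κ')
    obtain ⟨c, rfl⟩ := ker_eq_smul κd κ' h0 (by
      intro γ hγ
      have hm : ((Additive.toMul γ : Γ) : SL(2, ℤ)) ∈ kerG Γ κ' := mem_kerG.mpr ⟨(Additive.toMul γ).2, hγ⟩
      have := DFunLike.congr_fun hres (Additive.ofMul (⟨_, hm⟩ : kerG Γ κ'))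
      exact this)
    have h1 := Pv_indep_right hH hF hHd (hH'.smul c)
    have h2 : Pv Γ F (fun g => c * uS g - c * uU g) = 0 := by
      rw [Pv_congr (F' := F) (d' := fun g => c * (uS g - uU g)) (fun _ => rfl)
        (fun g => by ring), Pv_smul_right, hP, mul_zero]
    rw [h2] at h1
    rw [← h1]
    unfold Pv
    rw [integ_eq_sum]
    refine Finset.sum_congr rfl fun t _ => ?_
    dsimp only
    rw [hd, QuotientGroup.out_eq']
  obtain ⟨w', y', hwy, hxp⟩ := linalg2 s' u' pull push hadj x hx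
  obtain ⟨κ'', F', vS, vU, hF', hHv, hxF'⟩ := ker_exists_symb hneg' w' y'
    (fun g => hwy (g : SL(2, ℤ) ⧸ kerG Γ κ'))
  have hxx : ∀ g, xS F g = trF r (xS F') g := by
    intro g
    have h1 : x (g : SL(2, ℤ) ⧸ Γ) = trF r (xS F') ((g : SL(2, ℤ) ⧸ Γ).out) := by
      rw [hxp, hpush]
      unfold trF
      refine Finset.sum_congr rfl fun i _ => ?_
      rw [hxF']
      rfl
    rw [(trF_RI hr (xS_RI hF'.q)).out_eq] at h1
    rw [← h1]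
    exact ((xS_RI hF.q).out_eq g).symm
  have hD_T : LI T (fun g => F g - trF r F' g) := hF.l.sub (trF_LI r hF'.l)
  have hD_S : LI S (fun g => F g - trF r F' g) := by
    intro g
    have h1 := hxx g
    rw [← xS_trF] at h1
    unfold xS at h1
    show F _ - trF r F' _ = F _ - trF r F' _
    linear_combination h1
  refine ⟨κ'', F', vS, vU, F 1 - trF r F' 1, hF', hHv, fun g => ?_⟩
  have := ker_const hD_S hD_T g
  linear_combination this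

end Fermat.Agent.S41.Pair
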