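import Fermat.Agent.S41.Pair.Symb
import Fermat.Agent.S41.Pair.Anti
import Fermat.Agent.S41.Pair.Fub
import Fermat.Agent.S41.Pair.LinAlg

/-!
# S41 / Pair / Perf : perfectness statements   [keys S41/PAIR-PERF1, S41/PAIR-PERF2]

`Ω = G ⧸ Γ`, `s = (S⁻¹ • ·)`, `u = ((S*T)⁻¹ • ·)` (`MulAction.toPerm`).  Right invariant functions on `G` = functions on `Ω`
(`RI.exists_desc`, `RI_mk`, `integ_mk`).

* `perf_right` (PERF1): `d` descends to `Ω`; `linalg1`: for `w y : Ω → k` with `(S-1)w = (U-1)y`, `exists_symb_of` gives a symbol `F`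
  with `xS F = (S-1) w`, so `∑ (w(s x) - w x) d x = Pv Γ F d = 0`.
* `perf_tr` (PERF2): `linalg2` with `Ω' = G ⧸ Γ'`, `pull d = d ∘ (G⧸Γ' → G⧸Γ)`, `push v' = ` descent of `trF r (v' ∘ mk)`;
  `hadj` = `integ_trF` (Fubini).  It gives `w' y'` on `Ω'`; `exists_symb_of` at `Γ'` gives `F'` with `xS F' = (S-1)w'`; then
  `xS (trF r F') = trF r (xS F') = xS F`, so `E = F - trF r F'` is left invariant under `S` and `T`: constant (`const_of_LI`).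
-/

set_option autoImplicit false

open ModularGroup
open scoped MatrixGroups

noncomputable section

namespace Fermat.Agent.S41.Pair

variable {p : ℕ} [Fact p.Prime] {Γ' Γ : Subgroup SL(2, ℤ)}

/-- [PERF1] if `d` is orthogonal to all symbols then `d ∈ V^S + V^U` -/
theorem perf_right [Finite (SL(2, ℤ) ⧸ Γ)] (hneg : (-1 : SL(2, ℤ)) ∈ Γ) {d : SL(2, ℤ) → ZMod p}
    (hd : RI Γ d)
    (h : ∀ (κ : Additive Γ →+ ZMod p) (uS uU F : SL(2, ℤ) → ZMod p), IsH Γ κ uS uU →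
      IsSymb Γ κ F → Pv Γ F d = 0) :
    ∃ a b : SL(2, ℤ) → ZMod p, RI Γ a ∧ RI Γ b ∧ LI S a ∧ LI (S * T) b ∧ ∀ g, d g = a g + b g := by
  classical
  letI : Fintype (SL(2, ℤ) ⧸ Γ) := Fintype.ofFinite _
  obtain ⟨dv, hdv⟩ := hd.exists_desc
  let s : Equiv.Perm (SL(2, ℤ) ⧸ Γ) := MulAction.toPerm (S⁻¹ : SL(2, ℤ))
  let u : Equiv.Perm (SL(2, ℤ) ⧸ Γ) := MulAction.toPerm ((S * T)⁻¹ : SL(2, ℤ))
  have hs : ∀ g : SL(2, ℤ), s (g : SL(2, ℤ) ⧸ Γ) = ((S⁻¹ * g : SL(2, ℤ)) : SL(2, ℤ) ⧸ Γ) :=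
    fun g => rfl
  have hu : ∀ g : SL(2, ℤ), u (g : SL(2, ℤ) ⧸ Γ) = (((S * T)⁻¹ * g : SL(2, ℤ)) : SL(2, ℤ) ⧸ Γ) :=
    fun g => rfl
  obtain ⟨a, b, hab, ha, hb⟩ := linalg1 s u dv (by
    intro w y hwy
    obtain ⟨κ, uS, uU, F, hH, hF, hx⟩ := exists_symb_of hneg
      (fun g => w (g : SL(2, ℤ) ⧸ Γ)) (fun g => y (g : SL(2, ℤ) ⧸ Γ)) (RI_mk w) (RI_mk y)
      (fun g => by
        have := hwy (g : SL(2, ℤ) ⧸ Γ)
        rw [hs, hu] at this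
        exact this)
    have h1 := h κ uS uU F hH hF
    rw [← h1, ← integ_mk (fun x => (w (s x) - w x) * dv x)]
    unfold Pv
    refine integ_congr fun g => ?_
    rw [hx, hdv, hs])
  refine ⟨fun g => a (g : SL(2, ℤ) ⧸ Γ), fun g => b (g : SL(2, ℤ) ⧸ Γ), RI_mk a, RI_mk b,
    fun g => ?_, fun g => ?_, fun g => ?_⟩
  · show a ((S⁻¹ * g : SL(2, ℤ)) : SL(2, ℤ) ⧸ Γ) = a (g : SL(2, ℤ) ⧸ Γ)
    rw [← hs, ha]
  · show b (((S * T)⁻¹ * g : SL(2, ℤ)) : SL(2, ℤ) ⧸ Γ) = b (g : SL(2, ℤ) ⧸ Γ)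
    rw [← hu, hb]
  · rw [← hdv, hab]

/-- [PERF2] a symbol of `Γ` which is orthogonal to every `d` that splits on `Γ'` is a transfer from `Γ'`, up to a constant -/
theorem perf_tr (hle : Γ' ≤ Γ) [Finite (SL(2, ℤ) ⧸ Γ')] [Finite (SL(2, ℤ) ⧸ Γ)]
    (hneg : (-1 : SL(2, ℤ)) ∈ Γ') {ι : Type} [Fintype ι] {r : ι → Γ} (hr : IsReps Γ' Γ r)
    {κ : Additive Γ →+ ZMod p} {F : SL(2, ℤ) → ZMod p} (hF : IsSymb Γ κ F)
    (h : ∀ d : SL(2, ℤ) → ZMod p, RI Γ d →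
      (∃ a b : SL(2, ℤ) → ZMod p, RI Γ' a ∧ RI Γ' b ∧ LI S a ∧ LI (S * T) b ∧ ∀ g, d g = a g + b g) →
      Pv Γ F d = 0) :
    ∃ (κ' : Additive Γ' →+ ZMod p) (uS' uU' F' : SL(2, ℤ) → ZMod p) (c : ZMod p),
      IsH Γ' κ' uS' uU' ∧ IsSymb Γ' κ' F' ∧ ∀ g, F g = trF r F' g + c := by
  classical
  letI : Fintype (SL(2, ℤ) ⧸ Γ) := Fintype.ofFinite _
  letI : Fintype (SL(2, ℤ) ⧸ Γ') := Fintype.ofFinite _
  let s' : Equiv.Perm (SL(2, ℤ) ⧸ Γ') := MulAction.toPerm (S⁻¹ : SL(2, ℤ))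
  let u' : Equiv.Perm (SL(2, ℤ) ⧸ Γ') := MulAction.toPerm ((S * T)⁻¹ : SL(2, ℤ))
  have hs : ∀ g : SL(2, ℤ), s' (g : SL(2, ℤ) ⧸ Γ') = ((S⁻¹ * g : SL(2, ℤ)) : SL(2, ℤ) ⧸ Γ') :=
    fun g => rfl
  have hu : ∀ g : SL(2, ℤ),
      u' (g : SL(2, ℤ) ⧸ Γ') = (((S * T)⁻¹ * g : SL(2, ℤ)) : SL(2, ℤ) ⧸ Γ') :=
    fun g => rfl
  let pull : (SL(2, ℤ) ⧸ Γ → ZMod p) →ₗ[ZMod p] (SL(2, ℤ) ⧸ Γ' → ZMod p) :=
    LinearMap.funLeft (ZMod p) (ZMod p) (Subgroup.quotientMapOfLE hle)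
  have hpull : ∀ (d : SL(2, ℤ) ⧸ Γ → ZMod p) (g : SL(2, ℤ)),
      pull d (g : SL(2, ℤ) ⧸ Γ') = d (g : SL(2, ℤ) ⧸ Γ) := fun d g => rfl
  let push : (SL(2, ℤ) ⧸ Γ' → ZMod p) →ₗ[ZMod p] (SL(2, ℤ) ⧸ Γ → ZMod p) :=
    { toFun := fun v' t => trF r (fun g => v' (g : SL(2, ℤ) ⧸ Γ')) t.out
      map_add' := by
        intro v v'
        funext t
        simp only [trF, Pi.add_apply, Finset.sum_add_distrib]
      map_smul' := by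
        intro c v
        funext t
        simp only [trF, Pi.smul_apply, smul_eq_mul, Finset.mul_sum, RingHom.id_apply] }
  have hpush : ∀ (v' : SL(2, ℤ) ⧸ Γ' → ZMod p) (g : SL(2, ℤ)),
      push v' (g : SL(2, ℤ) ⧸ Γ) = trF r (fun g => v' (g : SL(2, ℤ) ⧸ Γ')) g :=
    fun v' g => (trF_RI hr (RI_mk v')).out_eq g
  obtain ⟨x, hx⟩ := (xS_RI hF.q).exists_desc
  obtain ⟨w', y', hwy, hxw⟩ := linalg2 s' u' pull push (by
    intro x' d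
    rw [← integ_mk (fun t => push x' t * d t), ← integ_mk (fun z => x' z * pull d z)]
    have hf : RI Γ' (fun g : SL(2, ℤ) => x' (g : SL(2, ℤ) ⧸ Γ') * pull d (g : SL(2, ℤ) ⧸ Γ')) :=
      RI_mk (fun z => x' z * pull d z)
    rw [← integ_trF hle hr hf]
    refine integ_congr fun g => ?_
    rw [hpush]
    unfold trF
    rw [Finset.sum_mul]
    refine Finset.sum_congr rfl fun i _ => ?_
    show x' ((g * (r i : SL(2, ℤ))⁻¹ : SL(2, ℤ)) : SL(2, ℤ) ⧸ Γ') * d (g : SL(2, ℤ) ⧸ Γ) =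
      x' ((g * (r i : SL(2, ℤ))⁻¹ : SL(2, ℤ)) : SL(2, ℤ) ⧸ Γ') *
        pull d ((g * (r i : SL(2, ℤ))⁻¹ : SL(2, ℤ)) : SL(2, ℤ) ⧸ Γ')
    rw [hpull]
    have h1 : d ((g * (((r i)⁻¹ : Γ) : SL(2, ℤ)) : SL(2, ℤ)) : SL(2, ℤ) ⧸ Γ) =
      d (g : SL(2, ℤ) ⧸ Γ) := RI_mk d g (r i)⁻¹
    rw [Subgroup.coe_inv] at h1
    rw [h1]) x (by
    rintro d ⟨a, b, hab, ha, hb⟩
    have h1 := h (fun g => d (g : SL(2, ℤ) ⧸ Γ)) (RI_mk d)
      ⟨fun g => a (g : SL(2, ℤ) ⧸ Γ'), fun g => b (g : SL(2, ℤ) ⧸ Γ'), RI_mk a, RI_mk b,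
        fun g => by
          show a ((S⁻¹ * g : SL(2, ℤ)) : SL(2, ℤ) ⧸ Γ') = a (g : SL(2, ℤ) ⧸ Γ')
          rw [← hs, ha],
        fun g => by
          show b (((S * T)⁻¹ * g : SL(2, ℤ)) : SL(2, ℤ) ⧸ Γ') = b (g : SL(2, ℤ) ⧸ Γ')
          rw [← hu, hb],
        fun g => by rw [← hab, hpull]⟩
    rw [← h1, ← integ_mk (fun t => x t * d t)]
    unfold Pv
    refine integ_congr fun g => ?_
    rw [hx])
  obtain ⟨κ', uS', uU', F', hH, hF', hx'⟩ := exists_symb_of hneg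
    (fun g => w' (g : SL(2, ℤ) ⧸ Γ')) (fun g => y' (g : SL(2, ℤ) ⧸ Γ')) (RI_mk w') (RI_mk y')
    (fun g => by
      have := hwy (g : SL(2, ℤ) ⧸ Γ')
      rw [hs, hu] at this
      exact this)
  have hxS : ∀ g, xS F g = xS (trF r F') g := by
    intro g
    rw [xS_trF, ← hx, hxw, hpush]
    unfold trF
    refine Finset.sum_congr rfl fun i _ => ?_
    rw [hx']
    rfl
  have hES : LI S (fun g => F g - trF r F' g) := by
    intro g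
    have := hxS g
    unfold xS at this
    show F (S⁻¹ * g) - trF r F' (S⁻¹ * g) = F g - trF r F' g
    linear_combination this
  have hET : LI T (fun g => F g - trF r F' g) := hF.l.sub (trF_LI r hF'.l)
  refine ⟨κ', uS', uU', F', F 1 - trF r F' 1, hH, hF', fun g => ?_⟩
  have := const_of_LI hES hET g
  linear_combination this

end Fermat.Agent.S41.Pair
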